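/-
helper71, S25 (Jacobian exists), package TRIP = "the Picard functor in terms of triples".
INTERFACE FILE: definitions + the statements `Stmt_*` of the leaves.  Plan: NOTES/plan/S25_TRIP.md.

TRIP is the layer between the algebra (P1, LB, NUM, CHART) and the sheaf side (BRIDGE, TOP):
everything the top level needs about charts (`Top.Stmt_CHARTS`: Mono, Open, Cover, AEZ, ValUniq, Surj) is stated
here for triples over `k`-algebras, so that the sheaf side only has to translate (BRIDGE T1 - T4, RIG).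

* `chiAt L p`, `degAt L p` : Euler characteristic / degree of the fibre of `L : Triple 𝒞 R` at a prime `p` of `R`.
* `ClassBy Q L φ`          : `L` (over `R`) is isomorphic to a base change of the chart bundle `Q` (over `B`)
                             along `φ : B → R`.
* `Charts 𝒞`               : a family of chart bundles `Q a` over `k`-algebras `B a`; `Mono`, `Open`, `LocIn`.
* `Stmt_TCHARTS`           : THE OUTPUT for the charts (translates of the chart of `Chart.Stmt_CHARTLEMMA`).
* `Stmt_TVAL`              : THE OUTPUT for separatedness (no hypothesis on degrees: `Pic` is separated).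
The family over `C^g` (surjectivity) is in `Trip/DefsS.lean`.
-/
import Fermat.Agent.S25.LB.DefsE
import Fermat.Agent.S25.LB.H60_Dual
import Fermat.Agent.S25.Num.Defs

set_option autoImplicit false

universe u

open Polynomial TensorProduct

namespace Fermat.Agent.S25.Trip

open Fermat.Agent.S25.LB Fermat.Agent.S25.Chart Fermat.Agent.S25.Num

variable {k : Type u} [Field k] {𝒞 : CurveDatum k}

/-! ## Degree of the fibres -/

section Deg

variable {R : Type u} [CommRing R] [Algebra k R]

/-- The Euler characteristic of the fibre of `L` at the prime `p`. -/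
noncomputable def chiAt (L : Triple 𝒞 R) (p : PrimeSpectrum R) : ℤ :=
  (L.toData.h0At p : ℤ) - (L.toData.h1At p : ℤ)

/-- The degree of the fibre of `L` at the prime `p`. -/
noncomputable def degAt (L : Triple 𝒞 R) (p : PrimeSpectrum R) : ℤ :=
  chiAt L p - (1 - (genus 𝒞 : ℤ))

/-- All fibres of `L` have degree `0`. -/
def Deg0 (L : Triple 𝒞 R) : Prop := ∀ p : PrimeSpectrum R, degAt L p = 0

/-- The prime of a `k`-point. -/
def ptPrime (t : R →ₐ[k] k) : PrimeSpectrum R := ⟨RingHom.ker t.toRingHom, RingHom.ker_isPrime _⟩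

end Deg

/-- **DEG-BC**: the Euler characteristic of the fibres is compatible with base change
(`LB.Stmt_BCDATA` + `P1.Stmt_BCTRANS` + `P1.Stmt_ISO` + `P1.Stmt_FIELDEXT`). -/
def Stmt_DEGBC : Prop :=
  ∀ (k : Type u) [Field k] (𝒞 : CurveDatum k), 𝒞.IsGood →
    ∀ (R R' : Type u) [CommRing R] [Algebra k R] [CommRing R'] [Algebra k R'] (ψ : R →ₐ[k] R')
      (L : Triple 𝒞 R) (L' : Triple 𝒞 R'), BC ψ L L' →
      ∀ p' : PrimeSpectrum R', chiAt L' p' = chiAt L (PrimeSpectrum.comap ψ.toRingHom p')

/-- **DEG-K**: over the base field the fibre is the triple itself; hence the fibre at a `k`-point `t` has the Euler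
characteristic of any base change along `t`. -/
def Stmt_DEGK : Prop :=
  ∀ (k : Type u) [Field k] (𝒞 : CurveDatum k), 𝒞.IsGood →
    (∀ (L : Triple 𝒞 k) (p : PrimeSpectrum k), chiAt L p = chi L) ∧
    ∀ (R : Type u) [CommRing R] [Algebra k R] (L : Triple 𝒞 R) (t : R →ₐ[k] k) (Lt : Triple 𝒞 k),
      BC t L Lt → chiAt L (ptPrime t) = chi Lt ∧ degAt L (ptPrime t) = deg Lt

/-- **DEG-LC**: the degree of the fibres is locally constant (`P1.Stmt_CHI` + `LB.Stmt_VB`). -/
def Stmt_DEGLC : Prop :=
  ∀ (k : Type u) [Field k] (𝒞 : CurveDatum k), 𝒞.IsGood →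
    ∀ (R : Type u) [CommRing R] [Algebra k R] (L : Triple 𝒞 R),
      IsLocallyConstant (fun p : PrimeSpectrum R => degAt L p)

/-- **DEG-UNIT**: the unit triple over any `R` has degree `0` on all fibres; isomorphic triples have the same
degrees. -/
def Stmt_DEGUNIT : Prop :=
  ∀ (k : Type u) [Field k] [IsAlgClosed k] (𝒞 : CurveDatum k) (h : 𝒞.IsGood),
    ∀ (R : Type u) [CommRing R] [Algebra k R],
      Deg0 (H60.unitTriple 𝒞 R h) ∧
      ∀ (L L' : Triple 𝒞 R), Nonempty (Triple.Iso L L') → ∀ p, chiAt L p = chiAt L' p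

/-! ## Charts -/

section Charts

variable {B : Type u} [CommRing B] [Algebra k B] {R : Type u} [CommRing R] [Algebra k R]

/-- `L` (over `R`) is isomorphic to a base change of the chart bundle `Q` (over `B`) along `φ`. -/
def ClassBy (Q : Triple 𝒞 B) (L : Triple 𝒞 R) (φ : B →ₐ[k] R) : Prop :=
  ∃ Qφ : Triple 𝒞 R, Nonempty (BC φ Q Qφ) ∧ Nonempty (Triple.Iso L Qφ)

/-- `L` is classified by the chart bundle `Q` on the principal open `D(r)`. -/
def ClassOn (Q : Triple 𝒞 B) (L : Triple 𝒞 R) (r : R) : Prop :=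
  ∃ (Lr : Triple 𝒞 (Localization.Away r)) (φ : B →ₐ[k] Localization.Away r),
    Nonempty (BC (awayMap r) L Lr) ∧ ClassBy Q Lr φ

variable (Q : Triple 𝒞 B)

/-- The classifying map into the chart is unique. -/
def MonoCh : Prop :=
  ∀ (R : Type u) [CommRing R] [Algebra k R] (L : Triple 𝒞 R) (φ φ' : B →ₐ[k] R),
    ClassBy Q L φ → ClassBy Q L φ' → φ = φ'

/-- The chart is open at `k`-points of finitely generated `k`-algebras (the form of `Chart.Stmt_CHARTLEMMA`). -/
def OpenK : Prop :=
  ∀ (R : Type u) [CommRing R] [Algebra k R] [Algebra.FiniteType k R] (L : Triple 𝒞 R)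
    (t : R →ₐ[k] k) (Lt : Triple 𝒞 k) (y : B →ₐ[k] k), BC t L Lt → ClassBy Q Lt y →
    ∃ r : R, t r ≠ 0 ∧ ClassOn Q L r

/-- The chart is open (the form used by `Top.ChartFamily.Open`): if a base change `L'` of `L` along
`ψ : R → R'` is classified by the chart, then `L` is classified by the chart on a principal open `D(r)` of
`Spec R` which contains the image of any given point of `Spec R'`. -/
def OpenCh : Prop :=
  ∀ (R R' : Type u) [CommRing R] [Algebra k R] [CommRing R'] [Algebra k R'] (ψ : R →ₐ[k] R')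
    (L : Triple 𝒞 R) (L' : Triple 𝒞 R') (φ' : B →ₐ[k] R'), BC ψ L L' → ClassBy Q L' φ' →
    ∀ p' : PrimeSpectrum R', ∃ r : R, ψ r ∉ p'.asIdeal ∧ ClassOn Q L r

end Charts

/-- A family of charts: `k`-algebras `B a` with chart bundles `Q a`. -/
structure Charts (𝒞 : CurveDatum k) where
  ι : Type u
  B : ι → Type u
  [cr : ∀ a, CommRing (B a)]
  [alg : ∀ a, Algebra k (B a)]
  Q : ∀ a, Triple 𝒞 (B a)

attribute [instance] Charts.cr Charts.alg

/-- `L` is Zariski-locally on `Spec R` classified by the charts. -/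
def Charts.LocIn (X : Charts 𝒞) {R : Type u} [CommRing R] [Algebra k R] (L : Triple 𝒞 R) : Prop :=
  ∀ p : PrimeSpectrum R, ∃ r : R, r ∉ p.asIdeal ∧ ∃ a : X.ι, ClassOn (X.Q a) L r

/-- **T-CHARTS** (THE OUTPUT for the charts; consumed by the sheaf side for `Top.Stmt_CHARTS`):
smooth finitely presented charts with rigid chart bundles of degree `0`, which are monomorphisms, open, and
cover the triples of degree `0`. -/
def Stmt_TCHARTS : Prop :=
  ∀ (k : Type u) [Field k] [IsAlgClosed k] (𝒞 : CurveDatum k), 𝒞.IsGood →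
    ∃ X : Charts 𝒞,
      (∀ a, Algebra.FinitePresentation k (X.B a)) ∧ (∀ a, Algebra.Smooth k (X.B a)) ∧
      (∀ a, (X.Q a).IsRigid) ∧ (∀ a, Deg0 (X.Q a)) ∧
      (∀ a, MonoCh (X.Q a)) ∧ (∀ a, OpenCh (X.Q a)) ∧
      ∀ (R : Type u) [CommRing R] [Algebra k R] (L : Triple 𝒞 R), Deg0 L → X.LocIn L

/-! ### The leaves of T-CHARTS -/

/-- **T-OPENGEN**: a chart which is open at `k`-points of finitely generated algebras is open.
Proof: `p'` prime of `R'`, `F := κ(p')`; by `Chart.Stmt_LIMOBJ`, `L` comes from `L₀` over a finitely generated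
`R₀ ⊆ R`; `B` is finitely generated, so `φ'` and the isomorphism are defined over a finitely generated
`R₀`-subalgebra `A` of `F` (`Chart.Stmt_LIMISO`); a `k`-point `t` of `A` (Nullstellensatz) gives a `k`-point of
`R₀` in the closure of the image `p₀` of `p'` at which `L₀` is classified by the chart; `OpenK` gives `r₀` with
`t r₀ ≠ 0`, hence `r₀ ∉ p₀` (`t` specialises `p₀`); `r` := the image of `r₀`. -/
def Stmt_OPENGEN : Prop :=
  ∀ (k : Type u) [Field k] [IsAlgClosed k] (𝒞 : CurveDatum k), 𝒞.IsGood →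
    ∀ (B : Type u) [CommRing B] [Algebra k B] [Algebra.FiniteType k B] (Q : Triple 𝒞 B),
      OpenK Q → OpenCh Q

/-- **T-TRANSL** (translation of a chart by a line bundle `N` over `k`): for a chart `(B, P)` which is a
monomorphism and open at `k`-points, and a triple `N` over `k`, there is a rigid triple `Q` over `B`
(`Q = P ⊗ (N_B)^∨`) which is again a monomorphism and open at `k`-points, whose fibre at a `k`-point `y` is
`P_y ⊗ N^∨`.  (`LB.H60.tensor`, `dual`, `LB.H36.bcTriple`, helper60's `TENSBC`.) -/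
def Stmt_TRANSL : Prop :=
  ∀ (k : Type u) [Field k] [IsAlgClosed k] (𝒞 : CurveDatum k) (h : 𝒞.IsGood),
    ∀ (B : Type u) [CommRing B] [Algebra k B] (P : Triple 𝒞 B), P.IsRigid → MonoCh P → OpenK P →
    ∀ N : Triple 𝒞 k, ∃ Q : Triple 𝒞 B, Q.IsRigid ∧ MonoCh Q ∧ OpenK Q ∧
      ∀ (y : B →ₐ[k] k) (Py : Triple 𝒞 k), BC y P Py →
        ClassBy Q (H60.tensor Py (H60.dual N h) h) y

/-- **T-CLOPEN** (cut a chart down to degree `0`): for a chart `(B, Q)` there is an idempotent `e` of `B` such that
the fibre of `Q` at a prime `p` has degree `0` iff `e ∉ p` (`Stmt_DEGLC`: the degree is locally constant). -/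
def Stmt_CLOPEN : Prop :=
  ∀ (k : Type u) [Field k] (𝒞 : CurveDatum k), 𝒞.IsGood →
    ∀ (B : Type u) [CommRing B] [Algebra k B] (Q : Triple 𝒞 B),
      ∃ e : B, e * e = e ∧ ∀ p : PrimeSpectrum B, degAt Q p = 0 ↔ e ∉ p.asIdeal

/-- **T-RESTR** (restriction of a chart to a principal open): the properties of a chart are inherited by
`(B[1/e], Q[1/e])`. -/
def Stmt_RESTR : Prop :=
  ∀ (k : Type u) [Field k] [IsAlgClosed k] (𝒞 : CurveDatum k), 𝒞.IsGood →
    ∀ (B : Type u) [CommRing B] [Algebra k B] (Q : Triple 𝒞 B) (e : B)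
      (Qe : Triple 𝒞 (Localization.Away e)), BC (awayMap e) Q Qe →
      (Q.IsRigid → Qe.IsRigid) ∧ (MonoCh Q → MonoCh Qe) ∧ (MonoCh Q → OpenK Q → OpenK Qe) ∧
      ∀ (R : Type u) [CommRing R] [Algebra k R] (L : Triple 𝒞 R) (φ : B →ₐ[k] R),
        ClassBy Q L φ → IsUnit (φ e) → ∃ φe : Localization.Away e →ₐ[k] R, ClassBy Qe L φe

/-- **T-SMALLK**: the isomorphism classes of triples over a `k`-algebra form a small set
(an invertible module is a quotient of a finite free module). -/
def Stmt_SMALLK : Prop :=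
  ∀ (k : Type u) [Field k] (𝒞 : CurveDatum k) (R : Type u) [CommRing R] [Algebra k R],
    ∃ (ι : Type u) (N : ι → Triple 𝒞 R), ∀ M : Triple 𝒞 R, ∃ a, Nonempty (Triple.Iso M (N a))

/-- **T-COVER**: if the charts are open and every triple of degree `0` over `k` is a fibre of a chart bundle
at a `k`-point, then every triple with fibres of degree `0` is locally classified by the charts.
Proof: `Chart.Stmt_LIMOBJ` (`L` comes from `L₀` over a finitely generated `R₀`), `Stmt_DEGBC` + `Stmt_DEGLC`
(`L₀` has degree `0` near the image of `p`), `Stmt_DEGK` at the `k`-points, `OpenK`, and Jacobson: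
an open subset of `Spec R₀` which contains all `k`-points of `D(f)` contains `D(f)`. -/
def Stmt_COVER : Prop :=
  ∀ (k : Type u) [Field k] [IsAlgClosed k] (𝒞 : CurveDatum k), 𝒞.IsGood →
    ∀ X : Charts 𝒞, (∀ a, OpenK (X.Q a)) →
      (∀ M : Triple 𝒞 k, deg M = 0 → ∃ (a : X.ι) (y : X.B a →ₐ[k] k), ClassBy (X.Q a) M y) →
      ∀ (R : Type u) [CommRing R] [Algebra k R] (L : Triple 𝒞 R), Deg0 L → X.LocIn L

/-! ## Separatedness -/

/-- **T-VAL** (THE OUTPUT for separatedness; consumed by the sheaf side for `Top.ValUniq`):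
two triples over a valuation ring `O` which are isomorphic over the fraction field are isomorphic. -/
def Stmt_TVAL : Prop :=
  ∀ (k : Type u) [Field k] [IsAlgClosed k] (𝒞 : CurveDatum k), 𝒞.IsGood →
    ∀ (O : Type u) [CommRing O] [IsDomain O] [ValuationRing O] [Algebra k O]
      (K : Type u) [Field K] [Algebra O K] [IsFractionRing O K] [Algebra k K] [IsScalarTower k O K]
      (L L' : Triple 𝒞 O) (LK LK' : Triple 𝒞 K),
      BC (IsScalarTower.toAlgHom k O K) L LK → BC (IsScalarTower.toAlgHom k O K) L' LK' →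
      Nonempty (Triple.Iso LK LK') → Nonempty (Triple.Iso L L')

/-- `N` is trivial on the principal open `D(r)`. -/
def TrivOn (h : 𝒞.IsGood) {R : Type u} [CommRing R] [Algebra k R] (N : Triple 𝒞 R) (r : R) : Prop :=
  ∃ Nr : Triple 𝒞 (Localization.Away r), Nonempty (BC (awayMap r) N Nr) ∧
    Nonempty (Triple.Iso Nr (H60.unitTriple 𝒞 (Localization.Away r) h))

/-- **T-REDPROJ** (pure algebra): a finitely presented module over a reduced ring whose fibres have constant
dimension is projective. -/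
def Stmt_REDPROJ : Prop :=
  ∀ (A : Type u) [CommRing A] [IsReduced A] (M : Type u) [AddCommGroup M] [Module A M]
    [Module.FinitePresentation A M] (n : ℕ),
    (∀ p : PrimeSpectrum A,
      Module.finrank p.asIdeal.ResidueField (p.asIdeal.ResidueField ⊗[A] M) = n) →
    Module.Projective A M

/-- **T-GRAUERT**: over a reduced ring, a vector bundle whose `h1` is constant on the fibres has projective `H0`,
and `H0` commutes with every base change (`P1.Stmt_CPX` + `Stmt_REDPROJ` for the cokernel of `K0 → K1`). -/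
def Stmt_GRAUERT : Prop :=
  ∀ (A : Type u) [CommRing A] [IsReduced A] (N : P1.Data A), N.IsVB → ∀ n : ℕ,
    (∀ p : PrimeSpectrum A, N.h1At p = n) →
    Module.Finite A N.H0 ∧ Module.Projective A N.H0 ∧
    ∀ (A' : Type u) [CommRing A'] [Algebra A A'],
      ∃ e : A' ⊗[A] N.H0 ≃ₗ[A'] (N.baseChange A').H0,
        ∀ (a : A') (x : N.H0), (e (a ⊗ₜ[A] x)).1 = (a ⊗ₜ[A] x.1.1, a ⊗ₜ[A] x.1.2)

/-- **T-TRIV**: over a reduced ring `R`, a triple whose fibres at ALL primes have `h0 = 1`, `h1 = genus`, and whose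
fibre at the `k`-point `t` is trivial, is trivial on a neighbourhood `D(r)` of `t`.
Proof: `Stmt_GRAUERT` for `N` and for its dual: generators `s ∈ H0(N)`, `s' ∈ H0(N^∨)` near `t`; `s' ∘ s` is a
function `a ∈ R[1/r] = H0(O)` with `a(t) ≠ 0`; invert `a`; `s ∘ s'` is an endomorphism `b` of `N` with
`b ^ 2 = a b`, `b(t) ≠ 0` (helper74's `LB-HOM`: `End N = R`). -/
def Stmt_TRIV : Prop :=
  ∀ (k : Type u) [Field k] [IsAlgClosed k] (𝒞 : CurveDatum k) (h : 𝒞.IsGood),
    ∀ (R : Type u) [CommRing R] [Algebra k R] [IsReduced R] (N : Triple 𝒞 R),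
      (∀ p, N.toData.h0At p = 1) → (∀ p, N.toData.h1At p = genus 𝒞) →
      (∀ p, (H60.dual N h).toData.h0At p = 1) → (∀ p, (H60.dual N h).toData.h1At p = genus 𝒞) →
      ∀ (t : R →ₐ[k] k) (Nt : Triple 𝒞 k), BC t N Nt → IsUnitTriple Nt →
      ∃ r : R, t r ≠ 0 ∧ TrivOn h N r

/-- **T-SEPFG**: over a finitely generated `k`-algebra `R` which is a domain, a triple which is trivial over the
fraction field is trivial Zariski-locally on `Spec R`.
Proof: `h0At ≥ 1` at the generic point (`P1.Stmt_FIELDEXT`), hence everywhere (`P1.Stmt_SEMI`); the degree is `0`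
(`Stmt_DEGLC`, `Spec R` is connected); so the fibres at `k`-points are trivial (`Num.Stmt_MONOCOR`) and
`h0 = 1`, `h1 = genus` at all closed points, hence at all points (`P1.Stmt_SEMI` + `Stmt_DEGLC`; a nonempty
closed set contains a closed point, closed points are `k`-points); the same for the dual; `Stmt_TRIV` at every
`k`-point; a prime `p` specialises to a `k`-point `t`, and `t r ≠ 0` implies `r ∉ p`. -/
def Stmt_SEPFG : Prop :=
  ∀ (k : Type u) [Field k] [IsAlgClosed k] (𝒞 : CurveDatum k) (h : 𝒞.IsGood),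
    ∀ (R : Type u) [CommRing R] [Algebra k R] [IsDomain R] [Algebra.FiniteType k R]
      (K : Type u) [Field K] [Algebra R K] [IsFractionRing R K] [Algebra k K] [IsScalarTower k R K]
      (N : Triple 𝒞 R) (NK : Triple 𝒞 K), BC (IsScalarTower.toAlgHom k R K) N NK →
      Nonempty (Triple.Iso NK (H60.unitTriple 𝒞 K h)) →
      ∀ p : PrimeSpectrum R, ∃ r : R, r ∉ p.asIdeal ∧ TrivOn h N r

end Fermat.Agent.S25.Trip
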