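/-
helper36, S25 package TRIP, leaves TRIP-DEGBC and TRIP-DEGK: the Euler characteristic of the fibres is compatible with
base change; over the base field the fibre is the triple itself.
-/
import Fermat.Agent.S25.Trip.Defs
import Fermat.Agent.S25.LB.H36_BCData
import Fermat.Agent.S25.P1.H45_BCTrans
import Fermat.Agent.S25.P1.H45_Iso
import Fermat.Agent.S25.P1.H92_FieldExt

set_option autoImplicit false

universe u

open Polynomial TensorProduct

namespace Fermat.Agent.S25.Trip.H36

open Fermat.Agent.S25.P1 Fermat.Agent.S25.LB Fermat.Agent.S25.Chart Fermat.Agent.S25.Num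

section Data

variable {A : Type u} [CommRing A]

/-- base change of a commutative square with horizontal isomorphisms -/
theorem bc_comm (A' : Type u) [CommRing A'] [Algebra A A'] {M M' Q Q' : Type u}
    [AddCommGroup M] [Module A M] [AddCommGroup M'] [Module A M'] [AddCommGroup Q] [Module A Q]
    [AddCommGroup Q'] [Module A Q'] (f : M →ₗ[A] Q) (f' : M' →ₗ[A] Q') (e : M ≃ₗ[A] M')
    (e' : Q ≃ₗ[A] Q') (h : ∀ m, e' (f m) = f' (e m)) (x : A' ⊗[A] M) :
    LinearEquiv.baseChange A A' _ _ e' (f.baseChange A' x) =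
      f'.baseChange A' (LinearEquiv.baseChange A A' _ _ e x) := by
  induction x using TensorProduct.induction_on with
  | zero => simp
  | tmul a m => simp [h]
  | add x y hx hy => simp only [map_add, hx, hy]

/-- base change of an isomorphism of two-chart data -/
noncomputable def isoBaseChange {N N' : Data A} (E : Data.Iso N N') (A' : Type u) [CommRing A']
    [Algebra A A'] : Data.Iso (N.baseChange A') (N'.baseChange A') where
  e0 := LinearEquiv.baseChange A A' _ _ E.e0
  e1 := LinearEquiv.baseChange A A' _ _ E.e1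
  e01 := LinearEquiv.baseChange A A' _ _ E.e01
  e0_X := bc_comm A' N.X0 N'.X0 E.e0 E.e0 E.e0_X
  e1_Z := bc_comm A' N.Z1 N'.Z1 E.e1 E.e1 E.e1_Z
  e01_T := bc_comm A' N.T.toLinearMap N'.T.toLinearMap E.e01 E.e01 E.e01_T
  e_j0 := bc_comm A' N.j0 N'.j0 E.e0 E.e01 E.e_j0
  e_j1 := bc_comm A' N.j1 N'.j1 E.e1 E.e01 E.e_j1

/-- isomorphic data over a field have the same `h0`, `h1` -/
theorem finrank_eq_of_iso {K : Type u} [Field K] {N N' : Data K} (E : Data.Iso N N') :
    Module.finrank K N.H0 = Module.finrank K N'.H0 ∧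
      Module.finrank K N.H1 = Module.finrank K N'.H1 := by
  obtain ⟨⟨e0⟩, ⟨e1⟩, -, -⟩ := H45.stmt_ISO K N N' E
  exact ⟨e0.finrank_eq, e1.finrank_eq⟩

/-- the fibre numbers of a base change are the fibre numbers at the image point -/
theorem hAt_baseChange (N : Data A) (A' : Type u) [CommRing A'] [Algebra A A']
    (p' : PrimeSpectrum A') :
    (N.baseChange A').h0At p' = N.h0At (PrimeSpectrum.comap (algebraMap A A') p') ∧
      (N.baseChange A').h1At p' = N.h1At (PrimeSpectrum.comap (algebraMap A A') p') := by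
  let p : PrimeSpectrum A := PrimeSpectrum.comap (algebraMap A A') p'
  letI : Algebra A p'.asIdeal.ResidueField :=
    ((algebraMap A' p'.asIdeal.ResidueField).comp (algebraMap A A')).toAlgebra
  haveI : IsScalarTower A A' p'.asIdeal.ResidueField :=
    IsScalarTower.of_algebraMap_eq (fun _ => rfl)
  letI : Algebra p.asIdeal.ResidueField p'.asIdeal.ResidueField :=
    (Ideal.ResidueField.map p.asIdeal p'.asIdeal (algebraMap A A') rfl).toAlgebra
  haveI : IsScalarTower A p.asIdeal.ResidueField p'.asIdeal.ResidueField :=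
    IsScalarTower.of_algebraMap_eq (fun r =>
      (Ideal.ResidueField.map_algebraMap p.asIdeal p'.asIdeal (algebraMap A A') rfl r).symm)
  obtain ⟨E1⟩ := (H45.stmt_BCTRANS A N).2 A' p'.asIdeal.ResidueField
  obtain ⟨E2⟩ := (H45.stmt_BCTRANS A N).2 p.asIdeal.ResidueField p'.asIdeal.ResidueField
  have h1 := finrank_eq_of_iso E1
  have h2 := finrank_eq_of_iso E2
  have h30 := H92.finrank_H0_baseChange (N.baseChange p.asIdeal.ResidueField)
    p'.asIdeal.ResidueField
  have h31 := H92.finrank_H1_baseChange (N.baseChange p.asIdeal.ResidueField)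
    p'.asIdeal.ResidueField
  refine ⟨?_, ?_⟩
  · change Module.finrank p'.asIdeal.ResidueField
      ((N.baseChange A').baseChange p'.asIdeal.ResidueField).H0 =
      Module.finrank p.asIdeal.ResidueField (N.baseChange p.asIdeal.ResidueField).H0
    rw [h1.1, ← h2.1, h30]
  · change Module.finrank p'.asIdeal.ResidueField
      ((N.baseChange A').baseChange p'.asIdeal.ResidueField).H1 =
      Module.finrank p.asIdeal.ResidueField (N.baseChange p.asIdeal.ResidueField).H1
    rw [h1.2, ← h2.2, h31]

end Data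

section Triples

open Fermat.Agent.S25.LB.H36

variable {k : Type u} [Field k] {𝒞 : CurveDatum k}

/-- the fibre numbers of a base change of triples -/
theorem hAt_of_BC {R R' : Type u} [CommRing R] [Algebra k R] [CommRing R'] [Algebra k R']
    (ψ : R →ₐ[k] R') (L : Triple 𝒞 R) (L' : Triple 𝒞 R') (β : BC ψ L L')
    (p' : PrimeSpectrum R') :
    L'.toData.h0At p' = L.toData.h0At (PrimeSpectrum.comap ψ.toRingHom p') ∧
      L'.toData.h1At p' = L.toData.h1At (PrimeSpectrum.comap ψ.toRingHom p') := by
  letI := algOf ψ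
  haveI := tower_algOf ψ
  have E : Data.Iso (L.toData.baseChange R') L'.toData := dataIso (bcphiOf ψ L L' β)
  have hE := finrank_eq_of_iso (isoBaseChange E p'.asIdeal.ResidueField)
  have hb := hAt_baseChange L.toData R' p'
  exact ⟨hE.1.symm.trans hb.1, hE.2.symm.trans hb.2⟩

/-- **TRIP-DEGBC**: the Euler characteristic of the fibres is compatible with base change. -/
theorem stmt_DEGBC : Stmt_DEGBC.{u} := by
  intro k _ 𝒞 _ R R' _ _ _ _ ψ L L' β p'
  have h := hAt_of_BC ψ L L' β p'
  unfold chiAt
  rw [h.1, h.2]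

/-- over the base field the fibre is the triple itself -/
theorem hAt_field (L : Triple 𝒞 k) (p : PrimeSpectrum k) :
    L.toData.h0At p = h0 L ∧ L.toData.h1At p = h1 L :=
  ⟨H92.finrank_H0_baseChange L.toData p.asIdeal.ResidueField,
    H92.finrank_H1_baseChange L.toData p.asIdeal.ResidueField⟩

theorem chiAt_field (L : Triple 𝒞 k) (p : PrimeSpectrum k) : chiAt L p = chi L := by
  unfold chiAt chi
  rw [(hAt_field L p).1, (hAt_field L p).2]

theorem comap_bot_eq_ptPrime {R : Type u} [CommRing R] [Algebra k R] (t : R →ₐ[k] k) :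
    PrimeSpectrum.comap t.toRingHom ⟨⊥, Ideal.isPrime_bot⟩ = ptPrime t :=
  PrimeSpectrum.ext rfl

/-- **TRIP-DEGK**. -/
theorem stmt_DEGK : Stmt_DEGK.{u} := by
  intro k _ 𝒞 hG
  refine ⟨fun L p => chiAt_field L p, fun R _ _ L t Lt β => ?_⟩
  have h := stmt_DEGBC k 𝒞 hG R k t L Lt β ⟨⊥, Ideal.isPrime_bot⟩
  rw [comap_bot_eq_ptPrime, chiAt_field] at h
  refine ⟨h.symm, ?_⟩
  unfold degAt deg
  rw [h]

end Triples

end Fermat.Agent.S25.Trip.H36
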