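/-
helper71, S25 package TRIP: THE ASSEMBLY of the charts.
`tcharts_of` : `Chart.Stmt_CHARTLEMMA` + the TRIP leaves ⟹ for every good curve datum with an étale element, the
conclusion of `Trip.Stmt_TCHARTS` (= `Top.F.TChartsFor 𝒞`, so this is `Top.F.Stmt_TCHARTSE`).

Construction: `(B, P)` the chart of the chart lemma with centre `y0`; index set = representatives `N a` of all
triples over `k` (`Stmt_SMALLK`); `Q a := P ⊗ (N a)_B^∨` (`Stmt_TRANSL`); cut down to the open and closed part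
`D(e a)` of `Spec B` where the degree is `0` (`Stmt_CLOPEN`, `Stmt_RESTR`); `Stmt_OPENGEN`, `Stmt_COVER`.
A triple `M` of degree `0` over `k` is the fibre at `y0` of the chart with `N a ≅ P_(y0) ⊗ M^∨`.
-/
import Fermat.Agent.S25.Trip.Defs

set_option autoImplicit false

universe u

open Polynomial TensorProduct

namespace Fermat.Agent.S25.Trip.H71

open Fermat.Agent.S25.LB Fermat.Agent.S25.Chart Fermat.Agent.S25.Num Fermat.Agent.S25.Trip

variable {k : Type u} [Field k] {𝒞 : CurveDatum k}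

/-- The conclusion of `Trip.Stmt_TCHARTS` for one curve datum (same as `Top.F.TChartsFor`). -/
def TChartsFor (𝒞 : CurveDatum k) : Prop :=
  ∃ X : Charts 𝒞,
    (∀ a, Algebra.FinitePresentation k (X.B a)) ∧ (∀ a, Algebra.Smooth k (X.B a)) ∧
    (∀ a, (X.Q a).IsRigid) ∧ (∀ a, Deg0 (X.Q a)) ∧
    (∀ a, MonoCh (X.Q a)) ∧ (∀ a, OpenCh (X.Q a)) ∧
    ∀ (R : Type u) [CommRing R] [Algebra k R] (L : Triple 𝒞 R), Deg0 L → X.LocIn L

/-- `Stmt_TCHARTS` with the étale element as a hypothesis. -/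
def Stmt_TCHARTSE : Prop :=
  ∀ (k : Type u) [Field k] [IsAlgClosed k] (𝒞 : CurveDatum k), 𝒞.IsGood →
    ∀ h : 𝒞.B0, IsEtAt 𝒞 h → TChartsFor 𝒞

section Aux

variable {R : Type u} [CommRing R] [Algebra k R]

/-- `ClassBy` is invariant under isomorphisms of the classified triple. -/
theorem classBy_of_iso {B : Type u} [CommRing B] [Algebra k B] {Q : Triple 𝒞 B} {L L' : Triple 𝒞 R}
    {φ : B →ₐ[k] R} (e : Triple.Iso L' L) (h : ClassBy Q L φ) : ClassBy Q L' φ := by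
  obtain ⟨Qφ, hb, ⟨e'⟩⟩ := h
  exact ⟨Qφ, hb, ⟨H60.isoTrans e e'⟩⟩

/-- `M ≅ P ⊗ A^∨` if `A ≅ P ⊗ M^∨`. -/
noncomputable def isoOfTranslate (h : 𝒞.IsGood) (M P A : Triple 𝒞 R)
    (e : Triple.Iso (H60.tensor P (H60.dual M h) h) A) :
    Triple.Iso M (H60.tensor P (H60.dual A h) h) := by
  -- `j : A ⊗ M ≅ P`
  have j : Triple.Iso (H60.tensor A M h) P :=
    H60.isoTrans (H60.tensorCongr h (H60.isoSymm e) (H60.isoRefl M))
      (H60.isoTrans (H60.tensorAssoc P (H60.dual M h) M h)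
        (H60.isoTrans (H60.tensorCongr h (H60.isoRefl P) (H60.dualTensor M h))
          (H60.tensorUnitRight P h)))
  -- `P ⊗ A^∨ ≅ (A ⊗ M) ⊗ A^∨ ≅ (M ⊗ A) ⊗ A^∨ ≅ M ⊗ (A ⊗ A^∨) ≅ M`
  have i : Triple.Iso (H60.tensor P (H60.dual A h) h) M :=
    H60.isoTrans (H60.tensorCongr h (H60.isoSymm j) (H60.isoRefl (H60.dual A h)))
      (H60.isoTrans (H60.tensorCongr h (H60.tensorComm A M h) (H60.isoRefl (H60.dual A h)))
        (H60.isoTrans (H60.tensorAssoc M A (H60.dual A h) h)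
          (H60.isoTrans (H60.tensorCongr h (H60.isoRefl M) (H60.tensorDual A h))
            (H60.tensorUnitRight M h))))
  exact H60.isoSymm i

end Aux

/-- **T-CHARTS, assembly.** -/
theorem tcharts_of (hCL : Chart.Stmt_CHARTLEMMA.{u}) (hSM : Stmt_SMALLK.{u}) (hTR : Stmt_TRANSL.{u})
    (hCLO : Stmt_CLOPEN.{u}) (hRE : Stmt_RESTR.{u}) (hOG : Stmt_OPENGEN.{u}) (hCOV : Stmt_COVER.{u})
    (hDBC : Stmt_DEGBC.{u}) (hDK : Stmt_DEGK.{u}) (hEX : LB.Stmt_BCEX.{u}) (hISO : Num.Stmt_ISO.{u}) :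
    Stmt_TCHARTSE.{u} := by
  intro k _ _ 𝒞 hG h hE
  obtain ⟨B, iCR, iAlg, iFP, iSm, P, hPrig, ⟨y0⟩, -, hmono, hopen⟩ := hCL k 𝒞 hG h hE
  -- the chart of the chart lemma
  have hMonoP : MonoCh P := by
    rintro R _ _ L φ φ' ⟨Q1, ⟨b1⟩, ⟨e1⟩⟩ ⟨Q2, ⟨b2⟩, ⟨e2⟩⟩
    exact hmono R φ φ' Q1 Q2 b1 b2 ⟨H60.isoTrans (H60.isoSymm e1) e2⟩
  have hOpenP : OpenK P := by
    rintro R _ _ _ L t Lt y bt ⟨Py, ⟨by'⟩, ⟨e⟩⟩
    obtain ⟨r, hr, Lr, φ, Pφ, hb, hbφ, he⟩ := hopen R L t Lt y Py bt by' ⟨e⟩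
    exact ⟨r, hr, Lr, φ, hb, Pφ, hbφ, he⟩
  -- the index set
  obtain ⟨ι, N, hN⟩ := hSM k 𝒞 k
  -- the translated charts
  choose Q hQrig hQmono hQopen hQfib using fun a => hTR k 𝒞 hG B P hPrig hMonoP hOpenP (N a)
  -- the part of degree zero
  choose e _he_idem he_deg using fun a => hCLO k 𝒞 hG B (Q a)
  choose Q' hQ' using fun a => hEX k 𝒞 hG B (Localization.Away (e a)) (awayMap (e a)) (Q a)
  have hRE' := fun a => hRE k 𝒞 hG B (Q a) (e a) (Q' a) (hQ' a).some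
  have hSmooth : ∀ a, Algebra.Smooth k (Localization.Away (e a)) := fun a =>
    haveI : Algebra.Smooth B (Localization.Away (e a)) := Algebra.Smooth.of_isLocalization_Away (e a)
    Algebra.Smooth.comp k B (Localization.Away (e a))
  have hFP : ∀ a, Algebra.FinitePresentation k (Localization.Away (e a)) := fun a =>
    (hSmooth a).finitePresentation
  have hOpenK' : ∀ a, OpenK (Q' a) := fun a => (hRE' a).2.2.1 (hQmono a) (hQopen a)
  refine ⟨{ ι := ι, B := fun a => Localization.Away (e a), Q := Q' }, hFP, hSmooth,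
    fun a => (hRE' a).1 (hQrig a), ?_, fun a => (hRE' a).2.1 (hQmono a), ?_, ?_⟩
  · -- degree zero
    intro a p'
    have h1 := hDBC k 𝒞 hG B (Localization.Away (e a)) (awayMap (e a)) (Q a) (Q' a) (hQ' a).some p'
    have h2 : degAt (Q a) (PrimeSpectrum.comap (awayMap (k := k) (e a)).toRingHom p') = 0 := by
      rw [he_deg a]
      intro hmem
      have hu : IsUnit ((awayMap (k := k) (e a)) (e a)) :=
        IsLocalization.Away.algebraMap_isUnit (e a)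
      exact p'.isPrime.ne_top (Ideal.eq_top_of_isUnit_mem _ hmem hu)
    unfold degAt at h2 ⊢
    rw [h1]
    exact h2
  · -- open
    intro a
    have := hFP a
    exact hOG k 𝒞 hG (Localization.Away (e a)) (Q' a) (hOpenK' a)
  · -- cover
    refine hCOV k 𝒞 hG { ι := ι, B := fun a => Localization.Away (e a), Q := Q' } hOpenK' ?_
    intro M hM
    obtain ⟨Py0, ⟨by0⟩⟩ := hEX k 𝒞 hG B k y0 P
    obtain ⟨a, ⟨ea⟩⟩ := hN (H60.tensor Py0 (H60.dual M hG) hG)
    have hcl : ClassBy (Q a) M y0 :=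
      classBy_of_iso (isoOfTranslate hG M Py0 (N a) ea) (hQfib a y0 Py0 by0)
    -- the centre lies in the part of degree zero
    have hdeg : degAt (Q a) (ptPrime y0) = 0 := by
      obtain ⟨Qφ, ⟨bφ⟩, hiso⟩ := hcl
      have h1 := ((hDK k 𝒞 hG).2 B (Q a) y0 Qφ bφ).2
      have h2 := (hISO k 𝒞 hG).1 M Qφ hiso
      rw [h1]
      unfold deg chi at hM ⊢
      rw [← h2.1, ← h2.2]
      exact hM
    have hunit : IsUnit (y0 (e a)) := by
      have hne : e a ∉ (ptPrime y0).asIdeal := (he_deg a (ptPrime y0)).1 hdeg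
      have : y0 (e a) ≠ 0 := fun h0 => hne h0
      exact isUnit_iff_ne_zero.2 this
    obtain ⟨φe, hφe⟩ := (hRE' a).2.2.2 k M y0 hcl hunit
    exact ⟨a, φe, hφe⟩

end Fermat.Agent.S25.Trip.H71
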