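/-
helper26, S25 package TRIP, leaf TRIP-SEPFG (`Stmt_SEPFG` of `S25/Trip/Defs.lean`).

Over a finitely generated `k`-algebra `R` which is a domain (`k` algebraically closed), a triple `N` which is trivial
over the fraction field is trivial Zariski-locally on `Spec R`.

`sepfg_of : Stmt_H01BC → Stmt_H01K → Num.Stmt_ISO → Num.Stmt_MONOCOR → Stmt_TRIV → Stmt_SEPFG`, where
* `Stmt_H01BC` : the fibre numbers `h0At`, `h1At` are compatible with base change (`BC`)  [= the proof of `Stmt_DEGBC`],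
* `Stmt_H01K`  : over the base field, `h0At = h0`, `h1At = h1`                           [= the proof of `Stmt_DEGK`];
everything else is taken from main (`P1.H97.stmt_CHI`, `stmt_SEMI`, `LB.H7.stmt_VB`, `LB.H36.stmt_BCEX`,
`LB.H60.unitBC`, `dualBC`, `dualTensor`).

Intermediate result `fibre_numbers`: all fibres of such an `N` have `h0 = 1`, `h1 = genus`, and all fibres at
`k`-points are unit triples.
-/
import Fermat.Agent.S25.Trip.Defs
import Fermat.Agent.S25.Trip.H26_SepAlg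
import Fermat.Agent.S25.LB.H60_TensBC
import Fermat.Agent.S25.LB.H36_BC
import Fermat.Agent.S25.LB.H7_VB
import Fermat.Agent.S25.P1.H97_Close

set_option autoImplicit false
set_option linter.style.haveILetI false

universe u

open TensorProduct

namespace Fermat.Agent.S25.Trip.H26

open Fermat.Agent.S25.LB Fermat.Agent.S25.Chart Fermat.Agent.S25.Num Fermat.Agent.S25

/-- The fibre numbers are compatible with base change. -/
def Stmt_H01BC : Prop :=
  ∀ (k : Type u) [Field k] (𝒞 : CurveDatum k), 𝒞.IsGood →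
    ∀ (R R' : Type u) [CommRing R] [Algebra k R] [CommRing R'] [Algebra k R'] (ψ : R →ₐ[k] R')
      (L : Triple 𝒞 R) (L' : Triple 𝒞 R'), BC ψ L L' →
      ∀ p' : PrimeSpectrum R',
        L'.toData.h0At p' = L.toData.h0At (PrimeSpectrum.comap ψ.toRingHom p') ∧
        L'.toData.h1At p' = L.toData.h1At (PrimeSpectrum.comap ψ.toRingHom p')

/-- Over the base field the fibre is the triple itself. -/
def Stmt_H01K : Prop :=
  ∀ (k : Type u) [Field k] (𝒞 : CurveDatum k), 𝒞.IsGood →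
    ∀ (L : Triple 𝒞 k) (p : PrimeSpectrum k), L.toData.h0At p = h0 L ∧ L.toData.h1At p = h1 L

section Basic

variable {k : Type u} [Field k] {𝒞 : CurveDatum k}

theorem tmap_id_apply (R : Type u) [CommRing R] [Algebra k R] (B : Type u) [CommRing B] [Algebra k B]
    (c : R ⊗[k] B) : tmap (AlgHom.id k R) B c = c := by
  unfold tmap
  rw [Algebra.TensorProduct.map_id]
  rfl

/-- An isomorphism of triples is a base change along the identity. -/
noncomputable def bcOfIso {R : Type u} [CommRing R] [Algebra k R] {L L' : Triple 𝒞 R}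
    (E : Triple.Iso L L') : BC (AlgHom.id k R) L L' where
  b0 := (E.e0 : L.P0 →ₗ[R ⊗[k] 𝒞.B0] L'.P0).toAddMonoidHom
  b1 := (E.e1 : L.P1 →ₗ[R ⊗[k] 𝒞.B1] L'.P1).toAddMonoidHom
  b01 := (E.e01 : L.P01 →ₗ[R ⊗[k] 𝒞.B01] L'.P01).toAddMonoidHom
  semi0 := fun c q => by
    rw [tmap_id_apply]
    exact E.e0.map_smul c q
  semi1 := fun c q => by
    rw [tmap_id_apply]
    exact E.e1.map_smul c q
  semi01 := fun c q => by
    rw [tmap_id_apply]
    exact E.e01.map_smul c q
  comm0 := E.comm0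
  comm1 := E.comm1
  gen0 := by
    rw [eq_top_iff]
    intro x _
    exact Submodule.subset_span ⟨E.e0.symm x, E.e0.apply_symm_apply x⟩
  gen1 := by
    rw [eq_top_iff]
    intro x _
    exact Submodule.subset_span ⟨E.e1.symm x, E.e1.apply_symm_apply x⟩

/-- The unit triple over `k` is a unit triple. -/
theorem isUnitTriple_unit (h : 𝒞.IsGood) : IsUnitTriple (H60.unitTriple 𝒞 k h) :=
  ⟨LinearEquiv.refl _ _, LinearEquiv.refl _ _, LinearEquiv.refl _ _, fun _ => rfl, fun _ => rfl⟩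

/-- Isomorphic triples have the same fibre numbers. -/
theorem h01At_eq_of_iso (hBC : Stmt_H01BC.{u}) (h : 𝒞.IsGood) {R : Type u} [CommRing R] [Algebra k R]
    {L L' : Triple 𝒞 R} (E : Triple.Iso L L') (p : PrimeSpectrum R) :
    L'.toData.h0At p = L.toData.h0At p ∧ L'.toData.h1At p = L.toData.h1At p := by
  have := hBC k 𝒞 h R R (AlgHom.id k R) L L' (bcOfIso E) p
  have hp : PrimeSpectrum.comap (AlgHom.id k R).toRingHom p = p := PrimeSpectrum.ext rfl
  rwa [hp] at this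

/-- The fibre numbers of the unit triple over any field extension of `k`. -/
theorem h01At_unit (hBC : Stmt_H01BC.{u}) (hK : Stmt_H01K.{u}) (hISO : Num.Stmt_ISO.{u})
    [IsAlgClosed k] (h : 𝒞.IsGood) (K : Type u) [CommRing K] [Algebra k K] (p : PrimeSpectrum K) :
    (H60.unitTriple 𝒞 K h).toData.h0At p = 1 ∧ (H60.unitTriple 𝒞 K h).toData.h1At p = genus 𝒞 := by
  have h1 := hBC k 𝒞 h k K (Algebra.ofId k K) _ _ (H60.unitBC (Algebra.ofId k K) h) p
  have h2 := hK k 𝒞 h (H60.unitTriple 𝒞 k h) (PrimeSpectrum.comap (Algebra.ofId k K).toRingHom p)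
  have h3 := (hISO k 𝒞 h).2.2.2.2 (H60.unitTriple 𝒞 k h) (isUnitTriple_unit h)
  exact ⟨h1.1.trans (h2.1.trans h3.1), h1.2.trans (h2.2.trans h3.2)⟩

/-- The dual of a trivial triple is trivial. -/
noncomputable def dualIsoUnit (h : 𝒞.IsGood) {R : Type u} [CommRing R] [Algebra k R] {L : Triple 𝒞 R}
    (E : Triple.Iso L (H60.unitTriple 𝒞 R h)) :
    Triple.Iso (H60.dual L h) (H60.unitTriple 𝒞 R h) :=
  H60.isoTrans (H60.isoSymm (H60.tensorUnitRight (H60.dual L h) h))
    (H60.isoTrans (H60.tensorCongr h (H60.isoRefl (H60.dual L h)) (H60.isoSymm E))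
      (H60.dualTensor L h))

end Basic

section Main

variable {k : Type u} [Field k] [IsAlgClosed k] {𝒞 : CurveDatum k}

omit [IsAlgClosed k] in
/-- The prime of a `k`-point is the pull-back of the unique prime of `k`. -/
theorem comap_pt {R : Type u} [CommRing R] [Algebra k R] (t : R →ₐ[k] k) (p : PrimeSpectrum k) :
    PrimeSpectrum.comap t.toRingHom p = ptPrime t := by
  apply PrimeSpectrum.ext
  have hp : p.asIdeal = ⊥ := ((Ideal.eq_bot_or_top p.asIdeal).resolve_right p.2.ne_top)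
  change Ideal.comap t.toRingHom p.asIdeal = RingHom.ker t.toRingHom
  rw [hp]
  rfl

/-- The fibre numbers at a `k`-point are those of any base change along it. -/
theorem h01At_pt (hBC : Stmt_H01BC.{u}) (hK : Stmt_H01K.{u}) (h : 𝒞.IsGood)
    {R : Type u} [CommRing R] [Algebra k R] (N : Triple 𝒞 R) (t : R →ₐ[k] k) (Nt : Triple 𝒞 k)
    (βt : BC t N Nt) :
    N.toData.h0At (ptPrime t) = h0 Nt ∧ N.toData.h1At (ptPrime t) = h1 Nt := by
  let p0 : PrimeSpectrum k := ⟨⊥, Ideal.isPrime_bot⟩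
  have h1 := hBC k 𝒞 h R k t N Nt βt p0
  rw [comap_pt t p0] at h1
  have h2 := hK k 𝒞 h Nt p0
  exact ⟨h1.1.symm.trans h2.1, h1.2.symm.trans h2.2⟩

/-- **Fibre numbers of a generically trivial triple**: `h0 = 1`, `h1 = genus` at all primes, and the fibres at
`k`-points are unit triples. -/
theorem fibre_numbers (hBC : Stmt_H01BC.{u}) (hK : Stmt_H01K.{u}) (hISO : Num.Stmt_ISO.{u})
    (hMC : Num.Stmt_MONOCOR.{u}) (h : 𝒞.IsGood)
    (R : Type u) [CommRing R] [Algebra k R] [IsDomain R] [Algebra.FiniteType k R]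
    (K : Type u) [Field K] [Algebra R K] [IsFractionRing R K] [Algebra k K] [IsScalarTower k R K]
    (N : Triple 𝒞 R) (NK : Triple 𝒞 K) (β : BC (IsScalarTower.toAlgHom k R K) N NK)
    (E : Triple.Iso NK (H60.unitTriple 𝒞 K h)) :
    (∀ p, N.toData.h0At p = 1) ∧ (∀ p, N.toData.h1At p = genus 𝒞) ∧
    ∀ (t : R →ₐ[k] k) (Nt : Triple 𝒞 k), BC t N Nt → IsUnitTriple Nt := by
  let η : PrimeSpectrum R := ⟨⊥, Ideal.isPrime_bot⟩
  let ηK : PrimeSpectrum K := ⟨⊥, Ideal.isPrime_bot⟩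
  -- the generic fibre
  have hη : PrimeSpectrum.comap (IsScalarTower.toAlgHom k R K).toRingHom ηK = η := by
    apply PrimeSpectrum.ext
    change Ideal.comap (algebraMap R K) ⊥ = ⊥
    rw [← RingHom.ker_eq_comap_bot]
    exact (RingHom.injective_iff_ker_eq_bot _).1 (IsFractionRing.injective R K)
  have hgen : N.toData.h0At η = 1 ∧ N.toData.h1At η = genus 𝒞 := by
    have h1 := hBC k 𝒞 h R K _ N NK β ηK
    rw [hη] at h1
    have h2 := h01At_eq_of_iso hBC h E ηK
    have h3 := h01At_unit hBC hK hISO h K ηK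
    exact ⟨h1.1.symm.trans (h2.1.symm.trans h3.1), h1.2.symm.trans (h2.2.symm.trans h3.2)⟩
  have hVB : N.toData.IsVB := LB.H7.stmt_VB k 𝒞 h R N
  -- the Euler characteristic is constant
  have hχ : ∀ p : PrimeSpectrum R,
      (N.toData.h0At p : ℤ) - (N.toData.h1At p : ℤ) = 1 - (genus 𝒞 : ℤ) := by
    intro p
    have hlc := P1.H97.stmt_CHI R N.toData hVB
    have := hlc.apply_eq_of_preconnectedSpace p η
    rw [this, hgen.1, hgen.2]
    rfl
  have hS := P1.H97.stmt_SEMI R N.toData hVB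
  -- `h0 ≥ 1` everywhere
  have hge : ∀ p : PrimeSpectrum R, 1 ≤ N.toData.h0At p := by
    intro p
    exact forall_mem_of_isClosed_of_bot_mem _ (hS 1).1 (by
      change 1 ≤ N.toData.h0At η
      rw [hgen.1]) p
  -- the fibres at `k`-points
  have hpt : ∀ (t : R →ₐ[k] k) (Nt : Triple 𝒞 k), BC t N Nt → IsUnitTriple Nt := by
    intro t Nt βt
    have h1 := h01At_pt hBC hK h N t Nt βt
    have h2 := hχ (ptPrime t)
    rw [h1.1, h1.2] at h2
    have h3 := hge (ptPrime t)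
    rw [h1.1] at h3
    refine (hMC k 𝒞 h Nt).2 ?_ h3
    unfold deg chi
    rw [h2, sub_self]
  -- `h0 ≤ 1` everywhere
  have hle : ∀ p : PrimeSpectrum R, N.toData.h0At p ≤ 1 := by
    intro p
    by_contra hp
    have hp2 : 2 ≤ N.toData.h0At p := by omega
    obtain ⟨t, ht⟩ := exists_pt_mem_of_isClosed (k := k) _ (hS 2).1 ⟨p, hp2⟩
    obtain ⟨Nt, ⟨βt⟩⟩ := LB.H36.stmt_BCEX k 𝒞 h R k t N
    have h1 := h01At_pt hBC hK h N t Nt βt
    have h2 := ((hISO k 𝒞 h).2.2.2.2 Nt (hpt t Nt βt)).1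
    have ht' : 2 ≤ N.toData.h0At (ptPrime t) := ht
    rw [h1.1, h2] at ht'
    omega
  have h0 : ∀ p, N.toData.h0At p = 1 := fun p => le_antisymm (hle p) (hge p)
  refine ⟨h0, ?_, hpt⟩
  intro p
  have := hχ p
  rw [h0 p] at this
  have h4 : (N.toData.h1At p : ℤ) = (genus 𝒞 : ℤ) := by
    have h5 : ((1 : ℕ) : ℤ) = 1 := rfl
    rw [h5] at this
    linarith
  exact_mod_cast h4

/-- **TRIP-SEPFG** from the compatibility of the fibre numbers with base change, `Num.Stmt_ISO`,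
`Num.Stmt_MONOCOR` and `Stmt_TRIV`. -/
theorem sepfg_of (hBC : Stmt_H01BC.{u}) (hK : Stmt_H01K.{u}) (hISO : Num.Stmt_ISO.{u})
    (hMC : Num.Stmt_MONOCOR.{u}) (hTRIV : Stmt_TRIV.{u}) : Stmt_SEPFG.{u} := by
  intro k _ _ 𝒞 h R _ _ _ _ K _ _ _ _ _ N NK β hE p
  obtain ⟨β⟩ : Nonempty (BC (IsScalarTower.toAlgHom k R K) N NK) := ⟨β⟩
  obtain ⟨E⟩ := hE
  obtain ⟨h0N, h1N, hptN⟩ := fibre_numbers hBC hK hISO hMC h R K N NK β E
  obtain ⟨h0D, h1D, -⟩ := fibre_numbers hBC hK hISO hMC h R K (H60.dual N h) (H60.dual NK h)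
    (H60.dualBC h β) (dualIsoUnit h E)
  obtain ⟨t, ht⟩ := exists_pt_ge (k := k) p.asIdeal p.2.ne_top
  obtain ⟨Nt, ⟨βt⟩⟩ := LB.H36.stmt_BCEX k 𝒞 h R k t N
  obtain ⟨r, hr, hTr⟩ := hTRIV k 𝒞 h R N h0N h1N h0D h1D t Nt βt (hptN t Nt βt)
  refine ⟨r, fun hrp => hr ?_, hTr⟩
  exact ht hrp

end Main

end Fermat.Agent.S25.Trip.H26
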