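/-
helper72, S25 package TRIP, leaf RESTR: restriction of a chart `(B, Q)` to a principal open
`(B[1/e], Q[1/e])`.

* `bcComp`, `bcCast`          : base changes compose;
* `eR_tmap`, `isRigid_of_bc`  : rigidity is stable under base change;
* `classBy_comp`              : `ClassBy Qe L φ` and `BC ψ Q Qe` give `ClassBy Q L (φ ∘ ψ)`;
* `classBy_bc`, `classBy_iso` : `ClassBy` is stable under base change and isomorphism;
* `classBy_lift`              : the last clause of `Stmt_RESTR`;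
* `stmt_RESTR : Stmt_RESTR`.
-/
import Fermat.Agent.S25.Trip.Defs
import Fermat.Agent.S25.LB.H36_BC
import Fermat.Agent.S25.LB.H73_BCUniq

set_option autoImplicit false
set_option linter.style.haveILetI false
set_option linter.unusedSectionVars false

universe u

open Polynomial TensorProduct

namespace Fermat.Agent.S25.Trip.H72

open Fermat.Agent.S25.LB Fermat.Agent.S25.Chart Fermat.Agent.S25.Num

variable {k : Type u} [Field k] {𝒞 : CurveDatum k}

section Comp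

variable {R : Type u} [CommRing R] [Algebra k R] {R' : Type u} [CommRing R'] [Algebra k R']
  {R'' : Type u} [CommRing R''] [Algebra k R'']

theorem tmap_comp (φ : R →ₐ[k] R') (ψ : R' →ₐ[k] R'') (B : Type u) [CommRing B] [Algebra k B]
    (c : R ⊗[k] B) : tmap (ψ.comp φ) B c = tmap ψ B (tmap φ B c) := by
  induction c using TensorProduct.induction_on with
  | zero => simp
  | tmul r b => rfl
  | add x y hx hy => rw [map_add, map_add, map_add, hx, hy]

/-- The images of a composite of two generating semilinear maps generate. -/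
theorem span_range_comp {A A' A'' : Type u} [CommRing A] [CommRing A'] [CommRing A'']
    {P P' P'' : Type u} [AddCommGroup P] [AddCommGroup P'] [AddCommGroup P'']
    [Module A P] [Module A' P'] [Module A'' P'']
    (τ' : A' →+* A'') (b : P →+ P') (b' : P' →+ P'')
    (s' : ∀ (c : A') (q : P'), b' (c • q) = τ' c • b' q)
    (g : Submodule.span A' (Set.range b) = ⊤) (g' : Submodule.span A'' (Set.range b') = ⊤) :
    Submodule.span A'' (Set.range (b'.comp b)) = ⊤ := by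
  rw [eq_top_iff, ← g']
  refine Submodule.span_le.mpr ?_
  rintro _ ⟨q', rfl⟩
  have hq' : q' ∈ Submodule.span A' (Set.range b) := by rw [g]; trivial
  induction hq' using Submodule.span_induction with
  | mem x hx =>
    obtain ⟨q, rfl⟩ := hx
    exact Submodule.subset_span ⟨q, rfl⟩
  | zero => rw [map_zero]; exact Submodule.zero_mem _
  | add x y _ _ hx hy => rw [map_add]; exact Submodule.add_mem _ hx hy
  | smul c x _ hx => rw [s']; exact Submodule.smul_mem _ _ hx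

/-- Base changes compose. -/
def bcComp {φ : R →ₐ[k] R'} {ψ : R' →ₐ[k] R''} {L : Triple 𝒞 R} {L' : Triple 𝒞 R'}
    {L'' : Triple 𝒞 R''} (β : BC φ L L') (β' : BC ψ L' L'') : BC (ψ.comp φ) L L'' where
  b0 := β'.b0.comp β.b0
  b1 := β'.b1.comp β.b1
  b01 := β'.b01.comp β.b01
  semi0 := fun c q => by
    rw [AddMonoidHom.comp_apply, AddMonoidHom.comp_apply, β.semi0, β'.semi0, tmap_comp]
  semi1 := fun c q => by
    rw [AddMonoidHom.comp_apply, AddMonoidHom.comp_apply, β.semi1, β'.semi1, tmap_comp]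
  semi01 := fun c q => by
    rw [AddMonoidHom.comp_apply, AddMonoidHom.comp_apply, β.semi01, β'.semi01, tmap_comp]
  comm0 := fun q => by
    rw [AddMonoidHom.comp_apply, AddMonoidHom.comp_apply, β.comm0, β'.comm0]
  comm1 := fun q => by
    rw [AddMonoidHom.comp_apply, AddMonoidHom.comp_apply, β.comm1, β'.comm1]
  gen0 := span_range_comp (A := R ⊗[k] 𝒞.B0) (A' := R' ⊗[k] 𝒞.B0) (A'' := R'' ⊗[k] 𝒞.B0)
    (tmap ψ 𝒞.B0).toRingHom β.b0 β'.b0 β'.semi0 β.gen0 β'.gen0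
  gen1 := span_range_comp (A := R ⊗[k] 𝒞.B1) (A' := R' ⊗[k] 𝒞.B1) (A'' := R'' ⊗[k] 𝒞.B1)
    (tmap ψ 𝒞.B1).toRingHom β.b1 β'.b1 β'.semi1 β.gen1 β'.gen1

/-- Transport of a base change along an equality of maps. -/
def bcCast {φ φ' : R →ₐ[k] R'} (h : φ = φ') {L : Triple 𝒞 R} {L' : Triple 𝒞 R'}
    (β : BC φ L L') : BC φ' L L' := h ▸ β

end Comp

section Rigid

variable {R : Type u} [CommRing R] [Algebra k R] {R' : Type u} [CommRing R'] [Algebra k R']

theorem eR_tmap (φ : R →ₐ[k] R') (c : R ⊗[k] 𝒞.B1) :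
    𝒞.eR R' (tmap φ 𝒞.B1 c) = φ (𝒞.eR R c) := by
  induction c using TensorProduct.induction_on with
  | zero => simp
  | tmul r b => simp [CurveDatum.eR, tmap]
  | add x y hx hy => rw [map_add, map_add, map_add, map_add, hx, hy]

/-- Rigidity is stable under base change. -/
theorem isRigid_of_bc {φ : R →ₐ[k] R'} {L : Triple 𝒞 R} {L' : Triple 𝒞 R'} (β : BC φ L L')
    (h : L.IsRigid) : L'.IsRigid := by
  obtain ⟨p, hp⟩ := h
  refine ⟨β.b1 p, fun q' => ?_⟩
  have himg : ∀ x ∈ (RingHom.ker (𝒞.eR R).toRingHom • (⊤ : Submodule (R ⊗[k] 𝒞.B1) L.P1)),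
      β.b1 x ∈ (RingHom.ker (𝒞.eR R').toRingHom • (⊤ : Submodule (R' ⊗[k] 𝒞.B1) L'.P1)) := by
    intro x hx
    induction hx using Submodule.smul_induction_on' with
    | smul i hi m hm =>
      rw [β.semi1]
      refine Submodule.smul_mem_smul ?_ trivial
      rw [RingHom.mem_ker] at hi ⊢
      change 𝒞.eR R' (tmap φ 𝒞.B1 i) = 0
      rw [eR_tmap]
      have hi' : 𝒞.eR R i = 0 := hi
      rw [hi', map_zero]
    | add x hx y hy ihx ihy => rw [map_add]; exact Submodule.add_mem _ ihx ihy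
  have hq' : q' ∈ Submodule.span (R' ⊗[k] 𝒞.B1) (Set.range β.b1) := by rw [β.gen1]; trivial
  induction hq' using Submodule.span_induction with
  | mem x hx =>
    obtain ⟨q, rfl⟩ := hx
    obtain ⟨a, ha⟩ := hp q
    refine ⟨tmap φ 𝒞.B1 a, ?_⟩
    have := himg _ ha
    rwa [map_sub, β.semi1] at this
  | zero => exact ⟨0, by simp⟩
  | add x y _ _ hx hy =>
    obtain ⟨a, ha⟩ := hx
    obtain ⟨b, hb⟩ := hy
    refine ⟨a + b, ?_⟩
    have := Submodule.add_mem _ ha hb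
    convert this using 1
    rw [add_smul]; abel
  | smul c x _ hx =>
    obtain ⟨a, ha⟩ := hx
    refine ⟨c * a, ?_⟩
    have := Submodule.smul_mem _ c ha
    convert this using 1
    rw [smul_sub, mul_smul]

end Rigid

section Class

variable {B : Type u} [CommRing B] [Algebra k B] {B' : Type u} [CommRing B'] [Algebra k B']
  {R : Type u} [CommRing R] [Algebra k R] {R' : Type u} [CommRing R'] [Algebra k R']
  {R'' : Type u} [CommRing R''] [Algebra k R'']

theorem classBy_comp {Q : Triple 𝒞 B} {Q' : Triple 𝒞 B'} {ψ : B →ₐ[k] B'} (β : BC ψ Q Q')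
    {L : Triple 𝒞 R} {φ : B' →ₐ[k] R} (h : ClassBy Q' L φ) : ClassBy Q L (φ.comp ψ) := by
  obtain ⟨Qφ, ⟨β'⟩, hI⟩ := h
  exact ⟨Qφ, ⟨bcComp β β'⟩, hI⟩

theorem classBy_iso {Q : Triple 𝒞 B} {L L' : Triple 𝒞 R} {φ : B →ₐ[k] R} (h : ClassBy Q L φ)
    (I : Triple.Iso L' L) : ClassBy Q L' φ := by
  obtain ⟨Qφ, hβ, ⟨J⟩⟩ := h
  exact ⟨Qφ, hβ, ⟨H60.isoTrans I J⟩⟩

theorem classBy_bc (hg : 𝒞.IsGood) {Q : Triple 𝒞 B} {L : Triple 𝒞 R} {φ : B →ₐ[k] R}
    (h : ClassBy Q L φ) {ψ : R →ₐ[k] R'} {L' : Triple 𝒞 R'} (β : BC ψ L L') :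
    ClassBy Q L' (ψ.comp φ) := by
  obtain ⟨Qφ, ⟨βφ⟩, hI⟩ := h
  obtain ⟨Qφ', ⟨β'⟩⟩ := H36.stmt_BCEX k 𝒞 hg R R' ψ Qφ
  exact ⟨Qφ', ⟨bcComp βφ β'⟩, H73.stmt_BCUNIQ k 𝒞 hg R R' ψ L Qφ L' Qφ' β β' hI⟩

/-- A base change along a composite factors through any base change along the first map. -/
theorem exists_bc_factor (hg : 𝒞.IsGood) {φ : R →ₐ[k] R'} {ψ : R' →ₐ[k] R''} {L : Triple 𝒞 R}
    {L' : Triple 𝒞 R'} {L'' : Triple 𝒞 R''} (β : BC φ L L') (β'' : BC (ψ.comp φ) L L'') :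
    ∃ L₂ : Triple 𝒞 R'', Nonempty (BC ψ L' L₂) ∧ Nonempty (Triple.Iso L'' L₂) := by
  obtain ⟨L₂, ⟨β'⟩⟩ := H36.stmt_BCEX k 𝒞 hg R' R'' ψ L'
  exact ⟨L₂, ⟨β'⟩, H73.stmt_BCUNIQ k 𝒞 hg R R'' (ψ.comp φ) L L L'' L₂ β'' (bcComp β β')
    ⟨H60.isoRefl L⟩⟩

/-- The lift of `φ` to the localisation at `e`. -/
noncomputable def liftAway (e : B) (φ : B →ₐ[k] R) (hu : IsUnit (φ e)) :
    Localization.Away e →ₐ[k] R :=
  IsLocalization.liftAlgHom (M := Submonoid.powers e) (f := φ) (by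
    rintro ⟨_, n, rfl⟩
    rw [map_pow]
    exact hu.pow n)

theorem liftAway_algebraMap (e : B) (φ : B →ₐ[k] R) (hu : IsUnit (φ e)) (b : B) :
    liftAway e φ hu (algebraMap B (Localization.Away e) b) = φ b :=
  IsLocalization.lift_eq _ _

theorem liftAway_comp (e : B) (φ : B →ₐ[k] R) (hu : IsUnit (φ e)) :
    (liftAway e φ hu).comp (awayMap e) = φ := by
  ext b
  exact liftAway_algebraMap e φ hu b

/-- **RESTR**, last clause. -/
theorem classBy_lift (hg : 𝒞.IsGood) (Q : Triple 𝒞 B) (e : B)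
    (Qe : Triple 𝒞 (Localization.Away e)) (β : BC (awayMap e) Q Qe)
    (L : Triple 𝒞 R) (φ : B →ₐ[k] R) (h : ClassBy Q L φ) (hu : IsUnit (φ e)) :
    ClassBy Qe L (liftAway e φ hu) := by
  obtain ⟨Qφ, ⟨βφ⟩, ⟨I⟩⟩ := h
  obtain ⟨Qφe, ⟨βe⟩⟩ := H36.stmt_BCEX k 𝒞 hg _ R (liftAway e φ hu) Qe
  have β2 : BC φ Q Qφe := bcCast (liftAway_comp e φ hu) (bcComp β βe)
  obtain ⟨J⟩ := H73.stmt_BCUNIQ k 𝒞 hg B R φ Q Q Qφ Qφe βφ β2 ⟨H60.isoRefl Q⟩
  exact ⟨Qφe, ⟨βe⟩, ⟨H60.isoTrans I J⟩⟩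

/-- **RESTR**, monomorphism. -/
theorem monoCh_restr (Q : Triple 𝒞 B) (e : B) (Qe : Triple 𝒞 (Localization.Away e))
    (β : BC (awayMap e) Q Qe) (hM : MonoCh Q) : MonoCh Qe := by
  intro R _ _ L φ φ' h h'
  have h1 := hM R L _ _ (classBy_comp β h) (classBy_comp β h')
  apply AlgHom.coe_ringHom_injective
  apply IsLocalization.ringHom_ext (Submonoid.powers e)
  ext b
  exact DFunLike.congr_fun h1 b

/-- **RESTR**, openness at `k`-points. -/
theorem openK_restr (hg : 𝒞.IsGood) (Q : Triple 𝒞 B) (e : B)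
    (Qe : Triple 𝒞 (Localization.Away e)) (β : BC (awayMap e) Q Qe) (hM : MonoCh Q)
    (hO : OpenK Q) : OpenK Qe := by
  intro R _ _ _ L t Lt y βt hy
  have hy0 : ClassBy Q Lt (y.comp (awayMap e)) := classBy_comp β hy
  obtain ⟨r, htr, Lr, φ, ⟨βr⟩, hφ⟩ := hO R L t Lt _ βt hy0
  -- the point `t` on `D(r)`
  have hur : IsUnit (t r) := IsUnit.mk0 _ htr
  have htr' : (liftAway r t hur).comp (awayMap r) = t := liftAway_comp r t hur
  obtain ⟨Lt', ⟨βt'⟩, ⟨I⟩⟩ := exists_bc_factor hg βr (bcCast htr'.symm βt)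
  have h2 : ClassBy Q Lt ((liftAway r t hur).comp φ) := classBy_iso (classBy_bc hg hφ βt') I
  have h3 : (liftAway r t hur).comp φ = y.comp (awayMap e) := hM k Lt _ _ h2 hy0
  have h4 : liftAway r t hur (φ e) ≠ 0 := by
    have h5 : liftAway r t hur (φ e) = y (algebraMap B (Localization.Away e) e) :=
      DFunLike.congr_fun h3 e
    rw [h5]
    exact ((IsLocalization.Away.algebraMap_isUnit e).map y).ne_zero
  -- `φ e = s / r ^ n`
  obtain ⟨n, s, hs⟩ := IsLocalization.Away.surj r (φ e)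
  have hts : t s ≠ 0 := by
    rw [← liftAway_algebraMap r t hur s, ← hs, map_mul, map_pow, liftAway_algebraMap]
    exact mul_ne_zero h4 (pow_ne_zero _ htr)
  refine ⟨r * s, by rw [map_mul]; exact mul_ne_zero htr hts, ?_⟩
  -- the map `R[1/r] → R[1/(r s)]`
  have hrs : IsUnit (algebraMap R (Localization.Away (r * s)) (r * s)) :=
    IsLocalization.Away.algebraMap_isUnit (r * s)
  rw [map_mul] at hrs
  have hιu : IsUnit (awayMap (k := k) (r * s) r) := isUnit_of_mul_isUnit_left hrs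
  have hsu : IsUnit (algebraMap R (Localization.Away (r * s)) s) := isUnit_of_mul_isUnit_right hrs
  obtain ⟨Lr', ⟨βr'⟩⟩ := H36.stmt_BCEX k 𝒞 hg _ _ (liftAway r (awayMap (k := k) (r * s)) hιu) Lr
  have β3 : BC (awayMap (r * s)) L Lr' :=
    bcCast (liftAway_comp r (awayMap (k := k) (r * s)) hιu) (bcComp βr βr')
  have h5 : ClassBy Q Lr' ((liftAway r (awayMap (k := k) (r * s)) hιu).comp φ) :=
    classBy_bc hg hφ βr'
  have h6 : IsUnit (((liftAway r (awayMap (k := k) (r * s)) hιu).comp φ) e) := by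
    have h7 : liftAway r (awayMap (k := k) (r * s)) hιu (φ e) *
        liftAway r (awayMap (k := k) (r * s)) hιu (algebraMap R (Localization.Away r) r) ^ n =
        algebraMap R (Localization.Away (r * s)) s := by
      rw [← map_pow, ← map_mul, hs]
      exact liftAway_algebraMap r (awayMap (k := k) (r * s)) hιu s
    rw [← h7] at hsu
    exact isUnit_of_mul_isUnit_left hsu
  exact ⟨Lr', _, ⟨β3⟩, classBy_lift hg Q e Qe β Lr' _ h5 h6⟩

end Class

/-- **T-RESTR**. -/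
theorem stmt_RESTR : Stmt_RESTR.{u} := by
  intro k _ _ 𝒞 hg B _ _ Q e Qe β
  exact ⟨isRigid_of_bc β, monoCh_restr Q e Qe β, openK_restr hg Q e Qe β,
    fun R _ _ L φ h hu => ⟨liftAway e φ hu, classBy_lift hg Q e Qe β L φ h hu⟩⟩

end Fermat.Agent.S25.Trip.H72
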