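/-
helper23, S25 package TRIP, leaf TRIP-TVAL (`Stmt_TVAL` of `S25/Trip/Defs.lean`): separatedness.

Two triples `L`, `L'` over a valuation ring `O` (only used: `O` is a local domain) which are isomorphic over the
fraction field `K` are isomorphic.

* `Stmt_SEPFGF`      : `Stmt_SEPFG` for an ARBITRARY field `F` with an injective `k`-algebra map `ψ : R → F`
                       (instead of the fraction field of `R`);
* `fibre_numbersF`, `sepfgF_of` : helper26's proof of `Stmt_SEPFG` (`H26.fibre_numbers`, `H26.sepfg_of`) gives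
                       `Stmt_SEPFGF` word for word (the fraction field is only used through the injectivity of
                       `R → K`);
* `sepfg_of_sepfgF`  : `Stmt_SEPFGF → Stmt_SEPFG`;
* `trivial_of_generic` : a triple `N` over a local domain `O` which is trivial over the fraction field is trivial;
* `tval_of_sepfgF : Stmt_SEPFGF → Stmt_TVAL`;
* `tval_of : H26.Stmt_H01BC → H26.Stmt_H01K → Num.Stmt_ISO → Num.Stmt_MONOCOR → Stmt_TRIV → Stmt_TVAL`.

Proof of `trivial_of_generic`: `N` is the base change of `N₀` over a finitely generated subalgebra `R₀ ⊆ O`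
(`Chart.H82.stmt_LIMOBJ`); `R₀ → O → K` is injective and `N₀ ⊗ K = N ⊗ K` is trivial (`H72.bcComp`); by
`Stmt_SEPFGF`, `N₀` is trivial on a principal open `D(r)` which contains the image of the closed point of `Spec O`;
`r` is a unit of `O`, so `R₀ → O` factors through `R₀[1/r]` (`H72.liftAway`), and `N` is the base change of the
trivial triple over `R₀[1/r]` (`H73.stmt_BCUNIQ`, `H60.unitBC`).

Proof of `Stmt_TVAL`: apply this to `N := L' ⊗ L^∨` (`H60.tensorBC`, `H60.dualBC`); then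
`L' ≅ L' ⊗ (L^∨ ⊗ L) ≅ (L' ⊗ L^∨) ⊗ L ≅ L`.
-/
import Fermat.Agent.S25.Trip.Defs
import Fermat.Agent.S25.Trip.H26_SepFG
import Fermat.Agent.S25.Trip.H72_Restr
import Fermat.Agent.S25.LB.H60_TensBC
import Fermat.Agent.S25.LB.H36_BC
import Fermat.Agent.S25.LB.H73_BCUniq
import Fermat.Agent.S25.Chart.H82_LimObj

set_option autoImplicit false
set_option linter.style.haveILetI false

universe u

open TensorProduct

namespace Fermat.Agent.S25.Trip.H23

open Fermat.Agent.S25.LB Fermat.Agent.S25.Chart Fermat.Agent.S25.Num Fermat.Agent.S25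

/-- **T-SEPFG for an arbitrary field**: over a finitely generated `k`-algebra `R` which is a domain, a triple which
is trivial over a field `F` into which `R` embeds is trivial Zariski-locally on `Spec R`. -/
def Stmt_SEPFGF : Prop :=
  ∀ (k : Type u) [Field k] [IsAlgClosed k] (𝒞 : CurveDatum k) (h : 𝒞.IsGood),
    ∀ (R : Type u) [CommRing R] [Algebra k R] [IsDomain R] [Algebra.FiniteType k R]
      (F : Type u) [Field F] [Algebra k F] (ψ : R →ₐ[k] F), Function.Injective ψ →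
      ∀ (N : Triple 𝒞 R) (NF : Triple 𝒞 F), BC ψ N NF →
      Nonempty (Triple.Iso NF (H60.unitTriple 𝒞 F h)) →
      ∀ p : PrimeSpectrum R, ∃ r : R, r ∉ p.asIdeal ∧ TrivOn h N r

section Sep

variable {k : Type u} [Field k] [IsAlgClosed k] {𝒞 : CurveDatum k}

/-- **Fibre numbers of a triple which is trivial over a field `F ⊇ R`** (helper26's `H26.fibre_numbers`, for an
arbitrary field): `h0 = 1`, `h1 = genus` at all primes, and the fibres at `k`-points are unit triples. -/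
theorem fibre_numbersF (hBC : H26.Stmt_H01BC.{u}) (hK : H26.Stmt_H01K.{u}) (hISO : Num.Stmt_ISO.{u})
    (hMC : Num.Stmt_MONOCOR.{u}) (h : 𝒞.IsGood)
    (R : Type u) [CommRing R] [Algebra k R] [IsDomain R] [Algebra.FiniteType k R]
    (F : Type u) [Field F] [Algebra k F] (ψ : R →ₐ[k] F) (hψ : Function.Injective ψ)
    (N : Triple 𝒞 R) (NF : Triple 𝒞 F) (β : BC ψ N NF)
    (E : Triple.Iso NF (H60.unitTriple 𝒞 F h)) :
    (∀ p, N.toData.h0At p = 1) ∧ (∀ p, N.toData.h1At p = genus 𝒞) ∧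
    ∀ (t : R →ₐ[k] k) (Nt : Triple 𝒞 k), BC t N Nt → IsUnitTriple Nt := by
  let η : PrimeSpectrum R := ⟨⊥, Ideal.isPrime_bot⟩
  let ηF : PrimeSpectrum F := ⟨⊥, Ideal.isPrime_bot⟩
  -- the generic fibre
  have hη : PrimeSpectrum.comap ψ.toRingHom ηF = η := by
    apply PrimeSpectrum.ext
    change Ideal.comap ψ.toRingHom ⊥ = ⊥
    rw [← RingHom.ker_eq_comap_bot]
    exact (RingHom.injective_iff_ker_eq_bot _).1 hψ
  have hgen : N.toData.h0At η = 1 ∧ N.toData.h1At η = genus 𝒞 := by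
    have h1 := hBC k 𝒞 h R F _ N NF β ηF
    rw [hη] at h1
    have h2 := H26.h01At_eq_of_iso hBC h E ηF
    have h3 := H26.h01At_unit hBC hK hISO h F ηF
    exact ⟨h1.1.symm.trans (h2.1.symm.trans h3.1), h1.2.symm.trans (h2.2.symm.trans h3.2)⟩
  have hVB : N.toData.IsVB := LB.H7.stmt_VB k 𝒞 h R N
  -- the Euler characteristic is constant
  have hχ : ∀ p : PrimeSpectrum R,
      (N.toData.h0At p : ℤ) - (N.toData.h1At p : ℤ) = 1 - (genus 𝒞 : ℤ) := by
    intro p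
    have hlc := P1.H97.stmt_CHI R N.toData hVB
    have := hlc.apply_eq_of_preconnectedSpace p η
    rw [this, hgen.1, hgen.2]
    rfl
  have hS := P1.H97.stmt_SEMI R N.toData hVB
  -- `h0 ≥ 1` everywhere
  have hge : ∀ p : PrimeSpectrum R, 1 ≤ N.toData.h0At p := by
    intro p
    exact H26.forall_mem_of_isClosed_of_bot_mem _ (hS 1).1 (by
      change 1 ≤ N.toData.h0At η
      rw [hgen.1]) p
  -- the fibres at `k`-points
  have hpt : ∀ (t : R →ₐ[k] k) (Nt : Triple 𝒞 k), BC t N Nt → IsUnitTriple Nt := by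
    intro t Nt βt
    have h1 := H26.h01At_pt hBC hK h N t Nt βt
    have h2 := hχ (ptPrime t)
    rw [h1.1, h1.2] at h2
    have h3 := hge (ptPrime t)
    rw [h1.1] at h3
    refine (hMC k 𝒞 h Nt).2 ?_ h3
    unfold deg chi
    rw [h2, sub_self]
  -- `h0 ≤ 1` everywhere
  have hle : ∀ p : PrimeSpectrum R, N.toData.h0At p ≤ 1 := by
    intro p
    by_contra hp
    have hp2 : 2 ≤ N.toData.h0At p := by omega
    obtain ⟨t, ht⟩ := H26.exists_pt_mem_of_isClosed (k := k) _ (hS 2).1 ⟨p, hp2⟩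
    obtain ⟨Nt, ⟨βt⟩⟩ := LB.H36.stmt_BCEX k 𝒞 h R k t N
    have h1 := H26.h01At_pt hBC hK h N t Nt βt
    have h2 := ((hISO k 𝒞 h).2.2.2.2 Nt (hpt t Nt βt)).1
    have ht' : 2 ≤ N.toData.h0At (ptPrime t) := ht
    rw [h1.1, h2] at ht'
    omega
  have h0 : ∀ p, N.toData.h0At p = 1 := fun p => le_antisymm (hle p) (hge p)
  refine ⟨h0, ?_, hpt⟩
  intro p
  have := hχ p
  rw [h0 p] at this
  have h4 : (N.toData.h1At p : ℤ) = (genus 𝒞 : ℤ) := by
    have h5 : ((1 : ℕ) : ℤ) = 1 := rfl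
    rw [h5] at this
    linarith
  exact_mod_cast h4

/-- **TRIP-SEPFG for an arbitrary field** (helper26's `H26.sepfg_of`, for an arbitrary field). -/
theorem sepfgF_of (hBC : H26.Stmt_H01BC.{u}) (hK : H26.Stmt_H01K.{u}) (hISO : Num.Stmt_ISO.{u})
    (hMC : Num.Stmt_MONOCOR.{u}) (hTRIV : Stmt_TRIV.{u}) : Stmt_SEPFGF.{u} := by
  intro k _ _ 𝒞 h R _ _ _ _ F _ _ ψ hψ N NF β hE p
  obtain ⟨β⟩ : Nonempty (BC ψ N NF) := ⟨β⟩
  obtain ⟨E⟩ := hE
  obtain ⟨h0N, h1N, hptN⟩ := fibre_numbersF hBC hK hISO hMC h R F ψ hψ N NF β E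
  obtain ⟨h0D, h1D, -⟩ := fibre_numbersF hBC hK hISO hMC h R F ψ hψ (H60.dual N h) (H60.dual NF h)
    (H60.dualBC h β) (H26.dualIsoUnit h E)
  obtain ⟨t, ht⟩ := H26.exists_pt_ge (k := k) p.asIdeal p.2.ne_top
  obtain ⟨Nt, ⟨βt⟩⟩ := LB.H36.stmt_BCEX k 𝒞 h R k t N
  obtain ⟨r, hr, hTr⟩ := hTRIV k 𝒞 h R N h0N h1N h0D h1D t Nt βt (hptN t Nt βt)
  refine ⟨r, fun hrp => hr ?_, hTr⟩
  exact ht hrp

end Sep

/-- `Stmt_SEPFG` is the case `F = Frac R` of `Stmt_SEPFGF`. -/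
theorem sepfg_of_sepfgF (hS : Stmt_SEPFGF.{u}) : Stmt_SEPFG.{u} := by
  intro k _ _ 𝒞 h R _ _ _ _ K _ _ _ _ _ N NK β hE p
  exact hS k 𝒞 h R K (IsScalarTower.toAlgHom k R K) (IsFractionRing.injective R K) N NK β hE p

section Val

variable {k : Type u} [Field k] [IsAlgClosed k] {𝒞 : CurveDatum k}

/-- **A triple over a local domain which is trivial over a field containing it is trivial.** -/
theorem trivial_of_generic (hS : Stmt_SEPFGF.{u}) (h : 𝒞.IsGood)
    (O : Type u) [CommRing O] [IsDomain O] [IsLocalRing O] [Algebra k O]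
    (F : Type u) [Field F] [Algebra k F] (ι : O →ₐ[k] F) (hι : Function.Injective ι)
    (N : Triple 𝒞 O) (NF : Triple 𝒞 F) (βN : BC ι N NF)
    (J : Triple.Iso NF (H60.unitTriple 𝒞 F h)) :
    Nonempty (Triple.Iso N (H60.unitTriple 𝒞 O h)) := by
  -- `N` comes from a finitely generated subalgebra
  obtain ⟨R₀, hfg, N₀, ⟨β₀⟩⟩ := Chart.H82.stmt_LIMOBJ k 𝒞 h O N
  haveI : Algebra.FiniteType k R₀ := (Subalgebra.fg_iff_finiteType R₀).1 hfg
  have hψ : Function.Injective (ι.comp R₀.val) := hι.comp Subtype.val_injective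
  let p : PrimeSpectrum R₀ :=
    PrimeSpectrum.comap R₀.val.toRingHom ⟨IsLocalRing.maximalIdeal O, inferInstance⟩
  obtain ⟨r, hr, Nr, ⟨βr⟩, ⟨Jr⟩⟩ :=
    hS k 𝒞 h R₀ F (ι.comp R₀.val) hψ N₀ NF (H72.bcComp β₀ βN) ⟨J⟩ p
  -- `r` is a unit of `O`
  have hu : IsUnit (R₀.val r) := by
    by_contra hnu
    exact hr ((IsLocalRing.mem_maximalIdeal _).2 hnu)
  -- `N` is the base change of `Nr`
  obtain ⟨N', ⟨βθ⟩⟩ := LB.H36.stmt_BCEX k 𝒞 h _ O (H72.liftAway r R₀.val hu) Nr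
  have β₂ : BC R₀.val N₀ N' := H72.bcCast (H72.liftAway_comp r R₀.val hu) (H72.bcComp βr βθ)
  obtain ⟨I₁⟩ := LB.H73.stmt_BCUNIQ k 𝒞 h R₀ O R₀.val N₀ N₀ N N' β₀ β₂ ⟨H60.isoRefl N₀⟩
  obtain ⟨I₂⟩ := LB.H73.stmt_BCUNIQ k 𝒞 h _ O (H72.liftAway r R₀.val hu) Nr
    (H60.unitTriple 𝒞 _ h) N' (H60.unitTriple 𝒞 O h) βθ (H60.unitBC _ h) ⟨Jr⟩
  exact ⟨H60.isoTrans I₁ I₂⟩

/-- Two triples over a local domain `O` which become isomorphic over a field containing `O` are isomorphic. -/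
theorem iso_of_generic (hS : Stmt_SEPFGF.{u}) (h : 𝒞.IsGood)
    (O : Type u) [CommRing O] [IsDomain O] [IsLocalRing O] [Algebra k O]
    (F : Type u) [Field F] [Algebra k F] (ι : O →ₐ[k] F) (hι : Function.Injective ι)
    (L L' : Triple 𝒞 O) (LF LF' : Triple 𝒞 F) (β : BC ι L LF) (β' : BC ι L' LF')
    (I : Triple.Iso LF LF') : Nonempty (Triple.Iso L L') := by
  -- the difference `N = L' ⊗ L^∨`
  have J : Triple.Iso (H60.tensor LF' (H60.dual LF h) h) (H60.unitTriple 𝒞 F h) :=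
    H60.isoTrans (H60.tensorCongr h (H60.isoSymm I) (H60.isoRefl (H60.dual LF h)))
      (H60.tensorDual LF h)
  obtain ⟨IN⟩ := trivial_of_generic hS h O F ι hι (H60.tensor L' (H60.dual L h) h)
    (H60.tensor LF' (H60.dual LF h) h) (H60.tensorBC h β' (H60.dualBC h β)) J
  -- `L' ≅ L' ⊗ (L^∨ ⊗ L) ≅ (L' ⊗ L^∨) ⊗ L ≅ L`
  have I' : Triple.Iso L' L :=
    H60.isoTrans (H60.isoSymm (H60.tensorUnitRight L' h))
      (H60.isoTrans (H60.tensorCongr h (H60.isoRefl L') (H60.isoSymm (H60.dualTensor L h)))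
        (H60.isoTrans (H60.isoSymm (H60.tensorAssoc L' (H60.dual L h) L h))
          (H60.isoTrans (H60.tensorCongr h IN (H60.isoRefl L)) (H60.tensorUnitLeft L h))))
  exact ⟨H60.isoSymm I'⟩

end Val

/-- **T-VAL** from `Stmt_SEPFGF`. -/
theorem tval_of_sepfgF (hS : Stmt_SEPFGF.{u}) : Stmt_TVAL.{u} := by
  intro k _ _ 𝒞 h O _ _ _ _ K _ _ _ _ _ L L' LK LK' β β' hI
  obtain ⟨β⟩ : Nonempty (BC (IsScalarTower.toAlgHom k O K) L LK) := ⟨β⟩
  obtain ⟨β'⟩ : Nonempty (BC (IsScalarTower.toAlgHom k O K) L' LK') := ⟨β'⟩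
  obtain ⟨I⟩ := hI
  exact iso_of_generic hS h O K (IsScalarTower.toAlgHom k O K) (IsFractionRing.injective O K)
    L L' LK LK' β β' I

/-- **T-VAL** from the compatibility of the fibre numbers with base change, `Num.Stmt_ISO`, `Num.Stmt_MONOCOR` and
`Stmt_TRIV` (the hypotheses of helper26's `H26.sepfg_of`). -/
theorem tval_of (hBC : H26.Stmt_H01BC.{u}) (hK : H26.Stmt_H01K.{u}) (hISO : Num.Stmt_ISO.{u})
    (hMC : Num.Stmt_MONOCOR.{u}) (hTRIV : Stmt_TRIV.{u}) : Stmt_TVAL.{u} :=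
  tval_of_sepfgF (sepfgF_of hBC hK hISO hMC hTRIV)

end Fermat.Agent.S25.Trip.H23
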