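/-
helper26, S25 package TRIP: the fibre numbers `h0At`, `h1At` of a triple are compatible with base change.

* `stmt_H01K  : Stmt_H01K`  (over the base field the fibre is the triple itself; `P1.Stmt_FIELDEXT`);
* `stmt_H01BC : Stmt_H01BC` (`BC ψ L L'` ⟹ `h_i At L' p' = h_i At L (comap ψ p')`;
  `LB.Stmt_BCDATA` + `P1.Stmt_BCTRANS` (twice) + `P1.Stmt_FIELDEXT` for `κ(p) → κ(p')`);
* `stmt_SEPFG_of_TRIV : Num.Stmt_ISO → Num.Stmt_MONOCOR → Stmt_TRIV → Stmt_SEPFG`;
* `stmt_DEGBC : Stmt_DEGBC` as a by-product.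
-/
import Fermat.Agent.S25.Trip.H26_SepFG
import Fermat.Agent.S25.LB.H36_BCData
import Fermat.Agent.S25.P1.H54_BcIso
import Fermat.Agent.S25.P1.H92_FieldExt
import Fermat.Agent.S25.P1.H45_Iso
import Fermat.Agent.S25.P1.H36_Tw

set_option autoImplicit false
set_option linter.style.haveILetI false

universe u

open TensorProduct

namespace Fermat.Agent.S25.Trip.H26

open Fermat.Agent.S25.LB Fermat.Agent.S25.Chart Fermat.Agent.S25.Num Fermat.Agent.S25
open Fermat.Agent.S25.P1

section IsoBC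

variable {A : Type u} [CommRing A] (A' : Type u) [CommRing A'] [Algebra A A']
variable {M M' P P' : Type u} [AddCommGroup M] [AddCommGroup M'] [Module A M] [Module A M']
  [AddCommGroup P] [AddCommGroup P'] [Module A P] [Module A P']

/-- base change of a commutative square of equivalences -/
theorem bc_comm_sq (e : M ≃ₗ[A] M') (e' : P ≃ₗ[A] P') (f : M →ₗ[A] P) (f' : M' →ₗ[A] P')
    (h : ∀ m, e' (f m) = f' (e m)) (x : A' ⊗[A] M) :
    LinearEquiv.baseChange A A' P P' e' (f.baseChange A' x) =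
      f'.baseChange A' (LinearEquiv.baseChange A A' M M' e x) := by
  induction x using TensorProduct.induction_on with
  | zero => simp only [map_zero]
  | tmul a m =>
    change a ⊗ₜ[A] e' (f m) = a ⊗ₜ[A] f' (e m)
    rw [h]
  | add x y hx hy => simp only [map_add, hx, hy]

variable {N N' : Data A}

/-- base change of an isomorphism of two-chart data -/
noncomputable def isoBC (E : Data.Iso N N') : Data.Iso (N.baseChange A') (N'.baseChange A') where
  e0 := LinearEquiv.baseChange A A' _ _ E.e0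
  e1 := LinearEquiv.baseChange A A' _ _ E.e1
  e01 := LinearEquiv.baseChange A A' _ _ E.e01
  e0_X := fun n => bc_comm_sq A' E.e0 E.e0 N.X0 N'.X0 E.e0_X n
  e1_Z := fun n => bc_comm_sq A' E.e1 E.e1 N.Z1 N'.Z1 E.e1_Z n
  e01_T := fun n => bc_comm_sq A' E.e01 E.e01 N.T.toLinearMap N'.T.toLinearMap E.e01_T n
  e_j0 := fun n => bc_comm_sq A' E.e0 E.e01 N.j0 N'.j0 E.e_j0 n
  e_j1 := fun n => bc_comm_sq A' E.e1 E.e01 N.j1 N'.j1 E.e_j1 n

/-- isomorphic data have the same `finrank` of `H0`, `H1` -/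
theorem finrank_eq_of_iso (E : Data.Iso N N') :
    Module.finrank A N.H0 = Module.finrank A N'.H0 ∧
    Module.finrank A N.H1 = Module.finrank A N'.H1 :=
  ⟨(P1.H45.h0Equiv E).finrank_eq, (P1.H45.h1Equiv E).finrank_eq⟩

end IsoBC

/-- **H01K**. -/
theorem stmt_H01K : Stmt_H01K.{u} := by
  intro k _ 𝒞 h L p
  have hVB : L.toData.IsVB := LB.H7.stmt_VB k 𝒞 h k L
  exact P1.H92.stmt_FIELDEXT k L.toData hVB p.asIdeal.ResidueField

/-- The fibre numbers of two-chart data are compatible with base change along `A → A'`. -/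
theorem h01At_baseChange {A : Type u} [CommRing A] (A' : Type u) [CommRing A'] [Algebra A A']
    (N : Data A) (hVB : N.IsVB) (p' : PrimeSpectrum A') :
    (N.baseChange A').h0At p' = N.h0At (PrimeSpectrum.comap (algebraMap A A') p') ∧
    (N.baseChange A').h1At p' = N.h1At (PrimeSpectrum.comap (algebraMap A A') p') := by
  set p : PrimeSpectrum A := PrimeSpectrum.comap (algebraMap A A') p' with hp
  letI : Algebra p.asIdeal.ResidueField p'.asIdeal.ResidueField :=
    (Ideal.ResidueField.map p.asIdeal p'.asIdeal (algebraMap A A') rfl).toAlgebra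
  letI : Algebra A p'.asIdeal.ResidueField :=
    ((algebraMap A' p'.asIdeal.ResidueField).comp (algebraMap A A')).toAlgebra
  haveI : IsScalarTower A A' p'.asIdeal.ResidueField :=
    IsScalarTower.of_algebraMap_eq fun _ => rfl
  haveI : IsScalarTower A p.asIdeal.ResidueField p'.asIdeal.ResidueField :=
    IsScalarTower.of_algebraMap_eq fun r =>
      (Ideal.ResidueField.map_algebraMap p.asIdeal p'.asIdeal (algebraMap A A') rfl r).symm
  obtain ⟨E1⟩ := (P1.H54.stmt_BCTRANS A N).2 A' p'.asIdeal.ResidueField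
  obtain ⟨E2⟩ := (P1.H54.stmt_BCTRANS A N).2 p.asIdeal.ResidueField p'.asIdeal.ResidueField
  have h1 := finrank_eq_of_iso E1
  have h2 := finrank_eq_of_iso E2
  have hVBp : (N.baseChange p.asIdeal.ResidueField).IsVB :=
    P1.H36.baseChange_isVB p.asIdeal.ResidueField N hVB
  have h3 := P1.H92.stmt_FIELDEXT p.asIdeal.ResidueField (N.baseChange p.asIdeal.ResidueField) hVBp
    p'.asIdeal.ResidueField
  exact ⟨h1.1.trans (h2.1.symm.trans h3.1), h1.2.trans (h2.2.symm.trans h3.2)⟩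

/-- **H01BC**. -/
theorem stmt_H01BC : Stmt_H01BC.{u} := by
  intro k _ 𝒞 h R R' _ _ _ _ ψ L L' β p'
  letI : Algebra R R' := ψ.toRingHom.toAlgebra
  obtain ⟨E⟩ := LB.H36.stmt_BCDATA k 𝒞 h R R' ψ L L' β
  have hVB : L.toData.IsVB := LB.H7.stmt_VB k 𝒞 h R L
  have h1 := h01At_baseChange R' L.toData hVB p'
  have h2 := finrank_eq_of_iso (isoBC p'.asIdeal.ResidueField E)
  exact ⟨h2.1.symm.trans h1.1, h2.2.symm.trans h1.2⟩

/-- **DEG-BC** (by-product). -/
theorem stmt_DEGBC : Stmt_DEGBC.{u} := by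
  intro k _ 𝒞 h R R' _ _ _ _ ψ L L' β p'
  have := stmt_H01BC k 𝒞 h R R' ψ L L' β p'
  unfold chiAt
  rw [this.1, this.2]

/-- **TRIP-SEPFG** from `Num.Stmt_ISO`, `Num.Stmt_MONOCOR`, `Stmt_TRIV`. -/
theorem stmt_SEPFG_of_TRIV (hISO : Num.Stmt_ISO.{u}) (hMC : Num.Stmt_MONOCOR.{u})
    (hTRIV : Stmt_TRIV.{u}) : Stmt_SEPFG.{u} :=
  sepfg_of stmt_H01BC stmt_H01K hISO hMC hTRIV

end Fermat.Agent.S25.Trip.H26
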