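/-
helper23, S25 package TRIP, leaf TRIP-TVAL, closing file: `Stmt_TVAL` (and the general-field `Stmt_SEPFGF`,
`Stmt_SEPFG`) from `Num.Stmt_CHI` ALONE; everything else is on main
(`H26.stmt_H01BC`, `H26.stmt_H01K`, `Num.H45.stmt_ISO`, `Num.H97.stmt_SEC`, `Num.H97.mono_of`, `Num.H38.stmt_PTS`,
`Num.H44.monocor_of`, `H85.stmt_TRIV`).
-/
import Fermat.Agent.S25.Trip.H23_TVal
import Fermat.Agent.S25.Trip.H26_H01
import Fermat.Agent.S25.Trip.H85_TrivClose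
import Fermat.Agent.S25.Num.H44_MonoCor
import Fermat.Agent.S25.Num.H45_Iso
import Fermat.Agent.S25.Num.H97_MonoSec
import Fermat.Agent.S25.Num.H38_Pts

set_option autoImplicit false

universe u

namespace Fermat.Agent.S25.Trip.H23

open Fermat.Agent.S25.LB Fermat.Agent.S25.Chart Fermat.Agent.S25.Num Fermat.Agent.S25

/-- `Num.Stmt_MONOCOR` from `Num.Stmt_CHI`. -/
theorem monocor_of_CHI (hCHI : Num.Stmt_CHI.{u}) : Num.Stmt_MONOCOR.{u} :=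
  Num.H44.monocor_of Num.H45.stmt_ISO Num.H97.stmt_SEC (Num.H97.mono_of hCHI Num.H38.stmt_PTS) hCHI
    Num.H38.stmt_PTS

/-- The general-field `Stmt_SEPFGF` from `Num.Stmt_CHI`. -/
theorem stmt_SEPFGF_of_CHI (hCHI : Num.Stmt_CHI.{u}) : Stmt_SEPFGF.{u} :=
  sepfgF_of H26.stmt_H01BC H26.stmt_H01K Num.H45.stmt_ISO (monocor_of_CHI hCHI) H85.stmt_TRIV

/-- **T-VAL** from `Num.Stmt_CHI`. -/
theorem stmt_TVAL_of_CHI (hCHI : Num.Stmt_CHI.{u}) : Stmt_TVAL.{u} :=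
  tval_of_sepfgF (stmt_SEPFGF_of_CHI hCHI)

end Fermat.Agent.S25.Trip.H23
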