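/-
helper92, S25 (Jacobian exists), package TRIP, leaf **T-OPENGEN** (`Trip.Stmt_OPENGEN` of `Trip/Defs.lean`):
a chart which is open at `k`-points of finitely generated `k`-algebras (`OpenK`) is open (`OpenCh`).

`opengen_of : LB.Stmt_BCEX → LB.Stmt_BCUNIQ → LB.Stmt_BCCOMP → Chart.Stmt_LIMOBJ → Chart.Stmt_LIMISO → Stmt_OPENGEN`.

PROOF.  `ψ : R → R'`, `L` over `R`, `L' = ψ^* L ≅ φ'^* Q`, `p'` a prime of `R'`.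
1. `L = (R₀ ⊆ R)^* L₀` with `R₀` finitely generated (LIMOBJ).
2. `R'₀ := ψ(R₀) ∨ φ'(B) ⊆ R'` is finitely generated; over `R'₀` there are the base changes `M₀` of `L₀` and `M₀'` of `Q`;
   they become isomorphic over `R'`, hence over a finitely generated `R'₁ ⊇ R'₀` (LIMISO): `N₁ ≅ N₁'`.
3. Nullstellensatz: a `k`-point `t₁` of `R'₁` with `p' ∩ R'₁ ⊆ ker t₁`.  `t₀ := t₁ ∘ ψ|R₀`, `y := t₁ ∘ φ'`.
   The fibre of `L₀` at `t₀` is classified by `y`.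
4. `OpenK` for `(R₀, L₀, t₀)`: `r₀` with `t₀ r₀ ≠ 0` and `L₀` classified on `D(r₀)`; so `ψ r₀ ∉ p'`, and
   `L` is classified on `D(r₀) ⊆ Spec R` (base change along `(R₀)_{r₀} → R_{r₀}`).
-/
import Fermat.Agent.S25.Trip.Defs

set_option autoImplicit false

universe u

open Polynomial TensorProduct

namespace Fermat.Agent.S25.Trip.H92

open Fermat.Agent.S25.LB Fermat.Agent.S25.Chart Fermat.Agent.S25.Num Fermat.Agent.S25.Trip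

/-! ## Nullstellensatz -/

/-- a proper ideal of a finitely generated algebra over an algebraically closed field is contained in the kernel
of a `k`-point. -/
theorem exists_pt_of_ne_top {k : Type u} [Field k] [IsAlgClosed k] (A : Type u) [CommRing A] [Algebra k A]
    [Algebra.FiniteType k A] (p : Ideal A) (hp : p ≠ ⊤) :
    ∃ t : A →ₐ[k] k, ∀ a ∈ p, t a = 0 := by
  obtain ⟨m, hm, hpm⟩ := Ideal.exists_le_maximal p hp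
  let _ := Ideal.Quotient.field m
  have hft : Algebra.FiniteType k (A ⧸ m) :=
    Algebra.FiniteType.of_surjective (Ideal.Quotient.mkₐ k m) (Ideal.Quotient.mkₐ_surjective k m)
  have hfin : Module.Finite k (A ⧸ m) := finite_of_finite_type_of_isJacobsonRing k (A ⧸ m)
  have hint : Algebra.IsIntegral k (A ⧸ m) := Algebra.IsIntegral.of_finite k (A ⧸ m)
  have hbij : Function.Bijective (algebraMap k (A ⧸ m)) :=
    IsAlgClosed.algebraMap_bijective_of_isIntegral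
  let e : k ≃ₐ[k] (A ⧸ m) := AlgEquiv.ofBijective (Algebra.ofId k (A ⧸ m)) hbij
  refine ⟨(e.symm : (A ⧸ m) →ₐ[k] k).comp (Ideal.Quotient.mkₐ k m), ?_⟩
  intro a ha
  have h0 : Ideal.Quotient.mkₐ k m a = 0 := Ideal.Quotient.eq_zero_iff_mem.2 (hpm ha)
  rw [AlgHom.comp_apply, h0, map_zero]

/-! ## Formal properties of base change -/

section Formal

variable {k : Type u} [Field k] {𝒞 : CurveDatum k}
  {R : Type u} [CommRing R] [Algebra k R] {R' : Type u} [CommRing R'] [Algebra k R']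
  {R'' : Type u} [CommRing R''] [Algebra k R''] {B : Type u} [CommRing B] [Algebra k B]

/-- transport of a base change along an equality of maps. -/
def bcCongr {φ φ' : R →ₐ[k] R'} (h : φ = φ') {L : Triple 𝒞 R} {L' : Triple 𝒞 R'} (β : BC φ L L') :
    BC φ' L L' := h ▸ β

theorem bc_comp (hCO : Stmt_BCCOMP.{u}) (h𝒞 : 𝒞.IsGood) {φ : R →ₐ[k] R'} {ψ : R' →ₐ[k] R''}
    {L : Triple 𝒞 R} {L' : Triple 𝒞 R'} {L'' : Triple 𝒞 R''} (β : BC φ L L') (γ : BC ψ L' L'') :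
    Nonempty (BC (ψ.comp φ) L L'') :=
  (hCO k 𝒞 h𝒞 R L).2 R' R'' φ ψ L' L'' β γ

theorem iso_of_bc (hUQ : Stmt_BCUNIQ.{u}) (h𝒞 : 𝒞.IsGood) {φ : R →ₐ[k] R'}
    {L : Triple 𝒞 R} {L' L'' : Triple 𝒞 R'} (β : BC φ L L') (γ : BC φ L L'') :
    Nonempty (Triple.Iso L' L'') :=
  hUQ k 𝒞 h𝒞 R R' φ L L L' L'' β γ ⟨H60.isoRefl L⟩

theorem classBy_iso {Q : Triple 𝒞 B} {L M : Triple 𝒞 R} {φ : B →ₐ[k] R}
    (e : Nonempty (Triple.Iso L M)) (h : ClassBy Q M φ) : ClassBy Q L φ := by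
  obtain ⟨Qφ, hb, ⟨I⟩⟩ := h
  obtain ⟨e⟩ := e
  exact ⟨Qφ, hb, ⟨H60.isoTrans e I⟩⟩

/-- the base change of a classified triple is classified. -/
theorem classBy_bc (hEX : Stmt_BCEX.{u}) (hUQ : Stmt_BCUNIQ.{u}) (hCO : Stmt_BCCOMP.{u})
    (h𝒞 : 𝒞.IsGood) {Q : Triple 𝒞 B} {L : Triple 𝒞 R} {φ : B →ₐ[k] R} (h : ClassBy Q L φ)
    {ψ : R →ₐ[k] R'} {L' : Triple 𝒞 R'} (β : BC ψ L L') : ClassBy Q L' (ψ.comp φ) := by
  obtain ⟨Qφ, ⟨b⟩, hI⟩ := h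
  obtain ⟨Q', ⟨b'⟩⟩ := hEX k 𝒞 h𝒞 R R' ψ Qφ
  exact ⟨Q', bc_comp hCO h𝒞 b b', hUQ k 𝒞 h𝒞 R R' ψ L Qφ L' Q' β b' hI⟩

end Formal

/-! ## Localisation of a subalgebra -/

section Away

variable {k : Type u} [Field k] {R : Type u} [CommRing R] [Algebra k R]

theorem isUnit_awayMap_val (R₀ : Subalgebra k R) (r₀ : R₀) :
    IsUnit (((awayMap (k := k) (r₀ : R)).comp R₀.val) r₀) :=
  IsLocalization.Away.algebraMap_isUnit (r₀ : R)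

/-- `(R₀)_{r₀} → R_{r₀}`. -/
noncomputable def awaySub (R₀ : Subalgebra k R) (r₀ : R₀) :
    Localization.Away r₀ →ₐ[k] Localization.Away (r₀ : R) :=
  IsLocalization.Away.liftAlgHom (A := k) r₀ (f := (awayMap (r₀ : R)).comp R₀.val)
    (isUnit_awayMap_val R₀ r₀)

theorem awaySub_comp (R₀ : Subalgebra k R) (r₀ : R₀) :
    (awaySub R₀ r₀).comp (awayMap r₀) = (awayMap (k := k) (r₀ : R)).comp R₀.val := by
  apply AlgHom.ext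
  intro x
  have h1 : awayMap (k := k) r₀ x = algebraMap R₀ (Localization.Away r₀) x := rfl
  rw [AlgHom.comp_apply, h1]
  exact IsLocalization.Away.lift_eq (S := Localization.Away r₀)
    (g := ((awayMap (k := k) (r₀ : R)).comp R₀.val).toRingHom) r₀ (isUnit_awayMap_val R₀ r₀) x

end Away

/-! ## OPENGEN -/

theorem opengen_of (hEX : Stmt_BCEX.{u}) (hUQ : Stmt_BCUNIQ.{u}) (hCO : Stmt_BCCOMP.{u})
    (hLO : Chart.Stmt_LIMOBJ.{u}) (hLI : Chart.Stmt_LIMISO.{u}) : Stmt_OPENGEN.{u} := by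
  intro k _ _ 𝒞 h𝒞 B _ _ hB Q hopen R R' _ _ _ _ ψ L L' φ' β hcl p'
  -- 1. descend `L`
  obtain ⟨R₀, hR₀, L₀, ⟨β₀⟩⟩ := hLO k 𝒞 h𝒞 R L
  obtain ⟨βψ₀⟩ := bc_comp hCO h𝒞 β₀ β
  -- 2. the subalgebra `R'₀`
  let ψ₀ : R₀ →ₐ[k] R' := ψ.comp R₀.val
  let R'₀ : Subalgebra k R' := ψ₀.range ⊔ φ'.range
  have hR'₀ : R'₀.FG := by
    refine Subalgebra.FG.sup ?_ ?_
    · rw [← Algebra.map_top]
      exact Subalgebra.FG.map _ ((Subalgebra.fg_top R₀).2 hR₀)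
    · rw [← Algebra.map_top]
      exact Subalgebra.FG.map _ hB.out
  let ψ₀c : R₀ →ₐ[k] R'₀ :=
    ψ₀.codRestrict R'₀ (fun x => (le_sup_left : ψ₀.range ≤ R'₀) (AlgHom.mem_range_self ψ₀ x))
  let φ'c : B →ₐ[k] R'₀ :=
    φ'.codRestrict R'₀ (fun x => (le_sup_right : φ'.range ≤ R'₀) (AlgHom.mem_range_self φ' x))
  have hψ₀c : R'₀.val.comp ψ₀c = ψ₀ := AlgHom.ext (fun _ => rfl)
  have hφ'c : R'₀.val.comp φ'c = φ' := AlgHom.ext (fun _ => rfl)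
  obtain ⟨M₀, ⟨μ₀⟩⟩ := hEX k 𝒞 h𝒞 R₀ R'₀ ψ₀c L₀
  obtain ⟨M₀', ⟨μ₀'⟩⟩ := hEX k 𝒞 h𝒞 B R'₀ φ'c Q
  obtain ⟨E₁, ⟨ε₁⟩⟩ := hEX k 𝒞 h𝒞 R'₀ R' R'₀.val M₀
  obtain ⟨E₂, ⟨ε₂⟩⟩ := hEX k 𝒞 h𝒞 R'₀ R' R'₀.val M₀'
  have hE : Nonempty (Triple.Iso E₁ E₂) := by
    obtain ⟨c₁⟩ := bc_comp hCO h𝒞 μ₀ ε₁
    obtain ⟨c₂⟩ := bc_comp hCO h𝒞 μ₀' ε₂
    obtain ⟨i₁⟩ := iso_of_bc hUQ h𝒞 (bcCongr hψ₀c c₁) βψ₀
    obtain ⟨Qφ', ⟨b'⟩, ⟨i₂⟩⟩ := hcl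
    obtain ⟨i₃⟩ := iso_of_bc hUQ h𝒞 b' (bcCongr hφ'c c₂)
    exact ⟨H60.isoTrans (H60.isoTrans i₁ i₂) i₃⟩
  -- LIMISO
  obtain ⟨R'₁, hle, N₁, N₁', hR'₁, ⟨γ⟩, ⟨γ'⟩, hN⟩ :=
    hLI k 𝒞 h𝒞 R' R'₀ M₀ M₀' E₁ E₂ hR'₀ ε₁ ε₂ hE
  -- 3. Nullstellensatz
  have hft₁ : Algebra.FiniteType k R'₁ := (Subalgebra.fg_iff_finiteType R'₁).1 hR'₁
  have hp₁ : Ideal.comap R'₁.val p'.asIdeal ≠ ⊤ :=
    (Ideal.comap_isPrime (R'₁.val) p'.asIdeal).ne_top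
  obtain ⟨t₁, ht₁⟩ := exists_pt_of_ne_top (k := k) R'₁ _ hp₁
  let t₀ : R₀ →ₐ[k] k := t₁.comp ((Subalgebra.inclusion hle).comp ψ₀c)
  let y : B →ₐ[k] k := t₁.comp ((Subalgebra.inclusion hle).comp φ'c)
  obtain ⟨Lt, ⟨δ⟩⟩ := hEX k 𝒞 h𝒞 R'₁ k t₁ N₁
  have hLt : Nonempty (BC t₀ L₀ Lt) := by
    obtain ⟨c₁⟩ := bc_comp hCO h𝒞 μ₀ γ
    exact bc_comp hCO h𝒞 c₁ δ
  obtain ⟨βt⟩ := hLt
  have hcly : ClassBy Q Lt y := by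
    have h1 : ClassBy Q N₁' ((Subalgebra.inclusion hle).comp φ'c) :=
      ⟨N₁', bc_comp hCO h𝒞 μ₀' γ', ⟨H60.isoRefl N₁'⟩⟩
    have h2 : ClassBy Q N₁ ((Subalgebra.inclusion hle).comp φ'c) := classBy_iso hN h1
    exact classBy_bc hEX hUQ hCO h𝒞 h2 δ
  -- 4. `OpenK`
  have hft₀ : Algebra.FiniteType k R₀ := (Subalgebra.fg_iff_finiteType R₀).1 hR₀
  obtain ⟨r₀, hr₀, L₀r, φ₀, ⟨β₀r⟩, hcl₀⟩ := hopen R₀ L₀ t₀ Lt y βt hcly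
  refine ⟨(r₀ : R), ?_, ?_⟩
  · intro hmem
    apply hr₀
    have hx : (Subalgebra.inclusion hle) (ψ₀c r₀) ∈ Ideal.comap R'₁.val p'.asIdeal := by
      rw [Ideal.mem_comap]
      exact hmem
    exact ht₁ _ hx
  · obtain ⟨Lr, ⟨βr⟩⟩ := hEX k 𝒞 h𝒞 R (Localization.Away (r₀ : R)) (awayMap (r₀ : R)) L
    obtain ⟨Lr', ⟨βj⟩⟩ := hEX k 𝒞 h𝒞 (Localization.Away r₀) (Localization.Away (r₀ : R))
      (awaySub R₀ r₀) L₀r
    obtain ⟨c₁⟩ := bc_comp hCO h𝒞 β₀ βr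
    obtain ⟨c₂⟩ := bc_comp hCO h𝒞 β₀r βj
    have hiso : Nonempty (Triple.Iso Lr Lr') :=
      iso_of_bc hUQ h𝒞 c₁ (bcCongr (awaySub_comp R₀ r₀) c₂)
    exact ⟨Lr, (awaySub R₀ r₀).comp φ₀, ⟨βr⟩,
      classBy_iso hiso (classBy_bc hEX hUQ hCO h𝒞 hcl₀ βj)⟩

end Fermat.Agent.S25.Trip.H92
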