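/-
helper92, S25 package TRIP, leaf T-OPENGEN, closing file.

* `bcId`, `stmt_BCCOMP : LB.Stmt_BCCOMP` (the identity is a base change; composition = helper72's `bcComp`);
* `stmt_OPENGEN_of : Chart.Stmt_LIMISO → Stmt_OPENGEN`
  (BCEX = helper36, BCUNIQ = helper73, LIMOBJ = helper82 are landed; LIMISO is the only open input).
-/
import Fermat.Agent.S25.Trip.H92_OpenGen
import Fermat.Agent.S25.Trip.H72_Restr
import Fermat.Agent.S25.Chart.H82_LimObj

set_option autoImplicit false

universe u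

open Polynomial TensorProduct

namespace Fermat.Agent.S25.Trip.H92

open Fermat.Agent.S25.LB Fermat.Agent.S25.Chart Fermat.Agent.S25.Num Fermat.Agent.S25.Trip

section Id

variable {k : Type u} [Field k] {𝒞 : CurveDatum k} {R : Type u} [CommRing R] [Algebra k R]

theorem tmap_id (B : Type u) [CommRing B] [Algebra k B] (c : R ⊗[k] B) :
    tmap (AlgHom.id k R) B c = c := by
  unfold tmap
  rw [Algebra.TensorProduct.map_id]
  rfl

/-- The identity is a base change. -/
def bcId (L : Triple 𝒞 R) : BC (AlgHom.id k R) L L where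
  b0 := AddMonoidHom.id _
  b1 := AddMonoidHom.id _
  b01 := AddMonoidHom.id _
  semi0 := fun c q => by rw [tmap_id]; rfl
  semi1 := fun c q => by rw [tmap_id]; rfl
  semi01 := fun c q => by rw [tmap_id]; rfl
  comm0 := fun _ => rfl
  comm1 := fun _ => rfl
  gen0 := by
    rw [eq_top_iff]
    intro x _
    exact Submodule.subset_span ⟨x, rfl⟩
  gen1 := by
    rw [eq_top_iff]
    intro x _
    exact Submodule.subset_span ⟨x, rfl⟩

end Id

/-- **LB-BCCOMP**. -/
theorem stmt_BCCOMP : LB.Stmt_BCCOMP.{u} := by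
  intro k _ 𝒞 _ R _ _ L
  exact ⟨⟨bcId L⟩, fun R' R'' _ _ _ _ φ ψ L' L'' β γ => ⟨H72.bcComp β γ⟩⟩

/-- **T-OPENGEN** from LIMISO. -/
theorem stmt_OPENGEN_of (hLI : Chart.Stmt_LIMISO.{u}) : Stmt_OPENGEN.{u} :=
  opengen_of H36.stmt_BCEX H73.stmt_BCUNIQ stmt_BCCOMP H82.stmt_LIMOBJ hLI

end Fermat.Agent.S25.Trip.H92
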