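/-
S25 (row 24), package TRIP, leaf TRIP-RIGID (helper60), part 2: rigid triples.

`Triple.IsRigid L` says that `L.P1 / I_e L.P1` is generated by one element (`IsCyc`, `H60_Cyc.lean`).

* `rigid_of_field` : every triple over the base field is rigid;
* `rigid_iso`, `rigid_bc`, `rigid_dual`, `rigid_tensor`, `rigid_unit` : rigid triples are stable under
  isomorphisms, base change (`Chart.BC`), duals, tensor products; the unit triple is rigid.
-/
import Fermat.Agent.S25.Trip.H60_Cyc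
import Fermat.Agent.S25.LB.H60_TensBC

set_option autoImplicit false
set_option linter.style.haveILetI false
set_option linter.unusedSectionVars false

universe u

open TensorProduct

namespace Fermat.Agent.S25.Trip.H60

open Fermat.Agent.S25.LB Fermat.Agent.S25.Chart

variable {k : Type u} [Field k] {𝒞 : CurveDatum k} {R : Type u} [CommRing R] [Algebra k R]
  {R' : Type u} [CommRing R'] [Algebra k R']

theorem isRigid_iff (L : Triple 𝒞 R) :
    L.IsRigid ↔ IsCyc (RingHom.ker (𝒞.eR R).toRingHom) L.P1 := Iff.rfl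

theorem eR_tmul (r : R) (b : 𝒞.B1) : 𝒞.eR R (r ⊗ₜ[k] b) = r * algebraMap k R (𝒞.e b) := by
  unfold CurveDatum.eR
  rw [Algebra.TensorProduct.lift_tmul]
  rfl

theorem eR_tmap (φ : R →ₐ[k] R') (c : R ⊗[k] 𝒞.B1) :
    𝒞.eR R' (Chart.tmap φ 𝒞.B1 c) = φ (𝒞.eR R c) := by
  induction c using TensorProduct.induction_on with
  | zero => rw [map_zero, map_zero, map_zero, map_zero]
  | tmul r b =>
    have h1 : Chart.tmap φ 𝒞.B1 (r ⊗ₜ[k] b) = φ r ⊗ₜ[k] b := rfl
    rw [h1, eR_tmul, eR_tmul, map_mul, φ.commutes]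
  | add a b ha hb => rw [map_add, map_add, map_add, map_add, ha, hb]

theorem eR_surjective : Function.Surjective (𝒞.eR R) := fun r =>
  ⟨r ⊗ₜ[k] 1, by rw [eR_tmul, map_one, map_one, mul_one]⟩

/-- Every triple over the base field is rigid. -/
theorem rigid_of_field (N : Triple 𝒞 k) : N.IsRigid := by
  haveI := N.inv1
  rw [isRigid_iff]
  exact isCyc_of_isMaximal
    (RingHom.ker_isMaximal_of_surjective (𝒞.eR k).toRingHom (eR_surjective (𝒞 := 𝒞) (R := k)))

/-- Rigidity is invariant under isomorphisms. -/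
theorem rigid_iso {L L' : Triple 𝒞 R} (I : Triple.Iso L L') (hL : L.IsRigid) : L'.IsRigid :=
  IsCyc.congr hL I.e1

/-- Rigidity is stable under base change. -/
theorem rigid_bc {φ : R →ₐ[k] R'} {L : Triple 𝒞 R} {L' : Triple 𝒞 R'} (β : BC φ L L')
    (hL : L.IsRigid) : L'.IsRigid := by
  refine IsCyc.map hL (Chart.tmap φ 𝒞.B1).toRingHom (fun c hc => ?_) β.b1 β.semi1 β.gen1
  have h0 : 𝒞.eR R c = 0 := hc
  show 𝒞.eR R' (Chart.tmap φ 𝒞.B1 c) = 0
  rw [eR_tmap, h0, map_zero]

/-- The dual of a rigid triple is rigid. -/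
theorem rigid_dual (h : 𝒞.IsGood) {L : Triple 𝒞 R} (hL : L.IsRigid) :
    (LB.H60.dual L h).IsRigid := by
  haveI := L.inv1
  exact IsCyc.dual hL

/-- The tensor product of two rigid triples is rigid. -/
theorem rigid_tensor (h : 𝒞.IsGood) {L M : Triple 𝒞 R} (hL : L.IsRigid) (hM : M.IsRigid) :
    (LB.H60.tensor L M h).IsRigid :=
  IsCyc.tensor hL hM

/-- The unit triple is rigid. -/
theorem rigid_unit (h : 𝒞.IsGood) : (LB.H60.unitTriple 𝒞 R h).IsRigid :=
  ⟨(1 : R ⊗[k] 𝒞.B1), fun q => ⟨q, by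
    have h1 : q - q • (1 : R ⊗[k] 𝒞.B1) = 0 := by
      rw [smul_eq_mul, mul_one, sub_self]
    rw [h1]
    exact Submodule.zero_mem _⟩⟩

end Fermat.Agent.S25.Trip.H60
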