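/-
S25 (row 24), package TRIP, leaf TRIP-TRANSL (helper60): translation of a chart by a line bundle over `k`.

For a chart `(B, P)` and a triple `N` over `k`: `Q := P ⊗ (N_B)^∨`, `N_B` a base change of `N` to `B`.
* `dualCongr` : isomorphic triples have isomorphic duals;
* `cancelRight`, `uncancelRight` : `L ⊗ N ≅ P ↔ L ≅ P ⊗ N^∨`;
* `classBy_transl` : `ClassBy Q L φ ↔ ClassBy P (L ⊗ N_R) φ`;
* `stmt_TRANSL : Stmt_TRANSL`.
-/
import Fermat.Agent.S25.Trip.Defs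
import Fermat.Agent.S25.Trip.H60_Rigid
import Fermat.Agent.S25.LB.H36_BC
import Fermat.Agent.S25.LB.H73_BCUniq
import Fermat.Agent.S25.LB.H16_BCComp

set_option autoImplicit false
set_option linter.style.haveILetI false
set_option linter.unusedSectionVars false

universe u

open TensorProduct

namespace Fermat.Agent.S25.Trip.H60

open Fermat.Agent.S25.LB Fermat.Agent.S25.Chart

variable {k : Type u} [Field k] {𝒞 : CurveDatum k} {R : Type u} [CommRing R] [Algebra k R]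
  {R' : Type u} [CommRing R'] [Algebra k R']

/-! ### Isomorphisms -/

/-- The image of a localisation generates. -/
theorem span_range_r0 (h : 𝒞.IsGood) (L : Triple 𝒞 R) :
    Submodule.span (R ⊗[k] 𝒞.B01) (Set.range L.r0) = ⊤ :=
  LB.H60.gen_comp (σ := RingHom.id (R ⊗[k] 𝒞.B0)) (b := LinearMap.id)
    (by rw [LinearMap.id_coe, Set.range_id, Submodule.span_univ])
    (LB.H60.isLocRing0 R h) (LB.H60.isLocMod0 L) (fun p => L.r0 p) (fun _ => rfl)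

theorem span_range_r1 (h : 𝒞.IsGood) (L : Triple 𝒞 R) :
    Submodule.span (R ⊗[k] 𝒞.B01) (Set.range L.r1) = ⊤ :=
  LB.H60.gen_comp (σ := RingHom.id (R ⊗[k] 𝒞.B1)) (b := LinearMap.id)
    (by rw [LinearMap.id_coe, Set.range_id, Submodule.span_univ])
    (LB.H60.isLocRing1 R h) (LB.H60.isLocMod1 L) (fun p => L.r1 p) (fun _ => rfl)

theorem iso_symm_r0 {L L' : Triple 𝒞 R} (I : Triple.Iso L L') (p' : L'.P0) :
    I.e01.symm (L'.r0 p') = L.r0 (I.e0.symm p') := by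
  rw [LinearEquiv.symm_apply_eq, I.comm0, LinearEquiv.apply_symm_apply]

theorem iso_symm_r1 {L L' : Triple 𝒞 R} (I : Triple.Iso L L') (p' : L'.P1) :
    I.e01.symm (L'.r1 p') = L.r1 (I.e1.symm p') := by
  rw [LinearEquiv.symm_apply_eq, I.comm1, LinearEquiv.apply_symm_apply]

/-- Isomorphic triples have isomorphic duals. -/
noncomputable def dualCongr (h : 𝒞.IsGood) {L L' : Triple 𝒞 R} (I : Triple.Iso L L') :
    Triple.Iso (LB.H60.dual L h) (LB.H60.dual L' h) where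
  e0 := I.e0.symm.dualMap
  e1 := I.e1.symm.dualMap
  e01 := I.e01.symm.dualMap
  comm0 := fun l => by
    apply LinearMap.ext_on (span_range_r0 h L')
    rintro _ ⟨p', rfl⟩
    show (LB.H60.dual L h).r0 l (I.e01.symm (L'.r0 p')) =
      (LB.H60.dual L' h).r0 (I.e0.symm.dualMap l) (L'.r0 p')
    rw [iso_symm_r0, LB.H60.dual_r0_apply, LB.H60.dual_r0_apply]
    rfl
  comm1 := fun l => by
    apply LinearMap.ext_on (span_range_r1 h L')
    rintro _ ⟨p', rfl⟩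
    show (LB.H60.dual L h).r1 l (I.e01.symm (L'.r1 p')) =
      (LB.H60.dual L' h).r1 (I.e1.symm.dualMap l) (L'.r1 p')
    rw [iso_symm_r1, LB.H60.dual_r1_apply, LB.H60.dual_r1_apply]
    rfl

/-- `L ⊗ N ≅ P` gives `L ≅ P ⊗ N^∨`. -/
noncomputable def cancelRight (h : 𝒞.IsGood) {L N P : Triple 𝒞 R}
    (e : Triple.Iso (LB.H60.tensor L N h) P) :
    Triple.Iso L (LB.H60.tensor P (LB.H60.dual N h) h) :=
  LB.H60.isoTrans (LB.H60.isoSymm (LB.H60.tensorUnitRight L h))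
    (LB.H60.isoTrans
      (LB.H60.tensorCongr h (LB.H60.isoRefl L) (LB.H60.isoSymm (LB.H60.tensorDual N h)))
      (LB.H60.isoTrans (LB.H60.isoSymm (LB.H60.tensorAssoc L N (LB.H60.dual N h) h))
        (LB.H60.tensorCongr h e (LB.H60.isoRefl (LB.H60.dual N h)))))

/-- `L ≅ P ⊗ N^∨` gives `L ⊗ N ≅ P`. -/
noncomputable def uncancelRight (h : 𝒞.IsGood) {L N P : Triple 𝒞 R}
    (e : Triple.Iso L (LB.H60.tensor P (LB.H60.dual N h) h)) :
    Triple.Iso (LB.H60.tensor L N h) P :=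
  LB.H60.isoTrans (LB.H60.tensorCongr h e (LB.H60.isoRefl N))
    (LB.H60.isoTrans (LB.H60.tensorAssoc P (LB.H60.dual N h) N h)
      (LB.H60.isoTrans (LB.H60.tensorCongr h (LB.H60.isoRefl P) (LB.H60.dualTensor N h))
        (LB.H60.tensorUnitRight P h)))

/-! ### Base change along the structure maps -/

theorem comp_ofId {B : Type u} [CommRing B] [Algebra k B] (φ : B →ₐ[k] R) :
    φ.comp (Algebra.ofId k B) = Algebra.ofId k R :=
  AlgHom.ext fun c => φ.commutes c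

theorem id_eq_ofId : AlgHom.id k k = Algebra.ofId k k :=
  AlgHom.ext fun _ => rfl

/-- Transport of a base change along an equality of maps. -/
def bcCast {φ φ' : R →ₐ[k] R'} (hφ : φ = φ') {L : Triple 𝒞 R} {L' : Triple 𝒞 R'}
    (β : BC φ L L') : BC φ' L L' := hφ ▸ β

/-- A base change of a base change of `N` (over `k`) is a base change of `N`. -/
noncomputable def bcOfId {B : Type u} [CommRing B] [Algebra k B] {φ : B →ₐ[k] R} {N : Triple 𝒞 k}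
    {NB : Triple 𝒞 B} {NR : Triple 𝒞 R} (βN : BC (Algebra.ofId k B) N NB) (β : BC φ NB NR) :
    BC (Algebra.ofId k R) N NR :=
  bcCast (comp_ofId φ) (LB.H16.bcTrans βN β)

/-! ### The translated chart -/

section Transl

variable {B : Type u} [CommRing B] [Algebra k B]

/-- The key: `L` is classified by `Q = P ⊗ (N_B)^∨` iff `L ⊗ N_R` is classified by `P`. -/
theorem classBy_transl (h : 𝒞.IsGood) (P : Triple 𝒞 B) {N : Triple 𝒞 k} {NB : Triple 𝒞 B}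
    (βN : BC (Algebra.ofId k B) N NB) (L : Triple 𝒞 R) (φ : B →ₐ[k] R) {NR : Triple 𝒞 R}
    (βR : BC (Algebra.ofId k R) N NR) :
    ClassBy (LB.H60.tensor P (LB.H60.dual NB h) h) L φ ↔
      ClassBy P (LB.H60.tensor L NR h) φ := by
  obtain ⟨Pφ, ⟨βP⟩⟩ := LB.H36.stmt_BCEX k 𝒞 h B R φ P
  obtain ⟨NBφ, ⟨βNB⟩⟩ := LB.H36.stmt_BCEX k 𝒞 h B R φ NB
  -- `NBφ ≅ NR`
  obtain ⟨eN⟩ := LB.H73.stmt_BCUNIQ k 𝒞 h k R (Algebra.ofId k R) N N NBφ NR (bcOfId βN βNB) βR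
    ⟨LB.H60.isoRefl N⟩
  -- the base change of `Q`
  have βQ : BC φ (LB.H60.tensor P (LB.H60.dual NB h) h)
      (LB.H60.tensor Pφ (LB.H60.dual NBφ h) h) :=
    LB.H60.tensorBC h βP (LB.H60.dualBC h βNB)
  have eD : Triple.Iso (LB.H60.tensor Pφ (LB.H60.dual NBφ h) h)
      (LB.H60.tensor Pφ (LB.H60.dual NR h) h) :=
    LB.H60.tensorCongr h (LB.H60.isoRefl Pφ) (dualCongr h eN)
  constructor
  · rintro ⟨Qφ, ⟨βQ'⟩, ⟨e⟩⟩
    obtain ⟨eQ⟩ := LB.H73.stmt_BCUNIQ k 𝒞 h B R φ _ _ Qφ _ βQ' βQ ⟨LB.H60.isoRefl _⟩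
    have e1 : Triple.Iso L (LB.H60.tensor Pφ (LB.H60.dual NR h) h) :=
      LB.H60.isoTrans e (LB.H60.isoTrans eQ eD)
    exact ⟨Pφ, ⟨βP⟩, ⟨uncancelRight h e1⟩⟩
  · rintro ⟨Pφ', ⟨βP'⟩, ⟨e⟩⟩
    obtain ⟨eP⟩ := LB.H73.stmt_BCUNIQ k 𝒞 h B R φ _ _ Pφ' Pφ βP' βP ⟨LB.H60.isoRefl _⟩
    have e1 : Triple.Iso L (LB.H60.tensor Pφ (LB.H60.dual NR h) h) :=
      cancelRight h (LB.H60.isoTrans e eP)
    exact ⟨_, ⟨βQ⟩, ⟨LB.H60.isoTrans e1 (LB.H60.isoSymm eD)⟩⟩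

theorem classBy_iso {Q : Triple 𝒞 B} {L L' : Triple 𝒞 R} {φ : B →ₐ[k] R}
    (e : Triple.Iso L' L) (hL : ClassBy Q L φ) : ClassBy Q L' φ := by
  obtain ⟨Qφ, hb, ⟨e'⟩⟩ := hL
  exact ⟨Qφ, hb, ⟨LB.H60.isoTrans e e'⟩⟩

end Transl

/-- **T-TRANSL.** -/
theorem stmt_TRANSL : Stmt_TRANSL.{u} := by
  intro k _ _ 𝒞 h B _ _ P hP hMono hOpen N
  obtain ⟨NB, ⟨βN⟩⟩ := LB.H36.stmt_BCEX k 𝒞 h k B (Algebra.ofId k B) N
  refine ⟨LB.H60.tensor P (LB.H60.dual NB h) h,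
    rigid_tensor h hP (rigid_dual h (rigid_bc βN (rigid_of_field N))), ?_, ?_, ?_⟩
  · -- `MonoCh`
    intro R _ _ L φ φ' hφ hφ'
    obtain ⟨NR, ⟨βR⟩⟩ := LB.H36.stmt_BCEX k 𝒞 h k R (Algebra.ofId k R) N
    exact hMono R (LB.H60.tensor L NR h) φ φ'
      ((classBy_transl h P βN L φ βR).mp hφ) ((classBy_transl h P βN L φ' βR).mp hφ')
  · -- `OpenK`
    intro R _ _ _ L t Lt y βt hcl
    obtain ⟨NR, ⟨βR⟩⟩ := LB.H36.stmt_BCEX k 𝒞 h k R (Algebra.ofId k R) N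
    obtain ⟨NRt, ⟨βNRt⟩⟩ := LB.H36.stmt_BCEX k 𝒞 h R k t NR
    have βk : BC (Algebra.ofId k k) N NRt := bcOfId βR βNRt
    have h1 : ClassBy P (LB.H60.tensor Lt NRt h) y := (classBy_transl h P βN Lt y βk).mp hcl
    obtain ⟨r, hr, Lr', φ, ⟨βLr'⟩, hcl'⟩ :=
      hOpen R (LB.H60.tensor L NR h) t (LB.H60.tensor Lt NRt h) y (LB.H60.tensorBC h βt βNRt) h1
    refine ⟨r, hr, ?_⟩
    obtain ⟨Lr, ⟨βLr⟩⟩ := LB.H36.stmt_BCEX k 𝒞 h R (Localization.Away r) (awayMap r) L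
    obtain ⟨NRr, ⟨βNRr⟩⟩ := LB.H36.stmt_BCEX k 𝒞 h R (Localization.Away r) (awayMap r) NR
    obtain ⟨e⟩ := LB.H73.stmt_BCUNIQ k 𝒞 h R (Localization.Away r) (awayMap r) _ _ _ Lr'
      (LB.H60.tensorBC h βLr βNRr) βLr' ⟨LB.H60.isoRefl _⟩
    exact ⟨Lr, φ, ⟨βLr⟩,
      (classBy_transl h P βN Lr φ (bcOfId βR βNRr)).mpr (classBy_iso e hcl')⟩
  · -- the fibres
    intro y Py βy
    refine (classBy_transl h P βN _ y (bcCast id_eq_ofId (LB.H16.bcId N))).mpr ?_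
    exact ⟨Py, ⟨βy⟩, ⟨uncancelRight h (LB.H60.isoRefl _)⟩⟩

end Fermat.Agent.S25.Trip.H60
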