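/-
helper72, S25 package TRIP, leaf SMALLK: the isomorphism classes of triples over a `k`-algebra
form a small set.

The three modules of a triple are finitely generated (`P0`, `P1` are invertible, `P01` is
generated by the image of `P0`), hence isomorphic to quotients `(Fin n → A) ⧸ K`.  The index type
consists of the carriers `(n, K)` and of the gluing maps on these fixed carriers.

* `finite_P01`            : `P01` is a finitely generated module;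
* `Carr`, `Glue`, `Glue.toTriple` : the small family;
* `stmt_SMALLK : Stmt_SMALLK`.
-/
import Fermat.Agent.S25.Trip.Defs

set_option autoImplicit false
set_option linter.style.haveILetI false
set_option linter.unusedSectionVars false

universe u

open Polynomial TensorProduct

namespace Fermat.Agent.S25.Trip.H72s

open Fermat.Agent.S25.LB Fermat.Agent.S25.Chart Fermat.Agent.S25.Num

variable {k : Type u} [Field k] (𝒞 : CurveDatum k) (R : Type u) [CommRing R] [Algebra k R]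

/-- `P01` is generated by the image of a generating set of `P0`. -/
theorem finite_P01 {𝒞 : CurveDatum k} {R : Type u} [CommRing R] [Algebra k R] (M : Triple 𝒞 R) :
    Module.Finite (R ⊗[k] 𝒞.B01) M.P01 := by
  haveI := M.inv0
  obtain ⟨S, hS⟩ := (Module.Finite.fg_top : (⊤ : Submodule (R ⊗[k] 𝒞.B0) M.P0).FG)
  classical
  refine ⟨⟨S.image M.r0, ?_⟩⟩
  rw [eq_top_iff]
  intro m _
  have hp : ∀ p : M.P0,
      M.r0 p ∈ Submodule.span (R ⊗[k] 𝒞.B01) ((S.image M.r0 : Finset M.P01) : Set M.P01) := by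
    intro p
    have hp0 : p ∈ Submodule.span (R ⊗[k] 𝒞.B0) (S : Set M.P0) := by rw [hS]; trivial
    induction hp0 using Submodule.span_induction with
    | mem x hx =>
      refine Submodule.subset_span ?_
      rw [Finset.coe_image]
      exact ⟨x, hx, rfl⟩
    | zero => rw [map_zero]; exact Submodule.zero_mem _
    | add x y _ _ hx hy => rw [map_add]; exact Submodule.add_mem _ hx hy
    | smul c x _ hx => rw [M.r0.map_smulₛₗ]; exact Submodule.smul_mem _ _ hx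
  obtain ⟨n, p, h⟩ := M.surj0 m
  have hm : m = ((1 : R) ⊗ₜ[k] 𝒞.i1 𝒞.z1 : R ⊗[k] 𝒞.B01) ^ n • M.r0 p := by
    rw [← h, smul_smul, ← mul_pow, mul_comm, Triple.unit_mul_unit, one_pow, one_smul]
  rw [hm]
  exact Submodule.smul_mem _ _ (hp p)

/-- The carriers of the small family. -/
structure Carr : Type u where
  n0 : ℕ
  n1 : ℕ
  n01 : ℕ
  K0 : Submodule (R ⊗[k] 𝒞.B0) (Fin n0 → R ⊗[k] 𝒞.B0)
  K1 : Submodule (R ⊗[k] 𝒞.B1) (Fin n1 → R ⊗[k] 𝒞.B1)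
  K01 : Submodule (R ⊗[k] 𝒞.B01) (Fin n01 → R ⊗[k] 𝒞.B01)

variable {𝒞 R}

/-- The first carrier. -/
abbrev Carr.X0 (c : Carr 𝒞 R) : Type u := (Fin c.n0 → R ⊗[k] 𝒞.B0) ⧸ c.K0

/-- The second carrier. -/
abbrev Carr.X1 (c : Carr 𝒞 R) : Type u := (Fin c.n1 → R ⊗[k] 𝒞.B1) ⧸ c.K1

/-- The third carrier. -/
abbrev Carr.X01 (c : Carr 𝒞 R) : Type u := (Fin c.n01 → R ⊗[k] 𝒞.B01) ⧸ c.K01

/-- The structure of a triple on fixed carriers. -/
structure Glue (c : Carr 𝒞 R) : Type u where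
  r0 : c.X0 →ₛₗ[𝒞.ι0 R] c.X01
  r1 : c.X1 →ₛₗ[𝒞.ι1 R] c.X01
  inv0 : Module.Invertible (R ⊗[k] 𝒞.B0) c.X0
  inv1 : Module.Invertible (R ⊗[k] 𝒞.B1) c.X1
  surj0 : ∀ m : c.X01, ∃ (n : ℕ) (p : c.X0),
    ((1 : R) ⊗ₜ[k] 𝒞.i0 𝒞.x0 : R ⊗[k] 𝒞.B01) ^ n • m = r0 p
  ker0 : ∀ p : c.X0, r0 p = 0 → ∃ n : ℕ, ((1 : R) ⊗ₜ[k] 𝒞.x0 : R ⊗[k] 𝒞.B0) ^ n • p = 0
  surj1 : ∀ m : c.X01, ∃ (n : ℕ) (p : c.X1),
    ((1 : R) ⊗ₜ[k] 𝒞.i1 𝒞.z1 : R ⊗[k] 𝒞.B01) ^ n • m = r1 p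
  ker1 : ∀ p : c.X1, r1 p = 0 → ∃ n : ℕ, ((1 : R) ⊗ₜ[k] 𝒞.z1 : R ⊗[k] 𝒞.B1) ^ n • p = 0

/-- The triple of a gluing datum. -/
def Glue.toTriple {c : Carr 𝒞 R} (G : Glue c) : Triple 𝒞 R where
  P0 := c.X0
  P1 := c.X1
  P01 := c.X01
  r0 := G.r0
  r1 := G.r1
  inv0 := G.inv0
  inv1 := G.inv1
  surj0 := G.surj0
  ker0 := G.ker0
  surj1 := G.surj1
  ker1 := G.ker1

/-- Transport of a triple to carriers which are linearly equivalent to its modules. -/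
noncomputable def glueOf (M : Triple 𝒞 R) (c : Carr 𝒞 R)
    (l0 : c.X0 ≃ₗ[R ⊗[k] 𝒞.B0] M.P0) (l1 : c.X1 ≃ₗ[R ⊗[k] 𝒞.B1] M.P1)
    (l01 : c.X01 ≃ₗ[R ⊗[k] 𝒞.B01] M.P01) : Glue c where
  r0 := l01.symm.toLinearMap.comp (M.r0.comp l0.toLinearMap)
  r1 := l01.symm.toLinearMap.comp (M.r1.comp l1.toLinearMap)
  inv0 := haveI := M.inv0; Module.Invertible.congr l0.symm
  inv1 := haveI := M.inv1; Module.Invertible.congr l1.symm
  surj0 := fun m => by
    obtain ⟨n, p, h⟩ := M.surj0 (l01 m)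
    refine ⟨n, l0.symm p, ?_⟩
    change _ = l01.symm (M.r0 (l0 (l0.symm p)))
    rw [LinearEquiv.apply_symm_apply, ← h, map_smul, LinearEquiv.symm_apply_apply]
  ker0 := fun p hp => by
    have h1 : l01.symm (M.r0 (l0 p)) = 0 := hp
    have h2 : M.r0 (l0 p) = 0 := by
      have := congrArg l01 h1
      rwa [LinearEquiv.apply_symm_apply, map_zero] at this
    obtain ⟨n, hn⟩ := M.ker0 (l0 p) h2
    refine ⟨n, ?_⟩
    apply l0.injective
    rw [map_smul, hn, map_zero]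
  surj1 := fun m => by
    obtain ⟨n, p, h⟩ := M.surj1 (l01 m)
    refine ⟨n, l1.symm p, ?_⟩
    change _ = l01.symm (M.r1 (l1 (l1.symm p)))
    rw [LinearEquiv.apply_symm_apply, ← h, map_smul, LinearEquiv.symm_apply_apply]
  ker1 := fun p hp => by
    have h1 : l01.symm (M.r1 (l1 p)) = 0 := hp
    have h2 : M.r1 (l1 p) = 0 := by
      have := congrArg l01 h1
      rwa [LinearEquiv.apply_symm_apply, map_zero] at this
    obtain ⟨n, hn⟩ := M.ker1 (l1 p) h2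
    refine ⟨n, ?_⟩
    apply l1.injective
    rw [map_smul, hn, map_zero]

/-- The transported triple is isomorphic to the given one. -/
noncomputable def isoGlueOf (M : Triple 𝒞 R) (c : Carr 𝒞 R)
    (l0 : c.X0 ≃ₗ[R ⊗[k] 𝒞.B0] M.P0) (l1 : c.X1 ≃ₗ[R ⊗[k] 𝒞.B1] M.P1)
    (l01 : c.X01 ≃ₗ[R ⊗[k] 𝒞.B01] M.P01) : Triple.Iso M (glueOf M c l0 l1 l01).toTriple where
  e0 := l0.symm
  e1 := l1.symm
  e01 := l01.symm
  comm0 := fun p => by
    change l01.symm (M.r0 p) = l01.symm (M.r0 (l0 (l0.symm p)))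
    rw [LinearEquiv.apply_symm_apply]
  comm1 := fun p => by
    change l01.symm (M.r1 p) = l01.symm (M.r1 (l1 (l1.symm p)))
    rw [LinearEquiv.apply_symm_apply]

/-- **T-SMALLK**. -/
theorem stmt_SMALLK : Stmt_SMALLK.{u} := by
  intro k _ 𝒞 R _ _
  refine ⟨Σ c : Carr 𝒞 R, Glue c, fun a => a.2.toTriple, fun M => ?_⟩
  haveI := M.inv0
  haveI := M.inv1
  haveI := finite_P01 M
  obtain ⟨n0, f0, hf0⟩ := Module.Finite.exists_fin' (R ⊗[k] 𝒞.B0) M.P0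
  obtain ⟨n1, f1, hf1⟩ := Module.Finite.exists_fin' (R ⊗[k] 𝒞.B1) M.P1
  obtain ⟨n01, f01, hf01⟩ := Module.Finite.exists_fin' (R ⊗[k] 𝒞.B01) M.P01
  let c : Carr 𝒞 R := ⟨n0, n1, n01, LinearMap.ker f0, LinearMap.ker f1, LinearMap.ker f01⟩
  exact ⟨⟨c, glueOf M c (f0.quotKerEquivOfSurjective hf0) (f1.quotKerEquivOfSurjective hf1)
    (f01.quotKerEquivOfSurjective hf01)⟩, ⟨isoGlueOf M c _ _ _⟩⟩

end Fermat.Agent.S25.Trip.H72s
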