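import Fermat.Agent.S25.Trip.Defs
import Fermat.Agent.S25.Chart.H82_LimObj

/-!
# S25 (Jacobian exists), package TRIP, leaf T-COVER (helper82)

* `exists_kpoint_of_isMaximal` : a maximal ideal of a finitely generated algebra over an
  algebraically closed field is the kernel of a `k`-point (Nullstellensatz);
* `exists_kpoint_avoiding` : a prime `p` of such an algebra and `f ∉ p`: there is a `k`-point `t`
  with `p ≤ ker t` and `t f ≠ 0` (Jacobson);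
* `classOn_of_bc` : `ClassOn` is stable under base change;
* `cover_of` : **`Stmt_COVER`** from `Chart.Stmt_LIMOBJ` (landed: `Chart.H82.stmt_LIMOBJ`),
  `LB.Stmt_BCEX`, `LB.Stmt_BCUNIQ`, `LB.Stmt_BCCOMP`, `Stmt_DEGBC`, `Stmt_DEGLC`, `Stmt_DEGK`.
-/

set_option autoImplicit false
set_option linter.style.haveILetI false
set_option linter.unusedSectionVars false
set_option linter.unusedVariables false

universe u

noncomputable section

open TensorProduct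

namespace Fermat.Agent.S25.Trip.H82

open Fermat.Agent.S25.LB Fermat.Agent.S25.Chart Fermat.Agent.S25.Num Fermat.Agent.S25.Trip

section Alg

variable {k : Type u} [Field k] [IsAlgClosed k] {A : Type u} [CommRing A] [Algebra k A]
  [Algebra.FiniteType k A]

/-- Nullstellensatz: a maximal ideal is the kernel of a `k`-point. -/
theorem exists_kpoint_of_isMaximal (m : Ideal A) [hm : m.IsMaximal] :
    ∃ t : A →ₐ[k] k, RingHom.ker t.toRingHom = m := by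
  letI : Field (A ⧸ m) := Ideal.Quotient.field m
  haveI : Algebra.FiniteType k (A ⧸ m) :=
    Algebra.FiniteType.of_surjective (Ideal.Quotient.mkₐ k m) (Ideal.Quotient.mkₐ_surjective k m)
  haveI : Module.Finite k (A ⧸ m) := finite_of_finite_type_of_isJacobsonRing k (A ⧸ m)
  haveI : Algebra.IsIntegral k (A ⧸ m) := Algebra.IsIntegral.of_finite k (A ⧸ m)
  have hb : Function.Bijective (algebraMap k (A ⧸ m)) :=
    IsAlgClosed.algebraMap_bijective_of_isIntegral (k := k) (K := A ⧸ m)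
  let e : k ≃ₐ[k] (A ⧸ m) := AlgEquiv.ofBijective (Algebra.ofId k (A ⧸ m)) hb
  refine ⟨(e.symm : (A ⧸ m) →ₐ[k] k).comp (Ideal.Quotient.mkₐ k m), ?_⟩
  ext x
  rw [RingHom.mem_ker]
  change e.symm (Ideal.Quotient.mk m x) = 0 ↔ x ∈ m
  rw [← Ideal.Quotient.eq_zero_iff_mem]
  constructor
  · intro h
    have h2 := congrArg e h
    rw [AlgEquiv.apply_symm_apply, map_zero] at h2
    exact h2
  · intro h
    rw [h, map_zero]

omit [IsAlgClosed k] [Algebra.FiniteType k A] [Algebra k A] in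
/-- In a Jacobson ring, a prime is contained in a maximal ideal avoiding a given `f ∉ p`. -/
theorem exists_maximal_avoiding [IsJacobsonRing A] (p : Ideal A) [hp : p.IsPrime] (f : A)
    (hf : f ∉ p) : ∃ m : Ideal A, m.IsMaximal ∧ p ≤ m ∧ f ∉ m := by
  by_contra hcon
  push Not at hcon
  apply hf
  have hj : p.jacobson = p := IsJacobsonRing.out' p hp.isRadical
  rw [← hj, Ideal.jacobson, Ideal.mem_sInf]
  rintro m ⟨hpm, hm⟩
  exact hcon m hm hpm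

/-- Jacobson + Nullstellensatz. -/
theorem exists_kpoint_avoiding (p : Ideal A) [hp : p.IsPrime] (f : A) (hf : f ∉ p) :
    ∃ t : A →ₐ[k] k, p ≤ RingHom.ker t.toRingHom ∧ t f ≠ 0 := by
  haveI : IsJacobsonRing A := isJacobsonRing_of_finiteType (A := k) (B := A)
  obtain ⟨m, hm, hpm, hfm⟩ := exists_maximal_avoiding p f hf
  obtain ⟨t, ht⟩ := exists_kpoint_of_isMaximal (k := k) m
  refine ⟨t, by rw [ht]; exact hpm, ?_⟩
  intro h0
  apply hfm
  rw [← ht]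
  exact h0

end Alg

section Pull

variable {k : Type u} [Field k] {𝒞 : CurveDatum k}

/-- `ClassOn` is stable under base change. -/
theorem classOn_of_bc (hEX : Stmt_BCEX.{u}) (hUQ : Stmt_BCUNIQ.{u}) (hCO : Stmt_BCCOMP.{u})
    (hg : 𝒞.IsGood) {B : Type u} [CommRing B] [Algebra k B] (Q : Triple 𝒞 B)
    {R₀ R : Type u} [CommRing R₀] [Algebra k R₀] [CommRing R] [Algebra k R] (φ : R₀ →ₐ[k] R)
    (L₀ : Triple 𝒞 R₀) (L : Triple 𝒞 R) (β : BC φ L₀ L) (r₀ : R₀) (h : ClassOn Q L₀ r₀) :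
    ClassOn Q L (φ r₀) := by
  obtain ⟨L₀r, φ₀, ⟨β₀⟩, Qφ₀, ⟨γ₀⟩, ⟨I₀⟩⟩ := h
  -- the map of the localisations
  let ψ : Localization.Away r₀ →ₐ[k] Localization.Away (φ r₀) := Localization.awayMapₐ φ r₀
  have hψ : ψ.comp (awayMap r₀) = (awayMap (φ r₀)).comp φ := by
    apply AlgHom.ext
    intro x
    change ψ (algebraMap R₀ (Localization.Away r₀) x)
      = algebraMap R (Localization.Away (φ r₀)) (φ x)
    simp [ψ, Localization.awayMapₐ, IsLocalization.Away.map]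
  -- the base changes
  obtain ⟨Lr, ⟨βr⟩⟩ := hEX k 𝒞 hg R (Localization.Away (φ r₀)) (awayMap (φ r₀)) L
  obtain ⟨M, ⟨βM⟩⟩ := hEX k 𝒞 hg (Localization.Away r₀) (Localization.Away (φ r₀)) ψ L₀r
  obtain ⟨Qψ, ⟨βQ⟩⟩ := hEX k 𝒞 hg (Localization.Away r₀) (Localization.Away (φ r₀)) ψ Qφ₀
  -- compositions
  obtain ⟨c1⟩ := (hCO k 𝒞 hg R₀ L₀).2 R (Localization.Away (φ r₀)) φ (awayMap (φ r₀)) L Lr β βr
  obtain ⟨c2⟩ := (hCO k 𝒞 hg R₀ L₀).2 (Localization.Away r₀) (Localization.Away (φ r₀))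
    (awayMap r₀) ψ L₀r M β₀ βM
  obtain ⟨c3⟩ := (hCO k 𝒞 hg B Q).2 (Localization.Away r₀) (Localization.Away (φ r₀))
    φ₀ ψ Qφ₀ Qψ γ₀ βQ
  rw [hψ] at c2
  -- isomorphisms
  obtain ⟨I1⟩ := hUQ k 𝒞 hg R₀ (Localization.Away (φ r₀)) ((awayMap (φ r₀)).comp φ) L₀ L₀ Lr M
    c1 c2 ⟨H60.isoRefl L₀⟩
  obtain ⟨I2⟩ := hUQ k 𝒞 hg (Localization.Away r₀) (Localization.Away (φ r₀)) ψ L₀r Qφ₀ M Qψ
    βM βQ ⟨I₀⟩
  exact ⟨Lr, ψ.comp φ₀, ⟨βr⟩, Qψ, ⟨c3⟩, ⟨H60.isoTrans I1 I2⟩⟩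

end Pull

section Cover

/-- **T-COVER** from its inputs. -/
theorem cover_of (hLIM : Chart.Stmt_LIMOBJ.{u}) (hEX : Stmt_BCEX.{u}) (hUQ : Stmt_BCUNIQ.{u})
    (hCO : Stmt_BCCOMP.{u}) (hDBC : Stmt_DEGBC.{u}) (hDLC : Stmt_DEGLC.{u})
    (hDK : Stmt_DEGK.{u}) : Stmt_COVER.{u} := by
  intro k _ _ 𝒞 hg X hopen hpts R _ _ L hL p
  -- descent to a finitely generated subalgebra
  obtain ⟨R₀, hfg, L₀, ⟨β⟩⟩ := hLIM k 𝒞 hg R L
  haveI : Algebra.FiniteType k ↥R₀ := (Subalgebra.fg_iff_finiteType R₀).1 hfg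
  -- the image of `p`
  let p₀ : PrimeSpectrum ↥R₀ := PrimeSpectrum.comap R₀.val.toRingHom p
  have hdeg₀ : degAt L₀ p₀ = 0 := by
    have h1 := hDBC k 𝒞 hg ↥R₀ R R₀.val L₀ L β p
    have h2 := hL p
    rw [degAt, h1] at h2
    exact h2
  -- a principal open neighbourhood on which the degree is zero
  have hU : IsOpen {q : PrimeSpectrum ↥R₀ | degAt L₀ q = 0} :=
    (hDLC k 𝒞 hg ↥R₀ L₀).isOpen_fiber 0
  obtain ⟨_, ⟨f, rfl⟩, hpf, hfU⟩ :=
    PrimeSpectrum.isTopologicalBasis_basic_opens.exists_subset_of_mem_open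
      (show p₀ ∈ {q : PrimeSpectrum ↥R₀ | degAt L₀ q = 0} from hdeg₀) hU
  have hf : f ∉ p₀.asIdeal := hpf
  -- a `k`-point in the closure of `p₀` inside `D(f)`
  obtain ⟨t, hpt, htf⟩ := exists_kpoint_avoiding (k := k) p₀.asIdeal f hf
  have htU : degAt L₀ (ptPrime t) = 0 := by
    apply hfU
    change f ∉ RingHom.ker t.toRingHom
    intro h0
    exact htf h0
  -- the fibre at `t`
  obtain ⟨Lt, ⟨βt⟩⟩ := hEX k 𝒞 hg ↥R₀ k t L₀
  have hdegt : deg Lt = 0 := by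
    rw [← ((hDK k 𝒞 hg).2 ↥R₀ L₀ t Lt βt).2]
    exact htU
  obtain ⟨a, y, hy⟩ := hpts Lt hdegt
  obtain ⟨r₀, hr₀, hcl⟩ := hopen a ↥R₀ L₀ t Lt y βt hy
  refine ⟨R₀.val r₀, ?_, a, classOn_of_bc hEX hUQ hCO hg (X.Q a) R₀.val L₀ L β r₀ hcl⟩
  intro hmem
  apply hr₀
  have h3 : r₀ ∈ p₀.asIdeal := hmem
  exact hpt h3

/-- **T-COVER** with helper82's `LIMOBJ` plugged in. -/
theorem cover_of' (hEX : Stmt_BCEX.{u}) (hUQ : Stmt_BCUNIQ.{u})
    (hCO : Stmt_BCCOMP.{u}) (hDBC : Stmt_DEGBC.{u}) (hDLC : Stmt_DEGLC.{u})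
    (hDK : Stmt_DEGK.{u}) : Stmt_COVER.{u} :=
  cover_of Fermat.Agent.S25.Chart.H82.stmt_LIMOBJ hEX hUQ hCO hDBC hDLC hDK

end Cover

end Fermat.Agent.S25.Trip.H82
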