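import Fermat.Agent.S25.Trip.H44_RedProj
import Fermat.Agent.S25.P1.H97_Close
import Fermat.Agent.S25.P1.H61_BC1

/-!
# S25, package TRIP: `T-GRAUERT`

Over a reduced ring `A`, a vector bundle `N` (two-chart data) whose `h1` is constant on the fibres has
finitely generated projective `H0`, and `H0` commutes with every base change.

Proof.  `H1 N` is finitely presented (P1-H1FP) with fibres `κ(p) ⊗ H1 N = H1 (N_p)` (P1-BC1) of constant
dimension, hence projective (`stmt_REDPROJ`).  So `B1 = im (q : N0 × N1 → N01)` is a direct summand of the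
projective `A`-module `N01` (helper97), and `q` has a generalised section `σ` (`q σ q = q`).  Then
`1 - σ q` retracts `N0 × N1` onto `H0 = ker q`, and the proof of P1-BC0 (helper97, `bc0_aux`) applies
verbatim.  Finiteness of `H0`: it is the kernel of the two-term complex `dK : H0(N(m)) → N1 / z^m N1`
of finitely generated projective modules (helper67), whose cokernel `H1` is projective.
-/

set_option autoImplicit false
set_option linter.style.haveILetI false
set_option linter.unusedSectionVars false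

open Polynomial TensorProduct Module

universe u v w

namespace Fermat.Agent.S25.Trip.H44

open Fermat.Agent.S25.P1

section Alg

variable {A : Type u} [CommRing A] {K0 : Type v} {K1 : Type w}
  [AddCommGroup K0] [Module A K0] [AddCommGroup K1] [Module A K1] (d : K0 →ₗ[A] K1)

/-- The image of a map with projective cokernel into a projective module is projective. -/
theorem projective_range_of_projective_coker [Module.Projective A K1]
    [Module.Projective A (K1 ⧸ LinearMap.range d)] : Module.Projective A (LinearMap.range d) := by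
  have h1 : Module.Projective A (LinearMap.ker (LinearMap.range d).mkQ) :=
    P1.H44.projective_ker (LinearMap.range d).mkQ (Submodule.mkQ_surjective _)
  exact Module.Projective.of_equiv (LinearEquiv.ofEq _ _ (Submodule.ker_mkQ _))

/-- The kernel of a map from a finite module with projective cokernel (into a projective module) is
finite. -/
theorem finite_ker_of_projective_coker [Module.Finite A K0] [Module.Projective A K1]
    [Module.Projective A (K1 ⧸ LinearMap.range d)] : Module.Finite A (LinearMap.ker d) := by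
  haveI := projective_range_of_projective_coker d
  have h1 : Module.Finite A (LinearMap.ker d.rangeRestrict) :=
    P1.H44.finite_ker d.rangeRestrict (LinearMap.surjective_rangeRestrict d)
  exact Module.Finite.equiv (LinearEquiv.ofEq _ _ (LinearMap.ker_rangeRestrict d))

end Alg

section DataLevel

variable {A : Type u} [CommRing A] (N : P1.Data A)

/-- Over a reduced ring, `H1` of a vector bundle with constant `h1` on the fibres is projective. -/
theorem projective_H1 [IsReduced A] (hVB : N.IsVB) (n : ℕ) (h : ∀ p : PrimeSpectrum A, N.h1At p = n) :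
    Module.Projective A N.H1 := by
  haveI : Module.FinitePresentation A N.H1 := H97.stmt_H1FP A N hVB
  refine stmt_REDPROJ A N.H1 n (fun p => ?_)
  obtain ⟨e, -⟩ := H61.stmt_BC1 A N p.asIdeal.ResidueField
  rw [e.finrank_eq]
  exact h p

/-- The image of `q` is `B1`. -/
theorem range_q : LinearMap.range (H97.q N) = N.B1 := by
  unfold H97.q P1.Data.B1
  rw [LinearMap.range_coprod, LinearMap.range_neg]

/-- If `H1` is projective, `q : N0 × N1 → N01` has a generalised section `σ`: `q σ q = q`. -/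
theorem exists_gen_section (hVB : N.IsVB) [Module.Projective A N.H1] :
    ∃ σ : N.N01 →ₗ[A] N.N0 × N.N1, ∀ x, H97.q N (σ (H97.q N x)) = H97.q N x := by
  haveI := H97.projective_N01 N hVB.loc hVB.proj0
  obtain ⟨s, hs⟩ := Module.projective_lifting_property N.B1.mkQ
    (LinearMap.id : N.H1 →ₗ[A] N.H1) (Submodule.mkQ_surjective _)
  have hs' : ∀ c : N.H1, N.B1.mkQ (s c) = c := fun c => LinearMap.congr_fun hs c
  let τ : N.N01 →ₗ[A] N.N01 := LinearMap.id - s ∘ₗ N.B1.mkQ
  have hτ : ∀ m, τ m ∈ LinearMap.range (H97.q N) := by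
    intro m
    rw [range_q, ← Submodule.Quotient.mk_eq_zero, ← Submodule.mkQ_apply]
    simp only [τ, LinearMap.sub_apply, LinearMap.id_apply, LinearMap.comp_apply, map_sub, hs',
      sub_self]
  obtain ⟨σ, hσ⟩ := Module.projective_lifting_property (H97.q N).rangeRestrict
    (τ.codRestrict _ hτ) (LinearMap.surjective_rangeRestrict _)
  refine ⟨σ, fun x => ?_⟩
  have h1 : H97.q N (σ (H97.q N x)) = τ (H97.q N x) :=
    congrArg Subtype.val (LinearMap.congr_fun hσ (H97.q N x))
  have h2 : N.B1.mkQ (H97.q N x) = 0 := by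
    rw [Submodule.mkQ_apply, Submodule.Quotient.mk_eq_zero, ← range_q]
    exact ⟨x, rfl⟩
  rw [h1]
  simp only [τ, LinearMap.sub_apply, LinearMap.id_apply, LinearMap.comp_apply, h2, map_zero,
    sub_zero]

/-- The retraction onto `H0` of a generalised section. -/
theorem exists_splitting_of_gen_section (σ : N.N01 →ₗ[A] N.N0 × N.N1)
    (hσ : ∀ x, H97.q N (σ (H97.q N x)) = H97.q N x) :
    ∃ ρ : (N.N0 × N.N1) →ₗ[A] N.H0, ∀ x, (ρ x : N.N0 × N.N1) = x - σ (H97.q N x) := by
  have hmem : ∀ x, ((LinearMap.id : (N.N0 × N.N1) →ₗ[A] (N.N0 × N.N1)) - σ ∘ₗ H97.q N) x ∈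
      N.H0 := by
    intro x
    rw [H97.mem_H0_iff_q]
    simp only [LinearMap.sub_apply, LinearMap.id_apply, LinearMap.comp_apply, map_sub, hσ,
      sub_self]
  refine ⟨((LinearMap.id : (N.N0 × N.N1) →ₗ[A] (N.N0 × N.N1)) - σ ∘ₗ H97.q N).codRestrict
    N.H0 hmem, fun x => ?_⟩
  simp only [LinearMap.codRestrict_apply, LinearMap.sub_apply, LinearMap.id_apply,
    LinearMap.comp_apply]

/-- `H0` is projective as soon as `q` has a generalised section. -/
theorem projective_H0_of_gen_section (hVB : N.IsVB) (σ : N.N01 →ₗ[A] N.N0 × N.N1)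
    (hσ : ∀ x, H97.q N (σ (H97.q N x)) = H97.q N x) : Module.Projective A N.H0 := by
  obtain ⟨ρ, hρ⟩ := exists_splitting_of_gen_section N σ hσ
  haveI := H97.projective_N0 N hVB.proj0
  haveI := H97.projective_N1 N hVB.proj1
  refine Module.Projective.of_split N.H0.subtype ρ ?_
  ext x
  · have hx : H97.q N (x : N.N0 × N.N1) = 0 := (H97.mem_H0_iff_q N _).1 x.2
    simp [hρ, hx]
  · have hx : H97.q N (x : N.N0 × N.N1) = 0 := (H97.mem_H0_iff_q N _).1 x.2
    simp [hρ, hx]

/-- `H0` is finite as soon as `H1` is projective. -/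
theorem finite_H0_of_projective_H1 (hVB : N.IsVB) [Module.Projective A N.H1] :
    Module.Finite A N.H0 := by
  obtain ⟨n0, hn0⟩ := H22.stmt_VAN A N hVB.loc (H67.fg0_of_proj0 N hVB.proj0)
  obtain ⟨m, hm⟩ : ∃ m : ℕ, n0 ≤ (m : ℤ) := ⟨n0.toNat, Int.self_le_toNat n0⟩
  have hsub : Subsingleton (N.twist (m : ℤ)).H1 := hn0 _ hm
  have hvan : H67.Van N m := H67.van_of_subsingleton N m hsub
  have hVBm : (N.twist (m : ℤ)).IsVB := (H36.stmt_TW A N).2.1 hVB _
  obtain ⟨hfin, hproj⟩ := H97.stmt_H0PROJ A (N.twist (m : ℤ)) hVBm hsub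
  haveI hfin0 : Module.Finite A (H67.H0m N m) :=
    Module.Finite.of_surjective (H67.twistH0Equiv N m).toLinearMap (H67.twistH0Equiv N m).surjective
  haveI := H67.K1_projective N hVB.proj1 m
  haveI : Module.Projective A (H67.K1 N m ⧸ LinearMap.range (H67.dK N m)) :=
    Module.Projective.of_equiv (H67.cokerEquiv N m hvan).symm
  haveI := finite_ker_of_projective_coker (H67.dK N m)
  exact Module.Finite.equiv (H67.kerEquiv N m (H67.Z1_pow_injective N hVB.proj1 m))

/-- **Base change for `H0`** from a generalised section (the proof of helper97's `bc0_aux`). -/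
theorem bc0_of_gen_section (σ : N.N01 →ₗ[A] N.N0 × N.N1)
    (hσ' : ∀ x, H97.q N (σ (H97.q N x)) = H97.q N x) (A' : Type u) [CommRing A']
    [Algebra A A'] :
    ∃ e : A' ⊗[A] N.H0 ≃ₗ[A']
        (LinearMap.eqLocus
          ((N.j0.baseChange A') ∘ₗ LinearMap.fst A' (A' ⊗[A] N.N0) (A' ⊗[A] N.N1))
          ((N.j1.baseChange A') ∘ₗ LinearMap.snd A' (A' ⊗[A] N.N0) (A' ⊗[A] N.N1))),
      ∀ (a : A') (x : N.H0),
        ((e (a ⊗ₜ[A] x) : _) : (A' ⊗[A] N.N0) × (A' ⊗[A] N.N1)) =
          (a ⊗ₜ[A] x.1.1, a ⊗ₜ[A] x.1.2) := by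
  obtain ⟨ρ, hρ⟩ := exists_splitting_of_gen_section N σ hσ'
  let ι0 : N.H0 →ₗ[A] N.N0 := LinearMap.fst A _ _ ∘ₗ N.H0.subtype
  let ι1 : N.H0 →ₗ[A] N.N1 := LinearMap.snd A _ _ ∘ₗ N.H0.subtype
  let ρ0 : N.N0 →ₗ[A] N.H0 := ρ ∘ₗ LinearMap.inl A _ _
  let ρ1 : N.N1 →ₗ[A] N.H0 := ρ ∘ₗ LinearMap.inr A _ _
  let s0 : N.N01 →ₗ[A] N.N0 := LinearMap.fst A _ _ ∘ₗ σ
  let s1 : N.N01 →ₗ[A] N.N1 := LinearMap.snd A _ _ ∘ₗ σ
  have hq0 : ∀ n : N.N0, H97.q N (n, 0) = N.j0 n := fun n => by simp [H97.q_apply]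
  have hq1 : ∀ n : N.N1, H97.q N (0, n) = - N.j1 n := fun n => by simp [H97.q_apply]
  have I1 : N.j0 ∘ₗ ι0 = N.j1 ∘ₗ ι1 := by
    ext x
    exact x.2
  have I2 : ρ0 ∘ₗ ι0 + ρ1 ∘ₗ ι1 = LinearMap.id := by
    ext x
    · have hx : H97.q N (x : N.N0 × N.N1) = 0 := (H97.mem_H0_iff_q N _).1 x.2
      have e1 : ρ0 (ι0 x) + ρ1 (ι1 x) = ρ (x : N.N0 × N.N1) := by
        change ρ ((x : N.N0 × N.N1).1, 0) + ρ (0, (x : N.N0 × N.N1).2) = _
        rw [← map_add]
        simp
      have e2 : ((ρ (x : N.N0 × N.N1) : N.H0) : N.N0 × N.N1) = x := by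
        rw [hρ, hx, map_zero, sub_zero]
      simp only [LinearMap.add_apply, LinearMap.comp_apply, LinearMap.id_apply]
      rw [e1, e2]
    · have hx : H97.q N (x : N.N0 × N.N1) = 0 := (H97.mem_H0_iff_q N _).1 x.2
      have e1 : ρ0 (ι0 x) + ρ1 (ι1 x) = ρ (x : N.N0 × N.N1) := by
        change ρ ((x : N.N0 × N.N1).1, 0) + ρ (0, (x : N.N0 × N.N1).2) = _
        rw [← map_add]
        simp
      have e2 : ((ρ (x : N.N0 × N.N1) : N.H0) : N.N0 × N.N1) = x := by
        rw [hρ, hx, map_zero, sub_zero]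
      simp only [LinearMap.add_apply, LinearMap.comp_apply, LinearMap.id_apply]
      rw [e1, e2]
  have I3 : ι0 ∘ₗ ρ0 = LinearMap.id - s0 ∘ₗ N.j0 := by
    ext n
    change ((ρ (n, 0) : N.H0) : N.N0 × N.N1).1 = n - (σ (N.j0 n)).1
    rw [hρ, hq0]
    rfl
  have I4 : ι0 ∘ₗ ρ1 = s0 ∘ₗ N.j1 := by
    ext n
    change ((ρ (0, n) : N.H0) : N.N0 × N.N1).1 = (σ (N.j1 n)).1
    rw [hρ, hq1, map_neg]
    simp
  have I5 : ι1 ∘ₗ ρ0 = - (s1 ∘ₗ N.j0) := by
    ext n
    change ((ρ (n, 0) : N.H0) : N.N0 × N.N1).2 = - (σ (N.j0 n)).2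
    rw [hρ, hq0]
    simp
  have I6 : ι1 ∘ₗ ρ1 = LinearMap.id + s1 ∘ₗ N.j1 := by
    ext n
    change ((ρ (0, n) : N.H0) : N.N0 × N.N1).2 = n + (σ (N.j1 n)).2
    rw [hρ, hq1, map_neg]
    simp
  -- the base changes of the identities
  have B1 : ∀ x, N.j0.baseChange A' (ι0.baseChange A' x) = N.j1.baseChange A' (ι1.baseChange A' x) := by
    intro x
    have := LinearMap.congr_fun (congrArg (LinearMap.baseChange A') I1) x
    simpa only [LinearMap.baseChange_comp, LinearMap.comp_apply] using this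
  have B2 : ∀ x, ρ0.baseChange A' (ι0.baseChange A' x) + ρ1.baseChange A' (ι1.baseChange A' x)
      = x := by
    intro x
    have := LinearMap.congr_fun (congrArg (LinearMap.baseChange A') I2) x
    simpa only [LinearMap.baseChange_add, LinearMap.baseChange_comp, LinearMap.add_apply,
      LinearMap.comp_apply, LinearMap.baseChange_id, LinearMap.id_apply] using this
  have B3 : ∀ y, ι0.baseChange A' (ρ0.baseChange A' y) =
      y - s0.baseChange A' (N.j0.baseChange A' y) := by
    intro y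
    have := LinearMap.congr_fun (congrArg (LinearMap.baseChange A') I3) y
    simpa only [LinearMap.baseChange_sub, LinearMap.baseChange_comp, LinearMap.sub_apply,
      LinearMap.comp_apply, LinearMap.baseChange_id, LinearMap.id_apply] using this
  have B4 : ∀ y, ι0.baseChange A' (ρ1.baseChange A' y) =
      s0.baseChange A' (N.j1.baseChange A' y) := by
    intro y
    have := LinearMap.congr_fun (congrArg (LinearMap.baseChange A') I4) y
    simpa only [LinearMap.baseChange_comp, LinearMap.comp_apply] using this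
  have B5 : ∀ y, ι1.baseChange A' (ρ0.baseChange A' y) =
      - s1.baseChange A' (N.j0.baseChange A' y) := by
    intro y
    have := LinearMap.congr_fun (congrArg (LinearMap.baseChange A') I5) y
    simpa only [LinearMap.baseChange_neg, LinearMap.baseChange_comp, LinearMap.neg_apply,
      LinearMap.comp_apply] using this
  have B6 : ∀ y, ι1.baseChange A' (ρ1.baseChange A' y) =
      y + s1.baseChange A' (N.j1.baseChange A' y) := by
    intro y
    have := LinearMap.congr_fun (congrArg (LinearMap.baseChange A') I6) y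
    simpa only [LinearMap.baseChange_add, LinearMap.baseChange_comp, LinearMap.add_apply,
      LinearMap.comp_apply, LinearMap.baseChange_id, LinearMap.id_apply] using this
  -- the two maps
  let Φ : A' ⊗[A] N.H0 →ₗ[A'] (A' ⊗[A] N.N0) × (A' ⊗[A] N.N1) :=
    (ι0.baseChange A').prod (ι1.baseChange A')
  let Ψ : (A' ⊗[A] N.N0) × (A' ⊗[A] N.N1) →ₗ[A'] A' ⊗[A] N.H0 :=
    (ρ0.baseChange A').coprod (ρ1.baseChange A')
  have hΦ : ∀ x, Φ x ∈ LinearMap.eqLocus
      ((N.j0.baseChange A') ∘ₗ LinearMap.fst A' (A' ⊗[A] N.N0) (A' ⊗[A] N.N1))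
      ((N.j1.baseChange A') ∘ₗ LinearMap.snd A' (A' ⊗[A] N.N0) (A' ⊗[A] N.N1)) := by
    intro x
    rw [LinearMap.mem_eqLocus]
    exact B1 x
  have hΨΦ : ∀ x, Ψ (Φ x) = x := by
    intro x
    exact B2 x
  have hΦΨ : ∀ y ∈ LinearMap.eqLocus
      ((N.j0.baseChange A') ∘ₗ LinearMap.fst A' (A' ⊗[A] N.N0) (A' ⊗[A] N.N1))
      ((N.j1.baseChange A') ∘ₗ LinearMap.snd A' (A' ⊗[A] N.N0) (A' ⊗[A] N.N1)),
      Φ (Ψ y) = y := by
    rintro ⟨y0, y1⟩ hy
    have hy' : N.j0.baseChange A' y0 = N.j1.baseChange A' y1 := hy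
    have e0 : (Φ (Ψ (y0, y1))).1 = y0 := by
      change ι0.baseChange A' (ρ0.baseChange A' y0 + ρ1.baseChange A' y1) = y0
      rw [map_add, B3, B4, hy']
      abel
    have e1 : (Φ (Ψ (y0, y1))).2 = y1 := by
      change ι1.baseChange A' (ρ0.baseChange A' y0 + ρ1.baseChange A' y1) = y1
      rw [map_add, B5, B6, hy']
      abel
    exact Prod.ext e0 e1
  refine ⟨LinearEquiv.ofBijective (Φ.codRestrict _ hΦ) ⟨?_, ?_⟩, fun a x => ?_⟩
  · intro x y hxy
    have h1 : Φ x = Φ y := congrArg Subtype.val hxy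
    rw [← hΨΦ x, ← hΨΦ y, h1]
  · rintro ⟨y, hy⟩
    exact ⟨Ψ y, Subtype.ext (hΦΨ y hy)⟩
  · rfl

end DataLevel

/-- **T-GRAUERT**. -/
theorem stmt_GRAUERT : Stmt_GRAUERT.{u} := by
  intro A _ _ N hVB n h
  haveI := projective_H1 N hVB n h
  obtain ⟨σ, hσ⟩ := exists_gen_section N hVB
  exact ⟨finite_H0_of_projective_H1 N hVB, projective_H0_of_gen_section N hVB σ hσ,
    fun A' _ _ => bc0_of_gen_section N σ hσ A'⟩

end Fermat.Agent.S25.Trip.H44
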