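import Fermat.Agent.S25.Trip.H85_Triv
import Fermat.Agent.S25.Trip.H44_Grauert

/-!
# S25, package TRIP, leaf TRIP-TRIV, closed (helper85)

`stmt_TRIV : Stmt_TRIV`, unconditional: `H85.triv_of` + helper44's `H44.stmt_GRAUERT`.
-/

set_option autoImplicit false
universe u

namespace Fermat.Agent.S25.Trip.H85

/-- **TRIP-TRIV**, unconditional. -/
theorem stmt_TRIV : Stmt_TRIV.{u} := triv_of H44.stmt_GRAUERT

end Fermat.Agent.S25.Trip.H85
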