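/-
helper71, S25 package TRIP: CLOSURE of part 1 (charts and separatedness) with the landed leaves.
* `stmt_COVER`, `stmt_OPENGEN` : unconditional.
* `stmt_TCHARTSE_of` : `Chart.Stmt_CHARTLEMMA` + `Trip.Stmt_TRANSL` ⟹ `H71.Stmt_TCHARTSE`.
* `stmt_TVAL_of`     : `Num.Stmt_MONOCOR` ⟹ `Trip.Stmt_TVAL`.
-/
import Fermat.Agent.S25.Trip.H71_TCharts
import Fermat.Agent.S25.Trip.H82_Cover
import Fermat.Agent.S25.Trip.H92_OpenGenClose
import Fermat.Agent.S25.Trip.H96_DegLC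
import Fermat.Agent.S25.Trip.H72_Restr
import Fermat.Agent.S25.Trip.H72_SmallK
import Fermat.Agent.S25.Trip.H36_DegBC
import Fermat.Agent.S25.Trip.H23_TVal
import Fermat.Agent.S25.Trip.H26_H01
import Fermat.Agent.S25.Trip.H85_TrivClose
import Fermat.Agent.S25.Chart.H87_LimIsoU
import Fermat.Agent.S25.Num.H45_Iso

set_option autoImplicit false

universe u

namespace Fermat.Agent.S25.Trip.H71

open Fermat.Agent.S25 Fermat.Agent.S25.Trip

/-- **T-COVER**, unconditional. -/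
theorem stmt_COVER : Stmt_COVER.{u} :=
  H82.cover_of' LB.H36.stmt_BCEX LB.H73.stmt_BCUNIQ H92.stmt_BCCOMP H36.stmt_DEGBC H96.stmt_DEGLC
    H36.stmt_DEGK

/-- **T-OPENGEN**, unconditional. -/
theorem stmt_OPENGEN : Stmt_OPENGEN.{u} := H92.stmt_OPENGEN_of Chart.H87.stmt_LIMISO

/-- **T-CHARTS** (with the étale element) from the chart lemma and the translation. -/
theorem stmt_TCHARTSE_of (hCL : Chart.Stmt_CHARTLEMMA.{u}) (hTR : Stmt_TRANSL.{u}) :
    Stmt_TCHARTSE.{u} :=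
  tcharts_of hCL H72s.stmt_SMALLK hTR H96.stmt_CLOPEN H72.stmt_RESTR stmt_OPENGEN stmt_COVER
    H36.stmt_DEGBC H36.stmt_DEGK LB.H36.stmt_BCEX Num.H45.stmt_ISO

/-- **T-VAL** from `Num.Stmt_MONOCOR`. -/
theorem stmt_TVAL_of (hMC : Num.Stmt_MONOCOR.{u}) : Stmt_TVAL.{u} :=
  H23.tval_of H26.stmt_H01BC H26.stmt_H01K Num.H45.stmt_ISO hMC H85.stmt_TRIV

end Fermat.Agent.S25.Trip.H71
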