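/-
helper71, S25 (Jacobian exists), package TRIP: the FINAL closing file.

UNCONDITIONAL (wiring of landed leaves only):
* `H71.stmt_NSP33       : Chart.H33.Stmt_NSP`        (NUM-NSPCH + the genus exists)
* `H71.stmt_CHARTLEMMA  : Chart.Stmt_CHARTLEMMA`     (helper33's assembly `H33.chartLemma_of` + all its leaves)
* `H71.stmt_TCHARTSE    : H71.Stmt_TCHARTSE`         (the chart family of the triples functor, étale form)
* `H71.stmt_TVAL        : Trip.Stmt_TVAL`            (valuative uniqueness of triples)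
-/
import Fermat.Agent.S25.Trip.H71_Close
import Fermat.Agent.S25.Trip.H60_Transl
import Fermat.Agent.S25.Num.H63_NumFinal
import Fermat.Agent.S25.Chart.H33_ChartLemma
import Fermat.Agent.S25.Chart.H76_Hilb
import Fermat.Agent.S25.Chart.H98_LiftMat
import Fermat.Agent.S25.Chart.H46_OpenUnit
import Fermat.Agent.S25.Chart.H59_DivExFinal
import Fermat.Agent.S25.Chart.H92_DivUniq
import Fermat.Agent.S25.Chart.H46_DivBC
import Fermat.Agent.S25.Chart.H98_DivH0
import Fermat.Agent.S25.Chart.H93_Mono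
import Fermat.Agent.S25.Chart.H4_Close2
import Fermat.Agent.S25.Chart.H93_IsoDiv
import Fermat.Agent.S25.LB.H36_BC
import Fermat.Agent.S25.LB.H73_BCUniq
import Fermat.Agent.S25.LB.H16_BCComp
import Fermat.Agent.S25.LB.H36_BCData
import Fermat.Agent.S25.LB.H44_FibKClose

set_option autoImplicit false

universe u

namespace Fermat.Agent.S25.Trip.H71

open Fermat.Agent.S25.LB Fermat.Agent.S25.Chart Fermat.Agent.S25

/-- The genus exists and the Mumford chart has a non-special `k`-point (the form used by CHARTLEMMA). -/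
theorem stmt_NSP33 : Chart.H33.Stmt_NSP.{u} := by
  intro k _ _ 𝒞 hG h hEt
  have hg : Chart.IsGenus 𝒞 (Num.genus 𝒞) := by
    intro L e0 e1 e01 h0 h1
    exact Num.H45.h1_unit hG ⟨e0, e1, e01, h0, h1⟩
  obtain ⟨pt, L, s0, s1, hu, hd, hH⟩ := Num.H63.stmt_NSPCH k 𝒞 hG h hEt (Num.genus 𝒞) hg
  exact ⟨Num.genus 𝒞, hg, pt, L, s0, s1, hd, hu, hH⟩

/-- **CHARTLEMMA**, unconditional. -/
theorem stmt_CHARTLEMMA : Chart.Stmt_CHARTLEMMA.{u} :=
  Chart.H33.chartLemma_of Chart.H76.stmt_HILB Chart.H98.stmt_SMOOTH Chart.H46o.stmt_OPENUNIT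
    Chart.H59.stmt_DIVEX Chart.H92U.stmt_DIVUNIQ Chart.H46b.stmt_DIVBC Chart.H98d.stmt_DIVH0
    Chart.H93.stmt_MONO Chart.H4.stmt_SPREADN Chart.H93I.stmt_ISODIV LB.H36.stmt_BCEX
    LB.H73.stmt_BCUNIQ LB.H16.stmt_BCCOMP LB.H36.stmt_BCDATA LB.H44.stmt_FIBK stmt_NSP33

/-- **T-CHARTS (étale form)**, unconditional. -/
theorem stmt_TCHARTSE : Stmt_TCHARTSE.{u} :=
  stmt_TCHARTSE_of stmt_CHARTLEMMA H60.stmt_TRANSL

/-- **T-VAL**, unconditional. -/
theorem stmt_TVAL : Stmt_TVAL.{u} :=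
  stmt_TVAL_of Num.H63.stmt_MONOCOR

end Fermat.Agent.S25.Trip.H71
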