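import Fermat.Agent.S25.Trip.DefsS
import Fermat.Agent.S25.Chart.H59_GraphLoc
import Fermat.Agent.S25.Chart.H85_Transfer
import Fermat.Agent.S25.Chart.H85_DivTriple
import Fermat.Agent.S25.Num.H50_Ded
import Fermat.Agent.S25.LB.H7_VB

/-!
# S25, package TRIP, leaf SJ-GRAPH, assembly (P5) (helper85)

`sjgraph_of : H59.Stmt_COORD → Trip.Stmt_SJGRAPH`: the graph of an `S`-valued point of the curve is a
relative Cartier divisor (`S` of finite type over `k`).  Inputs: helper59's `graph_locCart`,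
`invertible_of_locCart`, `faithful_of_locCart` (local Cartier data from unramified coordinates) and
`Chart.H85.transfer_fg` (transport to the other chart, `a = q x ⊗ 1`).
-/

set_option autoImplicit false
set_option linter.overlappingInstances false
universe u
open Polynomial TensorProduct

namespace Fermat.Agent.S25.Trip.H85

open Fermat.Agent.S25.LB Fermat.Agent.S25.Chart Fermat.Agent.S25.Num

section Abs

variable {T0 T1 T01 : Type u} [CommRing T0] [CommRing T1] [CommRing T01]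
  {ι0 : T0 →+* T01} {ι1 : T1 →+* T01} {x : T0} {z : T1}

/-- the glueing data are symmetric -/
theorem glue_symm (hG : Chart.H85.IsGlue ι0 ι1 x z) : Chart.H85.IsGlue ι1 ι0 z x :=
  ⟨hG.inj1, hG.inj0, (mul_comm _ _).trans hG.hxz, hG.sur1, hG.sur0⟩

/-- an ideal of the overlap is the extension of its trace on the second chart -/
theorem map_comap_of_glue (hG : Chart.H85.IsGlue ι0 ι1 x z) (I01 : Ideal T01) :
    Ideal.map ι1 (Ideal.comap ι1 I01) = I01 := by
  apply le_antisymm Ideal.map_comap_le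
  intro m hm
  obtain ⟨n, p, hp⟩ := hG.sur1 m
  have hp' : p ∈ Ideal.comap ι1 I01 := by
    rw [Ideal.mem_comap, ← hp]
    exact Ideal.mul_mem_left _ _ hm
  have e : m = ι0 x ^ n * ι1 p := by
    rw [← hp, ← mul_assoc, hG.xz_pow, one_mul]
  rw [e]
  exact Ideal.mul_mem_left _ _ (Ideal.mem_map_of_mem _ hp')

end Abs

section Graph

variable {k : Type u} [Field k] [IsAlgClosed k]
  {B B' : Type u} [CommRing B] [Algebra k B] [CommRing B'] [Algebra k B']
  {S : Type u} [CommRing S] [Algebra k S]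
  {T01 : Type u} [CommRing T01]

/-- the graph of a point of the chart `B`, seen on both charts -/
theorem graph_two_charts [IsDomain B] [IsDedekindDomain B] [Algebra.FiniteType k B]
    [Algebra.FiniteType k B'] [Algebra.FiniteType k S] (hnf : ¬ IsField B)
    (hC : H59.Stmt_COORD.{u})
    (ι : S ⊗[k] B →+* T01) (ι' : S ⊗[k] B' →+* T01) (x : B) (z : B')
    (hG : Chart.H85.IsGlue ι ι' ((1 : S) ⊗ₜ[k] x) ((1 : S) ⊗ₜ[k] z))
    (hι : ∀ s : S, ι (s ⊗ₜ[k] (1 : B)) = ι' (s ⊗ₜ[k] (1 : B')))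
    (q : B →ₐ[k] S) :
    Module.Invertible (S ⊗[k] B) (RingHom.ker (H59.evPt q).toRingHom) ∧
    Module.Invertible (S ⊗[k] B')
      (Ideal.comap ι' (Ideal.map ι (RingHom.ker (H59.evPt q).toRingHom))) ∧
    Ideal.map ι (RingHom.ker (H59.evPt q).toRingHom) =
      Ideal.map ι' (Ideal.comap ι' (Ideal.map ι (RingHom.ker (H59.evPt q).toRingHom))) ∧
    (∀ c : S ⊗[k] B, (∀ y ∈ RingHom.ker (H59.evPt q).toRingHom, c * y = 0) → c = 0) ∧
    (∀ c : S ⊗[k] B',
      (∀ y ∈ Ideal.comap ι' (Ideal.map ι (RingHom.ker (H59.evPt q).toRingHom)), c * y = 0) →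
        c = 0) := by
  obtain ⟨n, u, h, b, F, K, hsep, hsum⟩ := hC k B hnf
  set I : Ideal (S ⊗[k] B) := RingHom.ker (H59.evPt q).toRingHom with hI
  have hloc : ∀ j, H59.IsLocCart I (q (h j ^ K j) ⊗ₜ[k] (1 : B)) (H59.fPt q (u j))
      (H59.epsPt q (F j)) := fun j => H59.graph_locCart q (hsep j).1 (hsep j).2
  have hq1 : ∑ j, q (b j) * q (h j ^ K j) = 1 := by
    simp_rw [← map_mul]
    rw [← map_sum, hsum, map_one]
  have hc : ∑ j, (q (b j) ⊗ₜ[k] (1 : B)) * (q (h j ^ K j) ⊗ₜ[k] (1 : B)) = 1 := by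
    simp_rw [Algebra.TensorProduct.tmul_mul_tmul, mul_one]
    rw [← TensorProduct.sum_tmul, hq1]
    rfl
  have hc' : ∑ j, (q (b j) ⊗ₜ[k] (1 : B')) * (q (h j ^ K j) ⊗ₜ[k] (1 : B')) = 1 := by
    simp_rw [Algebra.TensorProduct.tmul_mul_tmul, mul_one]
    rw [← TensorProduct.sum_tmul, hq1]
    rfl
  -- the second chart
  have hft : Algebra.FiniteType k (S ⊗[k] B') :=
    Algebra.FiniteType.trans (inferInstance : Algebra.FiniteType k S) inferInstance
  have hnoeth : IsNoetherianRing (S ⊗[k] B') := Algebra.FiniteType.isNoetherianRing k _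
  have hfI : H59.fPt q x ∈ I := by
    rw [hI, RingHom.mem_ker]
    exact H59.evPt_fPt q x
  have ha : 1 - (q x ⊗ₜ[k] (1 : B')) * ((1 : S) ⊗ₜ[k] z) ∈ Ideal.comap ι' (Ideal.map ι I) := by
    rw [Ideal.mem_comap]
    have e : ι' (1 - (q x ⊗ₜ[k] (1 : B')) * ((1 : S) ⊗ₜ[k] z)) =
        ι' ((1 : S) ⊗ₜ[k] z) * ι (H59.fPt q x) := by
      rw [map_sub, map_one, map_mul, ← hι, H59.fPt, map_sub, mul_sub, mul_comm (ι' _) (ι (1 ⊗ₜ[k] x)),
        hG.hxz, mul_comm]
    rw [e]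
    exact Ideal.mul_mem_left _ _ (Ideal.mem_map_of_mem _ hfI)
  have htr : ∀ j, ∃ f' ε' : S ⊗[k] B',
      H59.IsLocCart (Ideal.comap ι' (Ideal.map ι I)) (q (h j ^ K j) ⊗ₜ[k] (1 : B')) f' ε' :=
    fun j => Chart.H85.transfer_fg hG I _ ha
      ((isNoetherianRing_iff_ideal_fg _).mp hnoeth _) (hι _) (hloc j)
  choose f' ε' hloc' using htr
  exact ⟨H59.invertible_of_locCart I _ _ _ _ hloc hc,
    H59.invertible_of_locCart _ _ f' ε' _ hloc' hc',
    (map_comap_of_glue hG _).symm,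
    H59.faithful_of_locCart I _ _ _ _ hloc hc,
    H59.faithful_of_locCart _ _ f' ε' _ hloc' hc'⟩

end Graph

section Concrete

variable {k : Type u} [Field k] {𝒞 : CurveDatum k}

/-- `B0` is not a field -/
theorem not_isField_B0 (hG : 𝒞.IsGood) : ¬ IsField 𝒞.B0 := by
  intro hF
  let _ : Algebra k[X] 𝒞.B0 := (Polynomial.aeval (R := k) 𝒞.x0).toRingHom.toAlgebra
  have hfin : Module.Finite k[X] 𝒞.B0 := hG.fin0
  have hint : Algebra.IsIntegral k[X] 𝒞.B0 := Algebra.IsIntegral.of_finite k[X] 𝒞.B0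
  have hinj : Function.Injective (algebraMap k[X] 𝒞.B0) := hG.trans0
  exact Polynomial.not_isField k (isField_of_isIntegral_of_isField hinj hF)

/-- `B1` is not a field -/
theorem not_isField_B1 (hG : 𝒞.IsGood) : ¬ IsField 𝒞.B1 := by
  intro hF
  obtain ⟨y, hy⟩ := hF.mul_inv_cancel (H50.z1_ne_zero 𝒞 hG)
  have := congrArg 𝒞.e hy
  rw [map_mul, 𝒞.he, zero_mul, map_one] at this
  exact zero_ne_one this

/-- **SJ-GRAPH**, assembly (P5): from unramified coordinates. -/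
theorem sjgraph_of (hC : H59.Stmt_COORD.{u}) : Stmt_SJGRAPH.{u} := by
  intro k _ _ 𝒞 hG S _ _ _ q
  have hglue := Chart.H85.isGlue_of_isGood (R := S) hG
  have hd0 := hG.dom0
  have hd1 := hG.dom1
  have hD0 := H50.isDedekindDomain_B0 𝒞 hG
  have hD1 := H50.isDedekindDomain_B1 𝒞 hG
  have hf0 := H50.finiteType_B0 𝒞 hG
  have hf1 := H50.finiteType_B1 𝒞 hG
  rcases q with q0 | q1
  · obtain ⟨h1, h2, h3, h4, h5⟩ := graph_two_charts (not_isField_B0 hG) hC (𝒞.ι0 S) (𝒞.ι1 S)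
      𝒞.x0 𝒞.z1 hglue (fun s => by
        rw [H60.ι0_tmul, H60.ι1_tmul, map_one, map_one]) q0
    exact ⟨h1, h2, h3, h4, h5⟩
  · obtain ⟨h1, h2, h3, h4, h5⟩ := graph_two_charts (not_isField_B1 hG) hC (𝒞.ι1 S) (𝒞.ι0 S)
      𝒞.z1 𝒞.x0 (glue_symm hglue) (fun s => by
        rw [H60.ι0_tmul, H60.ι1_tmul, map_one, map_one]) q1
    exact ⟨h2, h1, h3.symm, h5, h4⟩

end Concrete

end Fermat.Agent.S25.Trip.H85
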