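import Fermat.Agent.S25.Trip.Defs
import Fermat.Agent.S25.P1.H97_Close
import Fermat.Agent.S25.LB.H7_VB

/-!
# S25, package TRIP, leaves DEGLC and CLOPEN (helper96)

* `stmt_DEGLC : Stmt_DEGLC` : the degree of the fibres of a triple is locally constant
  (`P1.H97.stmt_CHI` for the two-chart data of the triple, a vector bundle by `LB.H7.stmt_VB`);
* `isLocallyConstant_chiAt` : the same for the Euler characteristic;
* `stmt_CLOPEN_of : Stmt_DEGLC → Stmt_CLOPEN`, `stmt_CLOPEN : Stmt_CLOPEN` : the locus of degree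
  `0` is the principal open of an idempotent (`PrimeSpectrum.isClopen_iff`);
* `exists_idem_degAt_eq` : the same for any value `d` of the degree.
-/

set_option autoImplicit false

universe u

open TensorProduct

namespace Fermat.Agent.S25.Trip.H96

open Fermat.Agent.S25.LB Fermat.Agent.S25.Num Fermat.Agent.S25.Trip

/-- The Euler characteristic of the fibres of a triple is locally constant. -/
theorem isLocallyConstant_chiAt {k : Type u} [Field k] {𝒞 : CurveDatum k} (h𝒞 : 𝒞.IsGood)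
    {R : Type u} [CommRing R] [Algebra k R] (L : Triple 𝒞 R) :
    IsLocallyConstant (fun p : PrimeSpectrum R => chiAt L p) :=
  Fermat.Agent.S25.P1.H97.stmt_CHI R L.toData (Fermat.Agent.S25.LB.H7.stmt_VB k 𝒞 h𝒞 R L)

/-- **TRIP-DEGLC**: the degree of the fibres is locally constant. -/
theorem stmt_DEGLC : Stmt_DEGLC.{u} := by
  intro k _ 𝒞 h𝒞 R _ _ L
  exact (isLocallyConstant_chiAt h𝒞 L).comp (fun x : ℤ => x - (1 - (genus 𝒞 : ℤ)))

/-- For a locally constant function on a prime spectrum, every fibre is the principal open of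
an idempotent. -/
theorem exists_idem_of_isLocallyConstant {B : Type u} [CommRing B] {Y : Type*}
    {f : PrimeSpectrum B → Y} (hf : IsLocallyConstant f) (y : Y) :
    ∃ e : B, e * e = e ∧ ∀ p : PrimeSpectrum B, f p = y ↔ e ∉ p.asIdeal := by
  obtain ⟨e, he, hs⟩ := PrimeSpectrum.isClopen_iff.mp (hf.isClopen_fiber y)
  refine ⟨e, he, fun p => ?_⟩
  have h1 : p ∈ {x | f x = y} ↔ p ∈ (PrimeSpectrum.basicOpen e : Set (PrimeSpectrum B)) := by
    rw [hs]
  exact h1

/-- The locus where the degree of the fibres is `d` is the principal open of an idempotent. -/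
theorem exists_idem_degAt_eq (hLC : Stmt_DEGLC.{u}) {k : Type u} [Field k] {𝒞 : CurveDatum k}
    (h𝒞 : 𝒞.IsGood) {B : Type u} [CommRing B] [Algebra k B] (Q : Triple 𝒞 B) (d : ℤ) :
    ∃ e : B, e * e = e ∧ ∀ p : PrimeSpectrum B, degAt Q p = d ↔ e ∉ p.asIdeal :=
  exists_idem_of_isLocallyConstant (hLC k 𝒞 h𝒞 B Q) d

/-- **TRIP-CLOPEN** from **TRIP-DEGLC**. -/
theorem stmt_CLOPEN_of (hLC : Stmt_DEGLC.{u}) : Stmt_CLOPEN.{u} := by
  intro k _ 𝒞 h𝒞 B _ _ Q
  exact exists_idem_degAt_eq hLC h𝒞 Q 0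

/-- **TRIP-CLOPEN**, unconditional. -/
theorem stmt_CLOPEN : Stmt_CLOPEN.{u} := stmt_CLOPEN_of stmt_DEGLC

end Fermat.Agent.S25.Trip.H96
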