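/-
helper71, S25 (Jacobian exists), package TRIP, part S = "the family over `C^g`" (surjectivity, hence properness).
INTERFACE FILE: definitions + the statements `Stmt_*` of the leaves.  Plan: NOTES/plan/S25_TRIP.md.

For a `k`-algebra `S` and points `q i` of the curve with values in `S` (each given in one of the two charts:
`Sum.inl q0`, `q0 : B0 → S`, or `Sum.inr q1`, `q1 : B1 → S`) the divisor `Γ_(q 1) + … + Γ_(q n)` of `C × Spec S`
(sum of the graphs) is given by the pair of ideals `(divI0 q, divI1 q)` of `S ⊗ B0`, `S ⊗ B1`.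
`IsDivI L s0 s1 J0 J1` : `(s0, s1)` is a regular section of the triple `L` with divisor `(J0, J1)` (so `L ≅ O(D)`).
`IsFam h E q N`        : `N ≅ O(Γ_(q 1) + … + Γ_(q n)) ⊗ (E_S)^∨` for the fixed triple `E` over `k`.
`Stmt_TSURJ`           : THE OUTPUT: a triple `E` such that the family `IsFam h E` over `g = genus` points exists, is
                         unique, compatible with base change and change of charts, rigid locally on `Spec S`, of degree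
                         `0`, and contains every triple of degree `0` over `k`.
-/
import Fermat.Agent.S25.Trip.Defs

set_option autoImplicit false

universe u

open Polynomial TensorProduct

namespace Fermat.Agent.S25.Trip

open Fermat.Agent.S25.LB Fermat.Agent.S25.Chart Fermat.Agent.S25.Num

variable {k : Type u} [Field k] {𝒞 : CurveDatum k}

section Graph

variable {S : Type u} [CommRing S] [Algebra k S]

/-- The evaluation `S ⊗ B → S`, `s ⊗ b ↦ s * q b`, of a point `q : B → S`. -/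
noncomputable def evalAt {B : Type u} [CommRing B] [Algebra k B] (q : B →ₐ[k] S) : (S ⊗[k] B) →ₐ[S] S :=
  Algebra.TensorProduct.lift (AlgHom.id S S) q (fun _ _ => Commute.all _ _)

/-- The ideal of the graph of `q : B → S` in `S ⊗ B`. -/
noncomputable def graphIdeal {B : Type u} [CommRing B] [Algebra k B] (q : B →ₐ[k] S) : Ideal (S ⊗[k] B) :=
  RingHom.ker (evalAt q).toRingHom

/-- A point of the curve with values in `S`, given in one of the two charts. -/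
abbrev SPt (𝒞 : CurveDatum k) (S : Type u) [CommRing S] [Algebra k S] : Type u :=
  (𝒞.B0 →ₐ[k] S) ⊕ (𝒞.B1 →ₐ[k] S)

/-- The ideal of the graph of a point on the chart `V0 × Spec S`. -/
noncomputable def ptI0 : SPt 𝒞 S → Ideal (S ⊗[k] 𝒞.B0)
  | Sum.inl q0 => graphIdeal q0
  | Sum.inr q1 => Ideal.comap (𝒞.ι0 S) (Ideal.map (𝒞.ι1 S) (graphIdeal q1))

/-- The ideal of the graph of a point on the chart `V1 × Spec S`. -/
noncomputable def ptI1 : SPt 𝒞 S → Ideal (S ⊗[k] 𝒞.B1)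
  | Sum.inl q0 => Ideal.comap (𝒞.ι1 S) (Ideal.map (𝒞.ι0 S) (graphIdeal q0))
  | Sum.inr q1 => graphIdeal q1

/-- The ideal of `Γ_(q 1) + … + Γ_(q n)` on the chart `V0 × Spec S`. -/
noncomputable def divI0 {n : ℕ} (q : Fin n → SPt 𝒞 S) : Ideal (S ⊗[k] 𝒞.B0) := ∏ i, ptI0 (q i)

/-- The ideal of `Γ_(q 1) + … + Γ_(q n)` on the chart `V1 × Spec S`. -/
noncomputable def divI1 {n : ℕ} (q : Fin n → SPt 𝒞 S) : Ideal (S ⊗[k] 𝒞.B1) := ∏ i, ptI1 (q i)

/-- The image of a point under `ψ : S → S'`. -/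
def SPt.map {S' : Type u} [CommRing S'] [Algebra k S'] (ψ : S →ₐ[k] S') : SPt 𝒞 S → SPt 𝒞 S'
  | Sum.inl q0 => Sum.inl (ψ.comp q0)
  | Sum.inr q1 => Sum.inr (ψ.comp q1)

/-- `(s0, s1)` is a regular section of `L` with divisor `(J0, J1)`: `J0 = (S0 s0 : L.P0)`, `J1 = (S1 s1 : L.P1)`. -/
structure IsDivI (L : Triple 𝒞 S) (s0 : L.P0) (s1 : L.P1) (J0 : Ideal (S ⊗[k] 𝒞.B0))
    (J1 : Ideal (S ⊗[k] 𝒞.B1)) : Prop where
  glue : L.r0 s0 = L.r1 s1
  reg0 : ∀ c : S ⊗[k] 𝒞.B0, c • s0 = 0 → c = 0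
  reg1 : ∀ c : S ⊗[k] 𝒞.B1, c • s1 = 0 → c = 0
  div0 : ∀ c : S ⊗[k] 𝒞.B0, c ∈ J0 ↔ ∀ p : L.P0, ∃ d : S ⊗[k] 𝒞.B0, c • p = d • s0
  div1 : ∀ c : S ⊗[k] 𝒞.B1, c ∈ J1 ↔ ∀ p : L.P1, ∃ d : S ⊗[k] 𝒞.B1, c • p = d • s1

/-- `L ≅ O(D)`, `D = (J0, J1)`. -/
def IsO (L : Triple 𝒞 S) (J0 : Ideal (S ⊗[k] 𝒞.B0)) (J1 : Ideal (S ⊗[k] 𝒞.B1)) : Prop :=
  ∃ (s0 : L.P0) (s1 : L.P1), IsDivI L s0 s1 J0 J1

/-- `N ≅ O(Γ_(q 1) + … + Γ_(q n)) ⊗ (E_S)^∨`. -/
def IsFam (h : 𝒞.IsGood) (E : Triple 𝒞 k) {n : ℕ} (q : Fin n → SPt 𝒞 S) (N : Triple 𝒞 S) : Prop :=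
  ∃ (N' ES : Triple 𝒞 S), IsO N' (divI0 q) (divI1 q) ∧ Nonempty (BC (Algebra.ofId k S) E ES) ∧
    Nonempty (Triple.Iso N (H60.tensor N' (H60.dual ES h) h))

/-- `N` is rigid Zariski-locally on `Spec S`. -/
def RigidLoc (N : Triple 𝒞 S) : Prop :=
  ∀ p : PrimeSpectrum S, ∃ r : S, r ∉ p.asIdeal ∧
    ∃ Nr : Triple 𝒞 (Localization.Away r), Nonempty (BC (awayMap r) N Nr) ∧ Nr.IsRigid

end Graph

/-- **T-SURJ** (THE OUTPUT for surjectivity; consumed by the sheaf side for `Top.Surj`, `Y = C^g`). -/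
def Stmt_TSURJ : Prop :=
  ∀ (k : Type u) [Field k] [IsAlgClosed k] (𝒞 : CurveDatum k) (h : 𝒞.IsGood),
    ∃ E : Triple 𝒞 k,
      -- existence, uniqueness
      (∀ (S : Type u) [CommRing S] [Algebra k S] [Algebra.FiniteType k S] (q : Fin (genus 𝒞) → SPt 𝒞 S),
        ∃ N : Triple 𝒞 S, IsFam h E q N) ∧
      (∀ (S : Type u) [CommRing S] [Algebra k S] [Algebra.FiniteType k S] (q : Fin (genus 𝒞) → SPt 𝒞 S)
        (N N' : Triple 𝒞 S), IsFam h E q N → IsFam h E q N' → Nonempty (Triple.Iso N N')) ∧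
      -- base change
      (∀ (S S' : Type u) [CommRing S] [Algebra k S] [Algebra.FiniteType k S] [CommRing S'] [Algebra k S']
        [Algebra.FiniteType k S'] (ψ : S →ₐ[k] S') (q : Fin (genus 𝒞) → SPt 𝒞 S)
        (N : Triple 𝒞 S) (N' : Triple 𝒞 S'), BC ψ N N' → IsFam h E q N →
        IsFam h E (fun i => (q i).map ψ) N') ∧
      -- change of charts: a point of the overlap may be given in either chart
      (∀ (S : Type u) [CommRing S] [Algebra k S] [Algebra.FiniteType k S] (q q' : Fin (genus 𝒞) → SPt 𝒞 S)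
        (N : Triple 𝒞 S),
        (∀ i, q i = q' i ∨ ∃ q01 : 𝒞.B01 →ₐ[k] S,
          q i = Sum.inl (q01.comp 𝒞.i0) ∧ q' i = Sum.inr (q01.comp 𝒞.i1)) →
        IsFam h E q N → IsFam h E q' N) ∧
      -- degree 0, locally rigid
      (∀ (S : Type u) [CommRing S] [Algebra k S] [Algebra.FiniteType k S] (q : Fin (genus 𝒞) → SPt 𝒞 S)
        (N : Triple 𝒞 S), IsFam h E q N → Deg0 N ∧ RigidLoc N) ∧
      -- every triple of degree 0 over k is in the family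
      (∀ M : Triple 𝒞 k, deg M = 0 → ∃ q : Fin (genus 𝒞) → SPt 𝒞 k, IsFam h E q M)

/-! ### The leaves of T-SURJ.  Setting: `k` algebraically closed, `𝒞.IsGood`, `S` of finite type over `k`. -/

/-- **SJ-GRAPH** (the graph of a point is a relative Cartier divisor): Zariski-locally on `Spec S`, the ideals
`ptI0 q`, `ptI1 q` have Cartier data.  (`B_i` is smooth of relative dimension `1`: étale coordinate `u` near `q(s)`,
`IsSepElem` of helper59 for `(B_i, u)`; or `H59.relCartier_local`: `(S ⊗ B)/I = S` is flat over `S`, and on the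
fibres `I` is the maximal ideal of a rational point of a Dedekind domain.) -/
def Stmt_SJGRAPH : Prop :=
  ∀ (k : Type u) [Field k] [IsAlgClosed k] (𝒞 : CurveDatum k), 𝒞.IsGood →
    ∀ (S : Type u) [CommRing S] [Algebra k S] [Algebra.FiniteType k S] (q : SPt 𝒞 S),
      Module.Invertible (S ⊗[k] 𝒞.B0) (ptI0 q) ∧ Module.Invertible (S ⊗[k] 𝒞.B1) (ptI1 q) ∧
      Ideal.map (𝒞.ι0 S) (ptI0 q) = Ideal.map (𝒞.ι1 S) (ptI1 q) ∧
      (∀ c : S ⊗[k] 𝒞.B0, (∀ y ∈ ptI0 q, c * y = 0) → c = 0) ∧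
      (∀ c : S ⊗[k] 𝒞.B1, (∀ y ∈ ptI1 q, c * y = 0) → c = 0)

/-- **SJ-IDEAL** (the triple of a divisor): for invertible ideals `(J0, J1)` with the same extension to the overlap
and without annihilators there is a triple `L` with `IsO L J0 J1` (`P_i = Hom(J_i, S ⊗ B_i)`, section = the
inclusion); products of such pairs are such pairs. -/
def Stmt_SJIDEAL : Prop :=
  ∀ (k : Type u) [Field k] (𝒞 : CurveDatum k), 𝒞.IsGood →
    ∀ (S : Type u) [CommRing S] [Algebra k S] (J0 : Ideal (S ⊗[k] 𝒞.B0)) (J1 : Ideal (S ⊗[k] 𝒞.B1)),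
      Module.Invertible (S ⊗[k] 𝒞.B0) J0 → Module.Invertible (S ⊗[k] 𝒞.B1) J1 →
      Ideal.map (𝒞.ι0 S) J0 = Ideal.map (𝒞.ι1 S) J1 →
      (∀ c : S ⊗[k] 𝒞.B0, (∀ y ∈ J0, c * y = 0) → c = 0) →
      (∀ c : S ⊗[k] 𝒞.B1, (∀ y ∈ J1, c * y = 0) → c = 0) →
      ∃ L : Triple 𝒞 S, IsO L J0 J1

/-- **SJ-UNIQ**: `O(D)` is unique up to isomorphism (helper92's proof of `Chart.Stmt_DIVUNIQ` for general ideals),
and `IsO` is invariant under isomorphisms. -/
def Stmt_SJUNIQ : Prop :=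
  ∀ (k : Type u) [Field k] (𝒞 : CurveDatum k), 𝒞.IsGood →
    ∀ (S : Type u) [CommRing S] [Algebra k S] (J0 : Ideal (S ⊗[k] 𝒞.B0)) (J1 : Ideal (S ⊗[k] 𝒞.B1))
      (L L' : Triple 𝒞 S),
      (IsO L J0 J1 → IsO L' J0 J1 → Nonempty (Triple.Iso L L')) ∧
      (IsO L J0 J1 → Nonempty (Triple.Iso L L') → IsO L' J0 J1)

/-- **SJ-BC**: base change of `O(Γ_(q 1) + … + Γ_(q n))`. -/
def Stmt_SJBC : Prop :=
  ∀ (k : Type u) [Field k] [IsAlgClosed k] (𝒞 : CurveDatum k), 𝒞.IsGood →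
    ∀ (S S' : Type u) [CommRing S] [Algebra k S] [Algebra.FiniteType k S] [CommRing S'] [Algebra k S']
      [Algebra.FiniteType k S'] (ψ : S →ₐ[k] S') (n : ℕ) (q : Fin n → SPt 𝒞 S)
      (L : Triple 𝒞 S) (L' : Triple 𝒞 S'), BC ψ L L' → IsO L (divI0 q) (divI1 q) →
      IsO L' (divI0 (fun i => (q i).map ψ)) (divI1 (fun i => (q i).map ψ))

/-- **SJ-CHART**: a point of the overlap has the same graph ideals in both charts. -/
def Stmt_SJCHART : Prop :=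
  ∀ (k : Type u) [Field k] (𝒞 : CurveDatum k), 𝒞.IsGood →
    ∀ (S : Type u) [CommRing S] [Algebra k S] (q01 : 𝒞.B01 →ₐ[k] S),
      ptI0 (Sum.inl (q01.comp 𝒞.i0) : SPt 𝒞 S) = ptI0 (Sum.inr (q01.comp 𝒞.i1)) ∧
      ptI1 (Sum.inl (q01.comp 𝒞.i0) : SPt 𝒞 S) = ptI1 (Sum.inr (q01.comp 𝒞.i1))

/-- **SJ-K** (link with NUM): over `k`, `IsO L (divI0 q) (divI1 q)` means that `L` is the twist of a unit triple by
the divisor `q 1 + … + q n` in the sense of `Num.IsTwist`; hence `chi L = 1 - genus + n`. -/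
def Stmt_SJK : Prop :=
  ∀ (k : Type u) [Field k] [IsAlgClosed k] (𝒞 : CurveDatum k), 𝒞.IsGood →
    ∀ (n : ℕ) (q : Fin n → SPt 𝒞 k) (L : Triple 𝒞 k),
      (IsO L (divI0 q) (divI1 q) → chi L = 1 - (genus 𝒞 : ℤ) + n) ∧
      ∀ (J0 : Ideal 𝒞.B0) (J1 : Ideal 𝒞.B1), divI0 q = ext0 J0 → divI1 q = ext1 J1 →
        (IsO L (divI0 q) (divI1 q) ↔ ∃ U : Triple 𝒞 k, IsUnitTriple U ∧ IsTwist J0 J1 U L)

/-- **SJ-RIGLOC**: every triple is rigid Zariski-locally on `Spec S` (`P1 / I_e P1` is an invertible `S`-module). -/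
def Stmt_SJRIGLOC : Prop :=
  ∀ (k : Type u) [Field k] (𝒞 : CurveDatum k), 𝒞.IsGood →
    ∀ (S : Type u) [CommRing S] [Algebra k S] (N : Triple 𝒞 S), RigidLoc N

/-- **SJ-TWTENS** (NUM side): tensoring with `O(D)` is twisting by `D`; hence for `E = O(D)`, `D` effective of
degree `d`: `chi (M ⊗ E) = chi M + d` and `chi (M ⊗ E^∨) = chi M - d`. -/
def Stmt_SJTWTENS : Prop :=
  ∀ (k : Type u) [Field k] [IsAlgClosed k] (𝒞 : CurveDatum k) (h : 𝒞.IsGood),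
    ∀ (J0 : Ideal 𝒞.B0) (J1 : Ideal 𝒞.B1) (U E M : Triple 𝒞 k), IsUnitTriple U → IsTwist J0 J1 U E →
      IsTwist J0 J1 M (H60.tensor M E h) ∧ IsTwist J0 J1 (H60.tensor M (H60.dual E h) h) M

end Fermat.Agent.S25.Trip
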