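/-
S25 (row 24), package TRIP, part S, leaf SJ-IDEAL (helper55): the triple of a divisor.

For invertible ideals `(J0, J1)` of `S ⊗ B0`, `S ⊗ B1` with the same extension to the overlap and without
annihilators, the dual of the triple of ideals `(J0, J1, J0 (S ⊗ B01))` is a triple `L` with `IsO L J0 J1`
(`P_i = Hom(J_i, S ⊗ B_i)`, section = the inclusion).
-/
import Fermat.Agent.S25.Trip.DefsS

set_option autoImplicit false
set_option linter.style.haveILetI false
set_option linter.unusedSectionVars false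

universe u

open Polynomial TensorProduct

noncomputable section

namespace Fermat.Agent.S25.Trip.H55

open Fermat.Agent.S25.LB Fermat.Agent.S25.LB.H60

/-! ## The abstract chart of an ideal -/

section Gen

variable {A A' : Type u} [CommRing A] [CommRing A'] {φ : A →+* A'} {x : A}

/-- The restriction `J → J'`, `J' = J A'`. -/
def idealMap (φ : A →+* A') (J : Ideal A) (J' : Ideal A') (hJ : J' = Ideal.map φ J) :
    J →ₛₗ[φ] J' where
  toFun y := ⟨φ y, by rw [hJ]; exact Ideal.mem_map_of_mem φ y.2⟩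
  map_add' y z := Subtype.ext (map_add φ (y : A) z)
  map_smul' c y := Subtype.ext (map_mul φ c (y : A))

theorem idealMap_coe (J : Ideal A) (J' : Ideal A') (hJ : J' = Ideal.map φ J) (y : J) :
    ((idealMap φ J J' hJ y : J') : A') = φ y := rfl

/-- The restriction `J → J A'` is a localisation. -/
theorem isLocMod_idealMap (hS : IsLocRing φ x) (J : Ideal A) (J' : Ideal A')
    (hJ : J' = Ideal.map φ J) : IsLocMod φ x (idealMap φ J J' hJ) := by
  refine ⟨?_, ?_⟩
  · rintro ⟨m, hm⟩
    have key : ∃ (n : ℕ) (p : A), p ∈ J ∧ φ x ^ n * m = φ p := by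
      rw [hJ, Ideal.map] at hm
      induction hm using Submodule.span_induction with
      | mem m hm =>
        obtain ⟨y, hy, rfl⟩ := hm
        exact ⟨0, y, hy, by rw [pow_zero, one_mul]⟩
      | zero => exact ⟨0, 0, J.zero_mem, by rw [mul_zero, map_zero]⟩
      | add m₁ m₂ _ _ h₁ h₂ =>
        obtain ⟨n₁, p₁, hp₁, e₁⟩ := h₁
        obtain ⟨n₂, p₂, hp₂, e₂⟩ := h₂
        refine ⟨n₁ + n₂, x ^ n₂ * p₁ + x ^ n₁ * p₂,
          J.add_mem (J.mul_mem_left _ hp₁) (J.mul_mem_left _ hp₂), ?_⟩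
        rw [map_add, map_mul, map_mul, map_pow, map_pow, ← e₁, ← e₂, pow_add]
        ring
      | smul a m _ h₁ =>
        obtain ⟨n₁, p₁, hp₁, e₁⟩ := h₁
        obtain ⟨k, s, hs⟩ := hS.surj a
        refine ⟨k + n₁, s * p₁, J.mul_mem_left _ hp₁, ?_⟩
        rw [map_mul, ← e₁, ← hs, pow_add, smul_eq_mul]
        ring
    obtain ⟨n, p, hp, e⟩ := key
    exact ⟨n, ⟨p, hp⟩, Subtype.ext e⟩
  · rintro ⟨p, hp⟩ h0
    have h1 : φ p = 0 := congrArg Subtype.val h0
    obtain ⟨n, hn⟩ := hS.ker p h1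
    exact ⟨n, Subtype.ext hn⟩

variable {P P' : Type u} [AddCommGroup P] [Module A P] [AddCommGroup P'] [Module A' P']

/-- Linear forms on a localisation are determined by their values on the image. -/
theorem dual_ext_of_isLocMod (hS : IsLocRing φ x) {r : P →ₛₗ[φ] P'} (h : IsLocMod φ x r)
    (l l' : Module.Dual A' P') (hl : ∀ p, l (r p) = l' (r p)) : l = l' := by
  ext m
  obtain ⟨n, p, hp⟩ := h.surj m
  have hu : IsUnit (φ x ^ n) := hS.unit.pow n
  have e : φ x ^ n * l m = φ x ^ n * l' m := by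
    rw [← smul_eq_mul, ← smul_eq_mul, ← map_smul, ← map_smul, hp, hl]
  exact hu.mul_left_cancel e

/-- The divisor of the inclusion `J → A`, as an element of the dual of an invertible ideal. -/
theorem mem_iff_dual (J : Ideal A) [Module.Invertible A J] (c : A) :
    c ∈ J ↔ ∀ p : Module.Dual A J, ∃ d : A, c • p = d • J.subtype := by
  constructor
  · intro hc p
    refine ⟨p ⟨c, hc⟩, ?_⟩
    ext y
    rw [LinearMap.smul_apply, LinearMap.smul_apply, Submodule.subtype_apply, smul_eq_mul,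
      smul_eq_mul]
    have h1 : p ((y : A) • (⟨c, hc⟩ : J)) = (y : A) * p ⟨c, hc⟩ := by
      rw [map_smul, smul_eq_mul]
    have h2 : p (c • y) = c * p y := by rw [map_smul, smul_eq_mul]
    have h3 : (y : A) • (⟨c, hc⟩ : J) = c • y := Subtype.ext (mul_comm _ _)
    rw [← h2, ← h3, h1, mul_comm]
  · intro H
    obtain ⟨t, ht⟩ := (Module.Invertible.bijective (R := A) (M := J)).2 1
    have key : ∀ t : Module.Dual A J ⊗[A] J, c * contractLeft A J t ∈ J := by
      intro t
      induction t using TensorProduct.induction_on with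
      | zero => rw [map_zero, mul_zero]; exact J.zero_mem
      | tmul l y =>
        obtain ⟨d, hd⟩ := H l
        have e : c * l y = d * (y : A) := by
          have := congrArg (fun f : Module.Dual A J => f y) hd
          simpa [LinearMap.smul_apply, smul_eq_mul] using this
        rw [contractLeft_apply, e]
        exact J.mul_mem_left _ y.2
      | add a b ha hb =>
        rw [map_add, mul_add]
        exact J.add_mem ha hb
    have := key t
    rwa [ht, mul_one] at this

end Gen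

/-! ## The triple of a divisor -/

section Trip

variable {k : Type u} [Field k] {𝒞 : CurveDatum k} {S : Type u} [CommRing S] [Algebra k S]

/-- The triple of ideals `(J0, J1, J0 (S ⊗ B01))` (`= O(-D)`). -/
@[reducible] def idealTriple (h : 𝒞.IsGood) (J0 : Ideal (S ⊗[k] 𝒞.B0)) (J1 : Ideal (S ⊗[k] 𝒞.B1))
    (i0 : Module.Invertible (S ⊗[k] 𝒞.B0) J0) (i1 : Module.Invertible (S ⊗[k] 𝒞.B1) J1)
    (hJ : Ideal.map (𝒞.ι0 S) J0 = Ideal.map (𝒞.ι1 S) J1) : Triple 𝒞 S :=
  ofLocMod (P0 := J0) (P1 := J1) (P01 := Ideal.map (𝒞.ι0 S) J0)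
    (idealMap (𝒞.ι0 S) J0 _ rfl) (idealMap (𝒞.ι1 S) J1 _ hJ) i0 i1
    (isLocMod_idealMap (isLocRing0 S h) J0 _ rfl) (isLocMod_idealMap (isLocRing1 S h) J1 _ hJ)

/-- **SJ-IDEAL**. -/
theorem stmt_SJIDEAL : Stmt_SJIDEAL.{u} := by
  intro k _ 𝒞 h S _ _ J0 J1 i0 i1 hJ ha0 ha1
  haveI := i0
  haveI := i1
  let I : Triple 𝒞 S := idealTriple h J0 J1 i0 i1 hJ
  let T : Module.Dual (S ⊗[k] 𝒞.B01) (Ideal.map (𝒞.ι0 S) J0) :=
    (Ideal.map (𝒞.ι0 S) J0).subtype
  have hr0 : (dual I h).r0 J0.subtype = T := by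
    refine dual_ext_of_isLocMod (isLocRing0 S h) (isLocMod0 I) _ _ fun p => ?_
    rw [dual_r0_apply I h J0.subtype p]
    rfl
  have hr1 : (dual I h).r1 J1.subtype = T := by
    refine dual_ext_of_isLocMod (isLocRing1 S h) (isLocMod1 I) _ _ fun p => ?_
    rw [dual_r1_apply I h J1.subtype p]
    rfl
  refine ⟨dual I h, J0.subtype, J1.subtype, ?_⟩
  refine ⟨hr0.trans hr1.symm, ?_, ?_, ?_, ?_⟩
  · intro c hc
    refine ha0 c fun y hy => ?_
    have := congrArg (fun f : Module.Dual (S ⊗[k] 𝒞.B0) J0 => f ⟨y, hy⟩) hc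
    simpa [LinearMap.smul_apply, smul_eq_mul] using this
  · intro c hc
    refine ha1 c fun y hy => ?_
    have := congrArg (fun f : Module.Dual (S ⊗[k] 𝒞.B1) J1 => f ⟨y, hy⟩) hc
    simpa [LinearMap.smul_apply, smul_eq_mul] using this
  · intro c
    exact mem_iff_dual J0 c
  · intro c
    exact mem_iff_dual J1 c

end Trip

end Fermat.Agent.S25.Trip.H55
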