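import Fermat.Agent.S25.Trip.Defs
import Fermat.Agent.S25.LB.H60_TensBC
import Fermat.Agent.S25.Num.H45_Iso

/-!
# S25, package TRIP, leaf DEGUNIT (helper98)

`degunit_of : Stmt_DEGBC → Stmt_DEGK → Stmt_DEGUNIT`:
* the unit triple over `R` is the base change of the unit triple over `k` (`H60.unitBC`), so the Euler
  characteristic of its fibres is `chi (unit_k) = 1 - genus` (`Stmt_DEGBC`, `Stmt_DEGK`, `Num.H45.chi_unit`);
* an isomorphism of triples is a base change along the identity (`bcOfIso`), so isomorphic triples have the same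
  fibre Euler characteristics (`Stmt_DEGBC`).
-/

set_option autoImplicit false
set_option linter.style.haveILetI false

universe u

open Polynomial TensorProduct

namespace Fermat.Agent.S25.Trip.H98

open Fermat.Agent.S25.LB Fermat.Agent.S25.Chart Fermat.Agent.S25.Num Fermat.Agent.S25.Trip

variable {k : Type u} [Field k] {𝒞 : CurveDatum k} {R : Type u} [CommRing R] [Algebra k R]

theorem tmap_id (B : Type u) [CommRing B] [Algebra k B] (c : R ⊗[k] B) :
    tmap (AlgHom.id k R) B c = c := by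
  unfold tmap
  rw [Algebra.TensorProduct.map_id]
  rfl

/-- an isomorphism of triples is a base change along the identity -/
noncomputable def bcOfIso {L L' : Triple 𝒞 R} (E : Triple.Iso L L') : BC (AlgHom.id k R) L L' where
  b0 := E.e0.toLinearMap.toAddMonoidHom
  b1 := E.e1.toLinearMap.toAddMonoidHom
  b01 := E.e01.toLinearMap.toAddMonoidHom
  semi0 := fun c q => by
    rw [tmap_id]
    exact E.e0.map_smul c q
  semi1 := fun c q => by
    rw [tmap_id]
    exact E.e1.map_smul c q
  semi01 := fun c q => by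
    rw [tmap_id]
    exact E.e01.map_smul c q
  comm0 := E.comm0
  comm1 := E.comm1
  gen0 := by
    rw [eq_top_iff]
    intro q _
    exact Submodule.subset_span ⟨E.e0.symm q, E.e0.apply_symm_apply q⟩
  gen1 := by
    rw [eq_top_iff]
    intro q _
    exact Submodule.subset_span ⟨E.e1.symm q, E.e1.apply_symm_apply q⟩

theorem isUnitTriple_unitTriple (h : 𝒞.IsGood) : IsUnitTriple (H60.unitTriple 𝒞 k h) :=
  ⟨LinearEquiv.refl _ _, LinearEquiv.refl _ _, LinearEquiv.refl _ _, fun _ => rfl, fun _ => rfl⟩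

/-- isomorphic triples have the same fibre Euler characteristics -/
theorem chiAt_eq_of_iso (hBC : Stmt_DEGBC.{u}) (h : 𝒞.IsGood) {L L' : Triple 𝒞 R}
    (E : Triple.Iso L L') (p : PrimeSpectrum R) : chiAt L p = chiAt L' p := by
  have h1 := hBC k 𝒞 h R R (AlgHom.id k R) L L' (bcOfIso E) p
  rw [h1]
  congr 1

/-- the fibres of the unit triple have Euler characteristic `1 - genus` -/
theorem chiAt_unit (hBC : Stmt_DEGBC.{u}) (hK : Stmt_DEGK.{u}) (h : 𝒞.IsGood)
    (p : PrimeSpectrum R) : chiAt (H60.unitTriple 𝒞 R h) p = 1 - (genus 𝒞 : ℤ) := by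
  have h1 := hBC k 𝒞 h k R (Algebra.ofId k R) (H60.unitTriple 𝒞 k h) (H60.unitTriple 𝒞 R h)
    (H60.unitBC (Algebra.ofId k R) h) p
  rw [h1, (hK k 𝒞 h).1 (H60.unitTriple 𝒞 k h) _]
  exact Num.H45.chi_unit h (isUnitTriple_unitTriple h)

/-- **TRIP-DEGUNIT**, from DEGBC and DEGK. -/
theorem degunit_of (hBC : Stmt_DEGBC.{u}) (hK : Stmt_DEGK.{u}) : Stmt_DEGUNIT.{u} := by
  intro k _ _ 𝒞 h R _ _
  refine ⟨fun p => ?_, ?_⟩
  · unfold degAt
    rw [chiAt_unit hBC hK h p, sub_self]
  · rintro L L' ⟨E⟩ p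
    exact chiAt_eq_of_iso hBC h E p

end Fermat.Agent.S25.Trip.H98
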