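import Fermat.Agent.S25.Trip.DefsS
import Fermat.Agent.S25.Chart.H92_DivUniq

/-!
# S25, package TRIP, leaf SJ-UNIQ (helper22): `stmt_SJUNIQ : Stmt_SJUNIQ`

`O(D)` is unique up to isomorphism, for a divisor `D = (J0, J1)` given by arbitrary ideals
(helper92's proof of `Chart.Stmt_DIVUNIQ`: `H92U.exists_equiv_of_colon`, `H92U.exists_locEquiv`,
`H92U.eq_zero_of_colon_smul`), and `IsO` is invariant under isomorphisms.

* `iso_of_isDivI` : two triples with regular sections with the same divisor are isomorphic;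
* `isDivI_of_iso` : the image of a regular section under an isomorphism;
* `stmt_SJUNIQ`.

This file contains no unproved statement.
-/

set_option autoImplicit false
set_option linter.style.haveILetI false

universe u

open Polynomial TensorProduct

namespace Fermat.Agent.S25.Trip.H22U

open Fermat.Agent.S25.LB Fermat.Agent.S25.Chart Fermat.Agent.S25.Trip
  Fermat.Agent.S25.Chart.H92U

variable {k : Type u} [Field k] {𝒞 : CurveDatum k} {S : Type u} [CommRing S] [Algebra k S]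

/-- Two triples with regular sections with the same divisor are isomorphic. -/
theorem iso_of_isDivI (h𝒞 : 𝒞.IsGood) {J0 : Ideal (S ⊗[k] 𝒞.B0)} {J1 : Ideal (S ⊗[k] 𝒞.B1)}
    {L L' : Triple 𝒞 S} {s0 : L.P0} {s1 : L.P1} {s0' : L'.P0} {s1' : L'.P1}
    (hD : IsDivI L s0 s1 J0 J1) (hD' : IsDivI L' s0' s1' J0 J1) :
    ∃ e : Triple.Iso L L', e.e0 s0 = s0' ∧ e.e1 s1 = s1' := by
  haveI := L.inv0
  haveI := L.inv1
  haveI := L'.inv0
  haveI := L'.inv1
  obtain ⟨e0, he0⟩ := exists_equiv_of_colon s0 s0' hD.reg0 hD'.reg0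
    (fun c => (hD.div0 c).symm.trans (hD'.div0 c))
  obtain ⟨e1, he1⟩ := exists_equiv_of_colon s1 s1' hD.reg1 hD'.reg1
    (fun c => (hD.div1 c).symm.trans (hD'.div1 c))
  obtain ⟨e01, he01⟩ := exists_locEquiv h𝒞 e0
  refine ⟨⟨e0, e1, e01, he01, fun p1 => ?_⟩, he0, he1⟩
  rw [← sub_eq_zero]
  refine eq_zero_of_colon_smul (L := L') s1' hD'.reg1 _ (fun c hc => ?_)
  have hc1 : ∀ q : L.P1, ∃ d : S ⊗[k] 𝒞.B1, c • q = d • s1 :=
    (hD.div1 c).1 ((hD'.div1 c).2 hc)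
  obtain ⟨d, hd⟩ := hc1 p1
  have hA : 𝒞.ι1 S c • e01 (L.r1 p1) = 𝒞.ι1 S d • L'.r0 s0' := by
    rw [← map_smul, ← r1_smul L, hd, r1_smul L, map_smul, ← hD.glue, he01, he0]
  have hB : 𝒞.ι1 S c • L'.r1 (e1 p1) = 𝒞.ι1 S d • L'.r0 s0' := by
    rw [← r1_smul L', ← map_smul, hd, map_smul, he1, r1_smul L', ← hD'.glue]
  rw [smul_sub, hA, hB, sub_self]

/-- The image of a regular section under an isomorphism is a regular section with the same
divisor. -/
theorem isDivI_of_iso {J0 : Ideal (S ⊗[k] 𝒞.B0)} {J1 : Ideal (S ⊗[k] 𝒞.B1)}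
    {L L' : Triple 𝒞 S} {s0 : L.P0} {s1 : L.P1} (hD : IsDivI L s0 s1 J0 J1)
    (e : Triple.Iso L L') : IsDivI L' (e.e0 s0) (e.e1 s1) J0 J1 where
  glue := by rw [← e.comm0, ← e.comm1, hD.glue]
  reg0 c hc := by
    apply hD.reg0
    apply e.e0.injective
    rw [map_smul, hc, map_zero]
  reg1 c hc := by
    apply hD.reg1
    apply e.e1.injective
    rw [map_smul, hc, map_zero]
  div0 c := by
    rw [hD.div0 c]
    constructor
    · intro h p'
      obtain ⟨d, hd⟩ := h (e.e0.symm p')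
      refine ⟨d, ?_⟩
      rw [← map_smul, ← hd, map_smul, LinearEquiv.apply_symm_apply]
    · intro h p
      obtain ⟨d, hd⟩ := h (e.e0 p)
      refine ⟨d, ?_⟩
      apply e.e0.injective
      rw [map_smul, hd, map_smul]
  div1 c := by
    rw [hD.div1 c]
    constructor
    · intro h p'
      obtain ⟨d, hd⟩ := h (e.e1.symm p')
      refine ⟨d, ?_⟩
      rw [← map_smul, ← hd, map_smul, LinearEquiv.apply_symm_apply]
    · intro h p
      obtain ⟨d, hd⟩ := h (e.e1 p)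
      refine ⟨d, ?_⟩
      apply e.e1.injective
      rw [map_smul, hd, map_smul]

/-- **SJ-UNIQ.** -/
theorem stmt_SJUNIQ : Stmt_SJUNIQ.{u} := by
  intro k _ 𝒞 h𝒞 S _ _ J0 J1 L L'
  refine ⟨fun ⟨s0, s1, hD⟩ ⟨s0', s1', hD'⟩ => ?_, fun ⟨s0, s1, hD⟩ ⟨e⟩ => ?_⟩
  · obtain ⟨e, -, -⟩ := iso_of_isDivI h𝒞 hD hD'
    exact ⟨e⟩
  · exact ⟨e.e0 s0, e.e1 s1, isDivI_of_iso hD e⟩

end Fermat.Agent.S25.Trip.H22U
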