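/-
helper23, S25 package TRIP, leaf TRIP-TVAL: `Stmt_TVAL` UNCONDITIONAL (NUM-CHI is closed: `Num.H50.stmt_CHI`).

* `stmt_SEPFGF : H23.Stmt_SEPFGF`   (T-SEPFG for an arbitrary field),
* `stmt_SEPFG  : Stmt_SEPFG`,
* `stmt_TVAL   : Stmt_TVAL`,
* `stmt_VALCORE : Top.H20.Stmt_VALCORE` (helper30's `Top.H30.stmt_VALCORE_of`).
-/
import Fermat.Agent.S25.Trip.H23_TValClose
import Fermat.Agent.S25.Num.H50_ChiStmt
import Fermat.Agent.S25.Top.H30_ValUniq

set_option autoImplicit false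

universe u

namespace Fermat.Agent.S25.Trip.H23

open Fermat.Agent.S25.LB Fermat.Agent.S25.Chart Fermat.Agent.S25.Num Fermat.Agent.S25

/-- **T-SEPFG for an arbitrary field**, unconditional. -/
theorem stmt_SEPFGF : Stmt_SEPFGF.{u} := stmt_SEPFGF_of_CHI Num.H50.stmt_CHI

/-- **T-SEPFG**, unconditional. -/
theorem stmt_SEPFG : Stmt_SEPFG.{u} := sepfg_of_sepfgF stmt_SEPFGF

/-- **T-VAL**, unconditional. -/
theorem stmt_TVAL : Stmt_TVAL.{u} := tval_of_sepfgF stmt_SEPFGF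

/-- **VALCORE** (the algebra core of TOP-VALUNIQ), unconditional. -/
theorem stmt_VALCORE : Top.H20.Stmt_VALCORE.{u} := Top.H30.stmt_VALCORE_of stmt_TVAL

end Fermat.Agent.S25.Trip.H23
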