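/-
helper26, S25 package TRIP, commutative algebra for TRIP-SEPFG (Mathlib only).

* `exists_pt_ker_eq`: over an algebraically closed field `k`, every maximal ideal of a finitely generated
  `k`-algebra is the kernel of a `k`-point (Nullstellensatz via Zariski's lemma);
* `exists_pt_ge`: every prime is contained in the kernel of a `k`-point;
* `forall_of_isClosed_of_bot_mem`: a closed subset of `Spec R` (`R` a domain) containing the generic point is everything;
* `exists_pt_mem_of_isClosed`: a nonempty closed subset of `Spec R` contains the prime of a `k`-point.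
-/
import Mathlib

set_option autoImplicit false
set_option linter.style.haveILetI false

universe u

namespace Fermat.Agent.S25.Trip.H26

variable {k : Type u} [Field k] {R : Type u} [CommRing R] [Algebra k R]

/-- Nullstellensatz: a maximal ideal of a finitely generated algebra over an algebraically closed field is the
kernel of a `k`-point. -/
theorem exists_pt_ker_eq [IsAlgClosed k] [Algebra.FiniteType k R] (m : Ideal R) [hm : m.IsMaximal] :
    ∃ t : R →ₐ[k] k, RingHom.ker t.toRingHom = m := by
  letI : Field (R ⧸ m) := Ideal.Quotient.field m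
  haveI : Algebra.FiniteType k (R ⧸ m) :=
    Algebra.FiniteType.of_surjective (Ideal.Quotient.mkₐ k m) (Ideal.Quotient.mkₐ_surjective k m)
  haveI : Module.Finite k (R ⧸ m) := finite_of_finite_type_of_isJacobsonRing k (R ⧸ m)
  haveI : Algebra.IsIntegral k (R ⧸ m) := Algebra.IsIntegral.of_finite k (R ⧸ m)
  have hbij : Function.Bijective (algebraMap k (R ⧸ m)) :=
    IsAlgClosed.algebraMap_bijective_of_isIntegral
  let e : k ≃ₐ[k] (R ⧸ m) := AlgEquiv.ofBijective (Algebra.ofId k (R ⧸ m)) hbij
  refine ⟨(e.symm : (R ⧸ m) →ₐ[k] k).comp (Ideal.Quotient.mkₐ k m), ?_⟩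
  ext x
  rw [RingHom.mem_ker]
  change e.symm (Ideal.Quotient.mk m x) = 0 ↔ x ∈ m
  rw [map_eq_zero_iff _ e.symm.injective, Ideal.Quotient.eq_zero_iff_mem]

/-- Every proper ideal of a finitely generated algebra over an algebraically closed field is contained in the kernel
of a `k`-point. -/
theorem exists_pt_ge [IsAlgClosed k] [Algebra.FiniteType k R] (I : Ideal R) (hI : I ≠ ⊤) :
    ∃ t : R →ₐ[k] k, I ≤ RingHom.ker t.toRingHom := by
  obtain ⟨m, hm, hIm⟩ := Ideal.exists_le_maximal I hI
  obtain ⟨t, ht⟩ := exists_pt_ker_eq (k := k) m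
  exact ⟨t, ht ▸ hIm⟩

/-- A closed subset of the spectrum of a domain which contains the generic point is everything. -/
theorem forall_mem_of_isClosed_of_bot_mem [IsDomain R] (Z : Set (PrimeSpectrum R)) (hZ : IsClosed Z)
    (hη : (⟨⊥, Ideal.isPrime_bot⟩ : PrimeSpectrum R) ∈ Z) (p : PrimeSpectrum R) : p ∈ Z := by
  obtain ⟨s, rfl⟩ := (PrimeSpectrum.isClosed_iff_zeroLocus Z).1 hZ
  rw [PrimeSpectrum.mem_zeroLocus] at hη ⊢
  intro x hx
  have : x ∈ ((⊥ : Ideal R) : Set R) := hη hx
  rw [SetLike.mem_coe, Ideal.mem_bot] at this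
  rw [this]
  exact p.asIdeal.zero_mem

/-- A nonempty closed subset of the spectrum of a finitely generated algebra over an algebraically closed field
contains the prime of a `k`-point. -/
theorem exists_pt_mem_of_isClosed [IsAlgClosed k] [Algebra.FiniteType k R]
    (Z : Set (PrimeSpectrum R)) (hZ : IsClosed Z) (hne : Z.Nonempty) :
    ∃ t : R →ₐ[k] k, (⟨RingHom.ker t.toRingHom, RingHom.ker_isPrime _⟩ : PrimeSpectrum R) ∈ Z := by
  obtain ⟨s, rfl⟩ := (PrimeSpectrum.isClosed_iff_zeroLocus Z).1 hZ
  obtain ⟨q, hq⟩ := hne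
  obtain ⟨t, ht⟩ := exists_pt_ge (k := k) q.asIdeal q.2.ne_top
  refine ⟨t, ?_⟩
  rw [PrimeSpectrum.mem_zeroLocus] at hq ⊢
  exact fun x hx => ht (hq hx)

end Fermat.Agent.S25.Trip.H26
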