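import Fermat.Agent.S25.Trip.Defs
import Fermat.Agent.S25.P1.H44_Cpx

/-!
# S25, package TRIP: `T-REDPROJ`

A finitely presented module `M` over a reduced ring `A` whose fibres `κ(p) ⊗ M` all have the same
dimension `n` is projective.

Proof.  Fix a prime `p`, lift a basis of `κ(p) ⊗ M` to `g : b → M` and let `π : A^b → M` be the linear
combination map.  By Nakayama some `f ∉ p` kills `coker π`.  At every prime `q ∌ f` the map `κ(q) ⊗ π`
is a surjection between spaces of dimension `n`, hence injective; so the coordinates of an element `v`
of `ker π` lie in every prime `q ∌ f`, i.e. `f v_i` is nilpotent, i.e. `f v = 0`.  Hence `A_p ⊗ π` is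
bijective and `A_p ⊗ M` is free.  Now use Mathlib's `Module.freeLocus_eq_univ_iff`.
-/

set_option autoImplicit false

open TensorProduct

universe u v w

namespace Fermat.Agent.S25.Trip.H44

open Fermat.Agent.S25.P1.H44

section Core

variable {A : Type u} [CommRing A] {M : Type v} [AddCommGroup M] [Module A M]

/-- `B ⊗ π` applied to `1 ⊗ e_i`. -/
theorem baseChange_linearCombination_single {ι : Type*} [Fintype ι] [DecidableEq ι] (g : ι → M)
    (B : Type w) [CommRing B] [Algebra A B] (i : ι) :
    (Fintype.linearCombination A g).baseChange B ((1 : B) ⊗ₜ[A] Pi.single i (1 : A)) =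
      (1 : B) ⊗ₜ[A] g i := by
  rw [LinearMap.baseChange_tmul, Fintype.linearCombination_apply_single, one_smul]

/-- If the `1 ⊗ g i` span `B ⊗ M`, then `B ⊗ π` is surjective. -/
theorem baseChange_linearCombination_surjective {ι : Type*} [Fintype ι] [DecidableEq ι]
    (g : ι → M) (B : Type w) [CommRing B] [Algebra A B]
    (h : Submodule.span B (Set.range fun i => (1 : B) ⊗ₜ[A] g i) = ⊤) :
    Function.Surjective ((Fintype.linearCombination A g).baseChange B) := by
  rw [← LinearMap.range_eq_top, eq_top_iff, ← h, Submodule.span_le]
  rintro _ ⟨i, rfl⟩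
  exact ⟨(1 : B) ⊗ₜ[A] Pi.single i (1 : A), baseChange_linearCombination_single g B i⟩

/-- If `F ⊗ π` is injective, the coordinates of an element of `ker π` vanish in `F`. -/
theorem algebraMap_coord_eq_zero {ι : Type*} [Fintype ι] [DecidableEq ι] (g : ι → M)
    (F : Type w) [CommRing F] [Algebra A F]
    (hinj : Function.Injective ((Fintype.linearCombination A g).baseChange F))
    (v : ι → A) (hv : Fintype.linearCombination A g v = 0) (i : ι) :
    algebraMap A F (v i) = 0 := by
  have h1 : (Fintype.linearCombination A g).baseChange F ((1 : F) ⊗ₜ[A] v) = 0 := by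
    rw [LinearMap.baseChange_tmul, hv, TensorProduct.tmul_zero]
  have h2 : ((1 : F) ⊗ₜ[A] v : F ⊗[A] (ι → A)) = 0 := hinj (h1.trans (map_zero _).symm)
  have h3 : (TensorProduct.rid A F) (((LinearMap.proj i : (ι → A) →ₗ[A] A).baseChange F)
      ((1 : F) ⊗ₜ[A] v)) = 0 := by
    rw [h2, map_zero, map_zero]
  rw [LinearMap.baseChange_tmul, TensorProduct.rid_tmul, LinearMap.proj_apply] at h3
  rw [Algebra.algebraMap_eq_smul_one]
  exact h3

variable [Module.Finite A M]

/-- The local structure of a finite module with constant fibre dimension over a reduced ring: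
near `p` the module is generated by `n` elements and the relations are killed by some `f ∉ p`. -/
theorem exists_generators_of_forall_finrank_eq [IsReduced A] (n : ℕ)
    (h : ∀ p : PrimeSpectrum A,
      Module.finrank p.asIdeal.ResidueField (p.asIdeal.ResidueField ⊗[A] M) = n)
    (p : PrimeSpectrum A) :
    ∃ (ι : Type (max u v)) (_ : Fintype ι) (_ : DecidableEq ι) (g : ι → M) (f : A), f ∉ p.asIdeal ∧
      (∀ c : M ⧸ Submodule.span A (Set.range g), f • c = 0) ∧
      ∀ v : ι → A, Fintype.linearCombination A g v = 0 → ∀ i, f * v i = 0 := by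
  classical
  obtain ⟨b, hbs, hbspan, hbli⟩ := exists_linearIndependent p.asIdeal.ResidueField
    (Set.range fun q : M => (1 : p.asIdeal.ResidueField) ⊗ₜ[A] q)
  rw [span_one_tmul_eq_top] at hbspan
  have hfin : Finite b := hbli.finite
  let _ : Fintype b := Fintype.ofFinite b
  have hcard : Fintype.card b = n := by
    have hb : Module.finrank p.asIdeal.ResidueField (p.asIdeal.ResidueField ⊗[A] M) =
        Fintype.card b :=
      Module.finrank_eq_card_basis (Module.Basis.mk hbli (by
        rw [Subtype.range_coe_subtype, Set.ofPred_mem_eq, hbspan]))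
    rw [← hb, h p]
  choose g hg using fun x : b => hbs x.2
  have hspan : Submodule.span p.asIdeal.ResidueField
      (Set.range fun i : b => (1 : p.asIdeal.ResidueField) ⊗ₜ[A] g i) = ⊤ := by
    have : (Set.range fun i : b => (1 : p.asIdeal.ResidueField) ⊗ₜ[A] g i) = b := by
      ext x
      constructor
      · rintro ⟨i, rfl⟩
        have := hg i
        simp only at this
        show (1 : p.asIdeal.ResidueField) ⊗ₜ[A] g i ∈ b
        rw [this]
        exact i.2
      · intro hx
        exact ⟨⟨x, hx⟩, hg ⟨x, hx⟩⟩
    rw [this, hbspan]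
  have hsub := subsingleton_of_span_tmul_eq_top g p.asIdeal.ResidueField hspan
  obtain ⟨f, hfp, hf⟩ := exists_notMem_smul_eq_zero p hsub
  refine ⟨b, inferInstance, inferInstance, g, f, hfp, hf, ?_⟩
  intro v hv i
  -- `f * v i` lies in every prime
  have hnil : IsNilpotent (f * v i) := by
    rw [nilpotent_iff_mem_prime]
    intro J hJ
    by_cases hfJ : f ∈ J
    · exact J.mul_mem_right _ hfJ
    · refine J.mul_mem_left _ ?_
      let q : PrimeSpectrum A := ⟨J, hJ⟩
      have hu : IsUnit (algebraMap A q.asIdeal.ResidueField f) := by
        rw [isUnit_iff_ne_zero, Ne, Ideal.algebraMap_residueField_eq_zero]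
        exact hfJ
      have hsubq : Subsingleton (q.asIdeal.ResidueField ⊗[A]
          (M ⧸ Submodule.span A (Set.range g))) :=
        subsingleton_tensor_of_smul_eq_zero q.asIdeal.ResidueField f hf hu
      have hsurj : Function.Surjective
          ((Fintype.linearCombination A g).baseChange q.asIdeal.ResidueField) :=
        baseChange_linearCombination_surjective g _
          (span_tmul_eq_top_of_subsingleton g q.asIdeal.ResidueField hsubq)
      have : Nontrivial A := RingHom.domain_nontrivial (algebraMap A q.asIdeal.ResidueField)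
      have hdim : Module.finrank q.asIdeal.ResidueField (q.asIdeal.ResidueField ⊗[A] (b → A)) =
          Module.finrank q.asIdeal.ResidueField (q.asIdeal.ResidueField ⊗[A] M) := by
        rw [h q, Module.finrank_baseChange, Module.finrank_fintype_fun_eq_card, hcard]
      have hinj : Function.Injective
          ((Fintype.linearCombination A g).baseChange q.asIdeal.ResidueField) :=
        (LinearMap.injective_iff_surjective_of_finrank_eq_finrank hdim).mpr hsurj
      have := algebraMap_coord_eq_zero g q.asIdeal.ResidueField hinj v hv i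
      rwa [Ideal.algebraMap_residueField_eq_zero] at this
  exact isNilpotent_iff_eq_zero.mp hnil

/-- A finite module with constant fibre dimension over a reduced ring is free at every prime. -/
theorem free_localization_of_forall_finrank_eq [IsReduced A] (n : ℕ)
    (h : ∀ p : PrimeSpectrum A,
      Module.finrank p.asIdeal.ResidueField (p.asIdeal.ResidueField ⊗[A] M) = n)
    (p : PrimeSpectrum A) :
    Module.Free (Localization.AtPrime p.asIdeal) (Localization.AtPrime p.asIdeal ⊗[A] M) := by
  obtain ⟨ι, _, _, g, f, hfp, hf, hker⟩ := exists_generators_of_forall_finrank_eq n h p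
  set S := Localization.AtPrime p.asIdeal with hS
  have hunit : IsUnit (algebraMap A S f) :=
    IsLocalization.map_units S (⟨f, hfp⟩ : p.asIdeal.primeCompl)
  set π := Fintype.linearCombination A g with hπ
  have hsurj : Function.Surjective (π.baseChange S) :=
    baseChange_linearCombination_surjective g S
      (span_tmul_eq_top_of_subsingleton g S (subsingleton_tensor_of_smul_eq_zero S f hf hunit))
  have hK : ∀ k : LinearMap.ker π, f • k = 0 := by
    rintro ⟨v, hv⟩
    apply Subtype.ext
    funext i
    exact hker v hv i
  have hsubK : Subsingleton (S ⊗[A] LinearMap.ker π) :=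
    subsingleton_tensor_of_smul_eq_zero S f hK hunit
  have hex : Function.Exact ((LinearMap.ker π).subtype.lTensor S) (π.lTensor S) :=
    Module.Flat.lTensor_exact S (LinearMap.exact_subtype_ker_map π)
  have hinj : Function.Injective (π.baseChange S) := by
    rw [injective_iff_map_eq_zero]
    intro y hy
    have hy' : (π.lTensor S) y = 0 := hy
    obtain ⟨z, rfl⟩ := (hex y).1 hy'
    rw [Subsingleton.elim z 0, map_zero]
  exact Module.Free.of_equiv (LinearEquiv.ofBijective (π.baseChange S) ⟨hinj, hsurj⟩)

end Core

/-- **T-REDPROJ**. -/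
theorem stmt_REDPROJ : Stmt_REDPROJ.{u} := by
  intro A _ _ M _ _ _ n h
  rw [← Module.freeLocus_eq_univ_iff, Set.eq_univ_iff_forall]
  intro p
  rw [Module.mem_freeLocus_iff_tensor p (Localization.AtPrime p.asIdeal)]
  exact free_localization_of_forall_finrank_eq n h p

end Fermat.Agent.S25.Trip.H44
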