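/-
S25 (row 24), package TRIP, leaf TRIP-RIGID (helper60), part 1: cyclic modulo an ideal (Mathlib only
+ `Chart/H46_InvMod`).

`IsCyc I P` : the module `P / I P` is generated by one element.

* `isCyc_of_isMaximal` : an invertible module is cyclic modulo every maximal ideal;
* `IsCyc.map`          : base change (semilinear generating map);
* `IsCyc.dual`         : the dual of an invertible module which is cyclic modulo `I`;
* `IsCyc.tensor`       : tensor products;
* `IsCyc.congr`        : isomorphisms.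
-/
import Fermat.Agent.S25.Chart.H46_InvMod

set_option autoImplicit false
set_option linter.style.haveILetI false
set_option linter.unusedSectionVars false

universe u

open TensorProduct

namespace Fermat.Agent.S25.Trip.H60

open Fermat.Agent.S25.Chart

section Cyc

variable {S : Type u} [CommRing S] (I : Ideal S) (P : Type u) [AddCommGroup P] [Module S P]

/-- `P / I P` is generated by one element. -/
def IsCyc : Prop :=
  ∃ p : P, ∀ q : P, ∃ a : S, q - a • p ∈ (I • (⊤ : Submodule S P))

variable {I P}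

theorem smul_mem_smul_top {c : S} (hc : c ∈ I) (q : P) : c • q ∈ (I • (⊤ : Submodule S P)) :=
  Submodule.smul_mem_smul hc Submodule.mem_top

/-- An invertible module is cyclic modulo a maximal ideal. -/
theorem isCyc_of_isMaximal [Module.Invertible S P] (hI : I.IsMaximal) : IsCyc I P := by
  obtain ⟨F, hF⟩ := H46i.exists_dual S P
  have hex : ∃ i ∈ F, i.1 i.2 ∉ I := by
    by_contra hcon
    have hcon' : ∀ i ∈ F, i.1 i.2 ∈ I := fun i hi => by
      by_contra h0
      exact hcon ⟨i, hi, h0⟩
    have h1 : (1 : S) ∈ I := by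
      rw [← hF]
      exact Ideal.sum_mem I hcon'
    exact hI.ne_top ((Ideal.eq_top_iff_one I).mpr h1)
  obtain ⟨i, -, hi⟩ := hex
  obtain ⟨v, c, hc, hv⟩ := hI.exists_inv hi
  refine ⟨i.2, fun q => ⟨v * i.1 q, ?_⟩⟩
  have h2 : q - (v * i.1 q) • i.2 = c • q := by
    have h3 : i.1 q • i.2 = i.1 i.2 • q := H46i.rank_one i.1 q i.2
    rw [mul_smul, h3, smul_smul]
    have h4 : c = 1 - v * i.1 i.2 := by rw [← hv]; ring
    rw [h4, sub_smul, one_smul]
  rw [h2]
  exact smul_mem_smul_top hc q

/-- Isomorphic modules. -/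
theorem IsCyc.congr {Q : Type u} [AddCommGroup Q] [Module S Q] (h : IsCyc I P) (e : P ≃ₗ[S] Q) :
    IsCyc I Q := by
  obtain ⟨p, hp⟩ := h
  refine ⟨e p, fun q => ?_⟩
  obtain ⟨a, ha⟩ := hp (e.symm q)
  refine ⟨a, ?_⟩
  have h1 : q - a • e p = e (e.symm q - a • p) := by
    rw [map_sub, map_smul, e.apply_symm_apply]
  rw [h1]
  have h2 : (I • (⊤ : Submodule S P)).map e.toLinearMap ≤ I • (⊤ : Submodule S Q) := by
    rw [Submodule.map_smul'']
    exact Submodule.smul_mono le_rfl le_top
  exact h2 (Submodule.mem_map_of_mem ha)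

/-- The tensor product. -/
theorem IsCyc.tensor {Q : Type u} [AddCommGroup Q] [Module S Q] (h : IsCyc I P) (h' : IsCyc I Q) :
    IsCyc I (P ⊗[S] Q) := by
  obtain ⟨p, hp⟩ := h
  obtain ⟨p', hp'⟩ := h'
  refine ⟨p ⊗ₜ[S] p', fun t => ?_⟩
  have hP : ∀ (x : P) (y : Q), x ∈ (I • (⊤ : Submodule S P)) →
      x ⊗ₜ[S] y ∈ (I • (⊤ : Submodule S (P ⊗[S] Q))) := by
    intro x y hx
    refine Submodule.smul_induction_on hx (fun c hc z _ => ?_) (fun a b ha hb => ?_)
    · rw [← TensorProduct.smul_tmul']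
      exact smul_mem_smul_top hc _
    · rw [TensorProduct.add_tmul]
      exact Submodule.add_mem _ ha hb
  have hQ : ∀ (x : P) (y : Q), y ∈ (I • (⊤ : Submodule S Q)) →
      x ⊗ₜ[S] y ∈ (I • (⊤ : Submodule S (P ⊗[S] Q))) := by
    intro x y hy
    refine Submodule.smul_induction_on hy (fun c hc z _ => ?_) (fun a b ha hb => ?_)
    · rw [TensorProduct.tmul_smul]
      exact smul_mem_smul_top hc _
    · rw [TensorProduct.tmul_add]
      exact Submodule.add_mem _ ha hb
  induction t using TensorProduct.induction_on with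
  | zero => exact ⟨0, by rw [zero_smul, sub_zero]; exact Submodule.zero_mem _⟩
  | tmul x y =>
    obtain ⟨a, ha⟩ := hp x
    obtain ⟨b, hb⟩ := hp' y
    refine ⟨a * b, ?_⟩
    have h1 : x ⊗ₜ[S] y - (a * b) • (p ⊗ₜ[S] p') =
        (x - a • p) ⊗ₜ[S] y + (a • p) ⊗ₜ[S] (y - b • p') := by
      have h2 : (a * b) • (p ⊗ₜ[S] p') = (a • p) ⊗ₜ[S] (b • p') := by
        rw [TensorProduct.smul_tmul_smul]
      rw [h2, TensorProduct.sub_tmul, TensorProduct.tmul_sub]
      abel
    rw [h1]
    exact Submodule.add_mem _ (hP _ _ ha) (hQ _ _ hb)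
  | add x y hx hy =>
    obtain ⟨a, ha⟩ := hx
    obtain ⟨b, hb⟩ := hy
    refine ⟨a + b, ?_⟩
    have h1 : x + y - (a + b) • (p ⊗ₜ[S] p') =
        (x - a • (p ⊗ₜ[S] p')) + (y - b • (p ⊗ₜ[S] p')) := by
      rw [add_smul]
      abel
    rw [h1]
    exact Submodule.add_mem _ ha hb

/-- A linear form maps `I P` into `I`. -/
theorem apply_mem_of_mem_smul_top (l : P →ₗ[S] S) {x : P} (hx : x ∈ (I • (⊤ : Submodule S P))) :
    l x ∈ I := by
  refine Submodule.smul_induction_on hx (fun c hc z _ => ?_) (fun a b ha hb => ?_)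
  · rw [map_smul, smul_eq_mul]
    exact I.mul_mem_right _ hc
  · rw [map_add]
    exact I.add_mem ha hb

/-- The dual of an invertible module. -/
theorem IsCyc.dual [Module.Invertible S P] (h : IsCyc I P) : IsCyc I (Module.Dual S P) := by
  obtain ⟨p, hp⟩ := h
  obtain ⟨F, hF⟩ := H46i.exists_dual S P
  choose a ha using hp
  -- `lam p = 1` modulo `I`
  let lam : Module.Dual S P := ∑ i ∈ F, a i.2 • i.1
  have hlam : 1 - lam p ∈ I := by
    have h1 : (1 : S) - lam p = ∑ i ∈ F, i.1 (i.2 - a i.2 • p) := by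
      have h2 : ∀ i ∈ F, i.1 (i.2 - a i.2 • p) = i.1 i.2 - a i.2 * i.1 p := fun i _ => by
        rw [map_sub, map_smul, smul_eq_mul]
      rw [Finset.sum_congr rfl h2, Finset.sum_sub_distrib, hF]
      congr 1
      show (∑ i ∈ F, a i.2 • i.1) p = _
      rw [LinearMap.sum_apply]
      rfl
    rw [h1]
    exact Ideal.sum_mem I fun i _ => apply_mem_of_mem_smul_top i.1 (ha i.2)
  have hval : ∀ (nu : Module.Dual S P), (∀ q, nu q ∈ I) →
      nu ∈ (I • (⊤ : Submodule S (Module.Dual S P))) := by
    intro nu hnu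
    have h1 : nu = ∑ i ∈ F, nu i.2 • i.1 := by
      ext q
      rw [LinearMap.sum_apply]
      simp only [LinearMap.smul_apply, smul_eq_mul]
      conv_lhs => rw [← H46i.sum_dual hF q, map_sum]
      refine Finset.sum_congr rfl fun i _ => ?_
      rw [map_smul, smul_eq_mul, mul_comm]
    rw [h1]
    exact Submodule.sum_mem _ fun i _ => smul_mem_smul_top (hnu i.2) _
  refine ⟨lam, fun mu => ⟨mu p, hval _ fun q => ?_⟩⟩
  -- evaluate at `q = a q • p + x`, `x ∈ I P`
  have h1 : (mu - mu p • lam) q =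
      (mu - mu p • lam) (q - a q • p) + a q * (mu p * (1 - lam p)) := by
    have h2 : q = (q - a q • p) + a q • p := by abel
    conv_lhs => rw [h2, map_add, map_smul]
    congr 1
    rw [LinearMap.sub_apply, LinearMap.smul_apply, smul_eq_mul, smul_eq_mul]
    ring
  rw [h1]
  exact I.add_mem (apply_mem_of_mem_smul_top _ (ha q))
    (I.mul_mem_left _ (I.mul_mem_left _ hlam))

end Cyc

section Map

variable {S S' : Type u} [CommRing S] [CommRing S'] {I : Ideal S} {I' : Ideal S'}
  {P P' : Type u} [AddCommGroup P] [Module S P] [AddCommGroup P'] [Module S' P']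

/-- Base change. -/
theorem IsCyc.map (h : IsCyc I P) (τ : S →+* S') (hτ : ∀ c ∈ I, τ c ∈ I') (b : P →+ P')
    (hb : ∀ (c : S) (q : P), b (c • q) = τ c • b q)
    (hgen : Submodule.span S' (Set.range b) = ⊤) : IsCyc I' P' := by
  obtain ⟨p, hp⟩ := h
  have hI : ∀ x : P, x ∈ (I • (⊤ : Submodule S P)) → b x ∈ (I' • (⊤ : Submodule S' P')) := by
    intro x hx
    refine Submodule.smul_induction_on hx (fun c hc z _ => ?_) (fun x y hx hy => ?_)
    · rw [hb]
      exact smul_mem_smul_top (hτ c hc) _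
    · rw [map_add]
      exact Submodule.add_mem _ hx hy
  have hall : ∀ q' : P', ∃ a' : S', q' - a' • b p ∈ (I' • (⊤ : Submodule S' P')) := by
    intro q'
    have hq : q' ∈ Submodule.span S' (Set.range b) := by rw [hgen]; exact Submodule.mem_top
    induction hq using Submodule.span_induction with
    | mem x hx =>
      obtain ⟨q, rfl⟩ := hx
      obtain ⟨a, ha⟩ := hp q
      refine ⟨τ a, ?_⟩
      have h1 : b q - τ a • b p = b (q - a • p) := by rw [map_sub, hb]
      rw [h1]
      exact hI _ ha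
    | zero => exact ⟨0, by rw [zero_smul, sub_zero]; exact Submodule.zero_mem _⟩
    | add x y _ _ hx hy =>
      obtain ⟨a, ha⟩ := hx
      obtain ⟨c, hc⟩ := hy
      refine ⟨a + c, ?_⟩
      have h1 : x + y - (a + c) • b p = (x - a • b p) + (y - c • b p) := by
        rw [add_smul]
        abel
      rw [h1]
      exact Submodule.add_mem _ ha hc
    | smul c x _ hx =>
      obtain ⟨a, ha⟩ := hx
      refine ⟨c * a, ?_⟩
      have h1 : c • x - (c * a) • b p = c • (x - a • b p) := by
        rw [smul_sub, mul_smul]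
      rw [h1]
      exact Submodule.smul_mem _ c ha
  exact ⟨b p, hall⟩

end Map

end Fermat.Agent.S25.Trip.H60
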