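/-
S25 (row 24), package TRIP, leaf T-SMALLK (helper73): the isomorphism classes of triples over a
`k`-algebra form a small set.

`H73.stmt_SMALLK : Stmt_SMALLK`.

Proof.  The modules `P0`, `P1` of a triple are invertible, hence finitely generated; `P01` is
generated over `R ⊗ B01` by the image of `P0` (`surj0`, and `1 ⊗ x0` is a unit), hence finitely
generated as well.  So each of them is isomorphic to a quotient `(Fin n → A) ⧸ K`, and the triple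
is isomorphic to the triple on these quotients with the transported maps.  The index type
`Idx 𝒞 R : Type u` collects `n0, n1, n01`, the kernels `K0, K1, K01`, the maps `r0`, `r1` on the
quotients and the proofs of the axioms.
-/
import Fermat.Agent.S25.Trip.Defs

set_option autoImplicit false
set_option linter.style.haveILetI false
set_option linter.unusedSectionVars false

universe u

open TensorProduct

noncomputable section

namespace Fermat.Agent.S25.Trip.H73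

open Fermat.Agent.S25.LB

variable {k : Type u} [Field k]

/-- The index type of the standard triples: quotients of finite free modules. -/
structure Idx (𝒞 : CurveDatum k) (R : Type u) [CommRing R] [Algebra k R] : Type u where
  n0 : ℕ
  n1 : ℕ
  n01 : ℕ
  K0 : Submodule (R ⊗[k] 𝒞.B0) (Fin n0 → R ⊗[k] 𝒞.B0)
  K1 : Submodule (R ⊗[k] 𝒞.B1) (Fin n1 → R ⊗[k] 𝒞.B1)
  K01 : Submodule (R ⊗[k] 𝒞.B01) (Fin n01 → R ⊗[k] 𝒞.B01)
  r0 : ((Fin n0 → R ⊗[k] 𝒞.B0) ⧸ K0) →ₛₗ[𝒞.ι0 R] ((Fin n01 → R ⊗[k] 𝒞.B01) ⧸ K01)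
  r1 : ((Fin n1 → R ⊗[k] 𝒞.B1) ⧸ K1) →ₛₗ[𝒞.ι1 R] ((Fin n01 → R ⊗[k] 𝒞.B01) ⧸ K01)
  inv0 : Module.Invertible (R ⊗[k] 𝒞.B0) ((Fin n0 → R ⊗[k] 𝒞.B0) ⧸ K0)
  inv1 : Module.Invertible (R ⊗[k] 𝒞.B1) ((Fin n1 → R ⊗[k] 𝒞.B1) ⧸ K1)
  surj0 : ∀ m : (Fin n01 → R ⊗[k] 𝒞.B01) ⧸ K01, ∃ (n : ℕ) (p : (Fin n0 → R ⊗[k] 𝒞.B0) ⧸ K0),
    ((1 : R) ⊗ₜ[k] 𝒞.i0 𝒞.x0 : R ⊗[k] 𝒞.B01) ^ n • m = r0 p
  ker0 : ∀ p : (Fin n0 → R ⊗[k] 𝒞.B0) ⧸ K0, r0 p = 0 →
    ∃ n : ℕ, ((1 : R) ⊗ₜ[k] 𝒞.x0 : R ⊗[k] 𝒞.B0) ^ n • p = 0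
  surj1 : ∀ m : (Fin n01 → R ⊗[k] 𝒞.B01) ⧸ K01, ∃ (n : ℕ) (p : (Fin n1 → R ⊗[k] 𝒞.B1) ⧸ K1),
    ((1 : R) ⊗ₜ[k] 𝒞.i1 𝒞.z1 : R ⊗[k] 𝒞.B01) ^ n • m = r1 p
  ker1 : ∀ p : (Fin n1 → R ⊗[k] 𝒞.B1) ⧸ K1, r1 p = 0 →
    ∃ n : ℕ, ((1 : R) ⊗ₜ[k] 𝒞.z1 : R ⊗[k] 𝒞.B1) ^ n • p = 0

variable {𝒞 : CurveDatum k} {R : Type u} [CommRing R] [Algebra k R]

/-- The standard triple of an index. -/
def Idx.toTriple (a : Idx 𝒞 R) : Triple 𝒞 R where
  P0 := (Fin a.n0 → R ⊗[k] 𝒞.B0) ⧸ a.K0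
  P1 := (Fin a.n1 → R ⊗[k] 𝒞.B1) ⧸ a.K1
  P01 := (Fin a.n01 → R ⊗[k] 𝒞.B01) ⧸ a.K01
  r0 := a.r0
  r1 := a.r1
  inv0 := a.inv0
  inv1 := a.inv1
  surj0 := a.surj0
  ker0 := a.ker0
  surj1 := a.surj1
  ker1 := a.ker1

/-- A finitely generated module is a quotient of a finite free module. -/
theorem exists_quot_equiv (A : Type u) [CommRing A] (P : Type u) [AddCommGroup P] [Module A P]
    [Module.Finite A P] :
    ∃ (n : ℕ) (K : Submodule A (Fin n → A)), Nonempty (((Fin n → A) ⧸ K) ≃ₗ[A] P) := by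
  obtain ⟨n, f, hf⟩ := Module.Finite.exists_fin' A P
  exact ⟨n, LinearMap.ker f, ⟨f.quotKerEquivOfSurjective hf⟩⟩

/-- `P01` is finitely generated. -/
theorem finite01 (M : Triple 𝒞 R) : Module.Finite (R ⊗[k] 𝒞.B01) M.P01 := by
  classical
  haveI := M.inv0
  obtain ⟨S, hS⟩ := (Module.Finite.fg_top : (⊤ : Submodule (R ⊗[k] 𝒞.B0) M.P0).FG)
  refine ⟨⟨S.image M.r0, ?_⟩⟩
  rw [eq_top_iff]
  rintro m -
  obtain ⟨n, p, hp⟩ := M.surj0 m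
  have hp' : p ∈ Submodule.span (R ⊗[k] 𝒞.B0) (S : Set M.P0) := by
    rw [hS]; trivial
  have key : ∀ q ∈ Submodule.span (R ⊗[k] 𝒞.B0) (S : Set M.P0),
      M.r0 q ∈ Submodule.span (R ⊗[k] 𝒞.B01) ((S.image M.r0 : Finset M.P01) : Set M.P01) := by
    intro q hq
    induction hq using Submodule.span_induction with
    | mem x hx =>
      exact Submodule.subset_span (Finset.mem_coe.mpr (Finset.mem_image_of_mem _ hx))
    | zero => rw [map_zero]; exact Submodule.zero_mem _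
    | add x y _ _ hx hy => rw [map_add]; exact Submodule.add_mem _ hx hy
    | smul c x _ hx => rw [M.r0.map_smulₛₗ]; exact Submodule.smul_mem _ _ hx
  have h1 := key p hp'
  rw [← hp] at h1
  have h2 := Submodule.smul_mem _ (((1 : R) ⊗ₜ[k] 𝒞.i1 𝒞.z1 : R ⊗[k] 𝒞.B01) ^ n) h1
  rwa [smul_smul, ← mul_pow, mul_comm, Triple.unit_mul_unit, one_pow, one_smul] at h2

/-- **Transport of a triple** along linear equivalences onto standard quotients. -/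
theorem exists_idx (M : Triple 𝒞 R) : ∃ a : Idx 𝒞 R, Nonempty (Triple.Iso M a.toTriple) := by
  haveI := M.inv0
  haveI := M.inv1
  haveI := finite01 M
  obtain ⟨n0, K0, ⟨e0⟩⟩ := exists_quot_equiv (R ⊗[k] 𝒞.B0) M.P0
  obtain ⟨n1, K1, ⟨e1⟩⟩ := exists_quot_equiv (R ⊗[k] 𝒞.B1) M.P1
  obtain ⟨n01, K01, ⟨e01⟩⟩ := exists_quot_equiv (R ⊗[k] 𝒞.B01) M.P01
  let r0 : ((Fin n0 → R ⊗[k] 𝒞.B0) ⧸ K0) →ₛₗ[𝒞.ι0 R] ((Fin n01 → R ⊗[k] 𝒞.B01) ⧸ K01) :=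
    (e01.symm.toLinearMap).comp (M.r0.comp e0.toLinearMap)
  let r1 : ((Fin n1 → R ⊗[k] 𝒞.B1) ⧸ K1) →ₛₗ[𝒞.ι1 R] ((Fin n01 → R ⊗[k] 𝒞.B01) ⧸ K01) :=
    (e01.symm.toLinearMap).comp (M.r1.comp e1.toLinearMap)
  have hr0 : ∀ q, r0 q = e01.symm (M.r0 (e0 q)) := fun _ => rfl
  have hr1 : ∀ q, r1 q = e01.symm (M.r1 (e1 q)) := fun _ => rfl
  refine ⟨{ n0 := n0, n1 := n1, n01 := n01, K0 := K0, K1 := K1, K01 := K01, r0 := r0, r1 := r1
            inv0 := Module.Invertible.congr e0.symm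
            inv1 := Module.Invertible.congr e1.symm
            surj0 := ?_, ker0 := ?_, surj1 := ?_, ker1 := ?_ }, ⟨?_⟩⟩
  · intro m
    obtain ⟨n, p, hp⟩ := M.surj0 (e01 m)
    refine ⟨n, e0.symm p, ?_⟩
    rw [hr0, LinearEquiv.apply_symm_apply, ← hp, map_smul, LinearEquiv.symm_apply_apply]
  · intro p hp
    rw [hr0, LinearEquiv.map_eq_zero_iff] at hp
    obtain ⟨n, hn⟩ := M.ker0 _ hp
    refine ⟨n, ?_⟩
    rw [← map_smul, LinearEquiv.map_eq_zero_iff] at hn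
    exact hn
  · intro m
    obtain ⟨n, p, hp⟩ := M.surj1 (e01 m)
    refine ⟨n, e1.symm p, ?_⟩
    rw [hr1, LinearEquiv.apply_symm_apply, ← hp, map_smul, LinearEquiv.symm_apply_apply]
  · intro p hp
    rw [hr1, LinearEquiv.map_eq_zero_iff] at hp
    obtain ⟨n, hn⟩ := M.ker1 _ hp
    refine ⟨n, ?_⟩
    rw [← map_smul, LinearEquiv.map_eq_zero_iff] at hn
    exact hn
  · exact
      { e0 := e0.symm
        e1 := e1.symm
        e01 := e01.symm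
        comm0 := fun p => by
          show e01.symm (M.r0 p) = r0 (e0.symm p)
          rw [hr0, LinearEquiv.apply_symm_apply]
        comm1 := fun p => by
          show e01.symm (M.r1 p) = r1 (e1.symm p)
          rw [hr1, LinearEquiv.apply_symm_apply] }

/-- **T-SMALLK**. -/
theorem stmt_SMALLK : Stmt_SMALLK.{u} := by
  intro k _ 𝒞 R _ _
  exact ⟨Idx 𝒞 R, Idx.toTriple, fun M => exists_idx M⟩

end Fermat.Agent.S25.Trip.H73
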