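/-
S25 (row 24), package TRIP, leaf SJ-TWTENS (helper73): tensoring with `O(D)` is twisting by `D`.

`H73T.stmt_SJTWTENS : Stmt_SJTWTENS`:
for `E = U(D)` (`U` a unit triple, `D = (J0, J1)`) and every triple `M` over `k`:
`M ⊗ E = M(D)` and `M = (M ⊗ E^∨)(D)`.
Also `twist_tensor_ideal` (the form used by S-EFFPT): `A = U(-D)` ⟹ `X = (X ⊗ A)(D)`.

Abstract part (one chart): `A` a ring, `ι : U → E` injective with image `J • E`, `U` free on `u`,
`M` flat:
* `twA : M → M ⊗ E`, `m ↦ m ⊗ ι u` is injective with image `J • (M ⊗ E)`;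
* `twB : M ⊗ E^∨ → M`, `m ⊗ λ ↦ λ (ι u) • m` is injective with image `J • M` (`E` invertible);
* `twC : X ⊗ U' → X`, `x ⊗ a ↦ e (ι a) • x` is injective with image `J • X` (`ι : U' → U`).
-/
import Fermat.Agent.S25.Trip.DefsS

set_option autoImplicit false
set_option linter.style.haveILetI false
set_option linter.unusedSectionVars false

universe u

open TensorProduct

noncomputable section

namespace Fermat.Agent.S25.Trip.H73T

open Fermat.Agent.S25.LB Fermat.Agent.S25.Num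

/-! ### Abstract part -/

section Abstract

variable {A : Type u} [CommRing A] {U E M : Type u} [AddCommGroup U] [Module A U]
  [AddCommGroup E] [Module A E] [AddCommGroup M] [Module A M]

/-- `m ↦ m ⊗ v`. -/
def twA (A : Type u) [CommRing A] {E : Type u} [AddCommGroup E] [Module A E]
    (M : Type u) [AddCommGroup M] [Module A M] (v : E) : M →ₗ[A] M ⊗[A] E :=
  (TensorProduct.mk A M E).flip v

@[simp] theorem twA_apply (v : E) (m : M) : twA A M v m = m ⊗ₜ[A] v := rfl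

theorem gen_of_equiv (e : U ≃ₗ[A] A) (x : U) : x = e x • e.symm 1 := by
  rw [← map_smul, smul_eq_mul, mul_one, LinearEquiv.symm_apply_apply]

theorem twA_injective [Module.Flat A M] (ι : U →ₗ[A] E) (hι : Function.Injective ι)
    (e : U ≃ₗ[A] A) : Function.Injective (twA A M (ι (e.symm 1))) := by
  have h1 : Function.Injective (ι ∘ₗ e.symm.toLinearMap) := hι.comp e.symm.injective
  have h2 := Module.Flat.lTensor_preserves_injective_linearMap (M := M) _ h1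
  have h3 : twA A M (ι (e.symm 1)) =
      (LinearMap.lTensor M (ι ∘ₗ e.symm.toLinearMap)) ∘ₗ (TensorProduct.rid A M).symm.toLinearMap := by
    ext m
    simp [twA]
  rw [h3]
  exact h2.comp (TensorProduct.rid A M).symm.injective

theorem twA_range (ι : U →ₗ[A] E) (e : U ≃ₗ[A] A) (J : Ideal A)
    (hr : LinearMap.range ι = J • (⊤ : Submodule A E)) :
    LinearMap.range (twA A M (ι (e.symm 1))) = J • (⊤ : Submodule A (M ⊗[A] E)) := by
  apply le_antisymm
  · rintro _ ⟨m, rfl⟩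
    have h1 : ι (e.symm 1) ∈ J • (⊤ : Submodule A E) := by
      rw [← hr]; exact ⟨_, rfl⟩
    rw [twA_apply]
    refine Submodule.smul_induction_on h1 ?_ ?_
    · intro j hj v _
      rw [TensorProduct.tmul_smul]
      exact Submodule.smul_mem_smul hj Submodule.mem_top
    · intro x y hx hy
      rw [TensorProduct.tmul_add]
      exact Submodule.add_mem _ hx hy
  · rw [Submodule.smul_le]
    intro j hj t ht
    clear ht
    induction t using TensorProduct.induction_on with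
    | zero => rw [smul_zero]; exact Submodule.zero_mem _
    | tmul m v =>
      have h1 : j • v ∈ LinearMap.range ι := by
        rw [hr]; exact Submodule.smul_mem_smul hj Submodule.mem_top
      obtain ⟨x, hx⟩ := h1
      refine ⟨e x • m, ?_⟩
      rw [twA_apply, ← TensorProduct.tmul_smul, ← hx, TensorProduct.smul_tmul, ← map_smul,
        ← gen_of_equiv e x]
    | add x y hx hy => rw [smul_add]; exact Submodule.add_mem _ hx hy

/-- `m ⊗ λ ↦ λ v • m`. -/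
def twB (A : Type u) [CommRing A] {E : Type u} [AddCommGroup E] [Module A E]
    (M : Type u) [AddCommGroup M] [Module A M] (v : E) : M ⊗[A] Module.Dual A E →ₗ[A] M :=
  (TensorProduct.rid A M).toLinearMap ∘ₗ LinearMap.lTensor M (LinearMap.applyₗ v)

@[simp] theorem twB_tmul (v : E) (m : M) (l : Module.Dual A E) :
    twB A M v (m ⊗ₜ[A] l) = l v • m := by
  simp [twB]

theorem apply_mem_of_range (ι : U →ₗ[A] E) (J : Ideal A)
    (hr : LinearMap.range ι = J • (⊤ : Submodule A E)) (x : U) (l : Module.Dual A E) :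
    l (ι x) ∈ J := by
  have h1 : ι x ∈ J • (⊤ : Submodule A E) := by
    rw [← hr]; exact ⟨_, rfl⟩
  refine Submodule.smul_induction_on h1 ?_ ?_
  · intro j hj v _
    rw [map_smul, smul_eq_mul]
    exact Ideal.mul_mem_right _ _ hj
  · intro x y hx hy
    rw [map_add]
    exact Ideal.add_mem _ hx hy

theorem ev_injective (ι : U →ₗ[A] E) (hι : Function.Injective ι) (e : U ≃ₗ[A] A) (J : Ideal A)
    (hr : LinearMap.range ι = J • (⊤ : Submodule A E)) :
    Function.Injective (LinearMap.applyₗ (R := A) (M₂ := A) (ι (e.symm 1))) := by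
  rw [injective_iff_map_eq_zero]
  intro l hl
  have hl' : l (ι (e.symm 1)) = 0 := hl
  ext v
  rw [LinearMap.zero_apply]
  -- `J` kills `l v`
  have h1 : ∀ j ∈ J, j * l v = 0 := by
    intro j hj
    have h2 : j • v ∈ LinearMap.range ι := by
      rw [hr]; exact Submodule.smul_mem_smul hj Submodule.mem_top
    obtain ⟨x, hx⟩ := h2
    rw [← smul_eq_mul, ← map_smul, ← hx, gen_of_equiv e x, map_smul, map_smul, hl', smul_zero]
  -- hence `l v` kills the image of `ι`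
  have h3 : l v • ι (e.symm 1) = 0 := by
    have h4 : ι (e.symm 1) ∈ J • (⊤ : Submodule A E) := by
      rw [← hr]; exact ⟨_, rfl⟩
    refine Submodule.smul_induction_on h4 ?_ ?_
    · intro j hj w _
      rw [smul_smul, mul_comm, h1 j hj, zero_smul]
    · intro x y hx hy
      rw [smul_add, hx, hy, add_zero]
  rw [← map_smul] at h3
  have h5 := hι (h3.trans (map_zero ι).symm)
  have h6 := congrArg e h5
  rwa [map_smul, LinearEquiv.apply_symm_apply, smul_eq_mul, mul_one, map_zero] at h6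

theorem mem_range_ev [Module.Invertible A E] (ι : U →ₗ[A] E) (e : U ≃ₗ[A] A) (J : Ideal A)
    (hr : LinearMap.range ι = J • (⊤ : Submodule A E)) {j : A} (hj : j ∈ J) :
    ∃ l : Module.Dual A E, l (ι (e.symm 1)) = j := by
  obtain ⟨t, ht⟩ := (Module.Invertible.bijective (R := A) (M := E)).surjective 1
  have key : ∀ t : Module.Dual A E ⊗[A] E,
      ∃ l : Module.Dual A E, l (ι (e.symm 1)) = j * contractLeft A E t := by
    intro t
    induction t using TensorProduct.induction_on with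
    | zero => exact ⟨0, by rw [map_zero, mul_zero]; rfl⟩
    | tmul l v =>
      have h2 : j • v ∈ LinearMap.range ι := by
        rw [hr]; exact Submodule.smul_mem_smul hj Submodule.mem_top
      obtain ⟨x, hx⟩ := h2
      refine ⟨e x • l, ?_⟩
      rw [contractLeft_apply, LinearMap.smul_apply, ← map_smul, ← map_smul, ← gen_of_equiv e x, hx,
        map_smul, smul_eq_mul]
    | add x y hx hy =>
      obtain ⟨l1, h1⟩ := hx
      obtain ⟨l2, h2⟩ := hy
      exact ⟨l1 + l2, by rw [LinearMap.add_apply, h1, h2, map_add, mul_add]⟩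
  obtain ⟨l, hl⟩ := key t
  exact ⟨l, by rw [hl, ht, mul_one]⟩

theorem twB_injective [Module.Flat A M] (ι : U →ₗ[A] E) (hι : Function.Injective ι)
    (e : U ≃ₗ[A] A) (J : Ideal A) (hr : LinearMap.range ι = J • (⊤ : Submodule A E)) :
    Function.Injective (twB A M (ι (e.symm 1))) := by
  have h2 := Module.Flat.lTensor_preserves_injective_linearMap (M := M) _
    (ev_injective ι hι e J hr)
  exact (TensorProduct.rid A M).injective.comp h2

theorem twB_range [Module.Invertible A E] (ι : U →ₗ[A] E) (e : U ≃ₗ[A] A) (J : Ideal A)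
    (hr : LinearMap.range ι = J • (⊤ : Submodule A E)) :
    LinearMap.range (twB A M (ι (e.symm 1))) = J • (⊤ : Submodule A M) := by
  apply le_antisymm
  · rintro _ ⟨t, rfl⟩
    induction t using TensorProduct.induction_on with
    | zero => rw [map_zero]; exact Submodule.zero_mem _
    | tmul m l =>
      rw [twB_tmul]
      exact Submodule.smul_mem_smul (apply_mem_of_range ι J hr _ l) Submodule.mem_top
    | add x y hx hy => rw [map_add]; exact Submodule.add_mem _ hx hy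
  · rw [Submodule.smul_le]
    intro j hj m _
    obtain ⟨l, hl⟩ := mem_range_ev ι e J hr hj
    exact ⟨m ⊗ₜ[A] l, by rw [twB_tmul, hl]⟩

/-- `x ⊗ a ↦ f a • x`. -/
def twC (A : Type u) [CommRing A] {U : Type u} [AddCommGroup U] [Module A U]
    (X : Type u) [AddCommGroup X] [Module A X] (f : U →ₗ[A] A) : X ⊗[A] U →ₗ[A] X :=
  (TensorProduct.rid A X).toLinearMap ∘ₗ LinearMap.lTensor X f

@[simp] theorem twC_tmul (f : U →ₗ[A] A) (x : M) (a : U) : twC A M f (x ⊗ₜ[A] a) = f a • x := by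
  simp [twC]

theorem twC_injective [Module.Flat A M] (f : U →ₗ[A] A) (hf : Function.Injective f) :
    Function.Injective (twC A M f) :=
  (TensorProduct.rid A M).injective.comp
    (Module.Flat.lTensor_preserves_injective_linearMap (M := M) _ hf)

theorem twC_range (f : U →ₗ[A] A) (J : Ideal A) (hr : LinearMap.range f = J) :
    LinearMap.range (twC A M f) = J • (⊤ : Submodule A M) := by
  apply le_antisymm
  · rintro _ ⟨t, rfl⟩
    induction t using TensorProduct.induction_on with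
    | zero => rw [map_zero]; exact Submodule.zero_mem _
    | tmul m a =>
      rw [twC_tmul]
      exact Submodule.smul_mem_smul (by rw [← hr]; exact ⟨_, rfl⟩) Submodule.mem_top
    | add x y hx hy => rw [map_add]; exact Submodule.add_mem _ hx hy
  · rw [Submodule.smul_le]
    intro j hj m _
    rw [← hr] at hj
    obtain ⟨a, ha⟩ := hj
    exact ⟨m ⊗ₜ[A] a, by rw [twC_tmul, ha]⟩

/-- The image of `e ∘ ι` for `ι : U' → U` with image `J • U` and `e : U ≃ A`. -/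
theorem range_comp_equiv {U' : Type u} [AddCommGroup U'] [Module A U'] (ι : U' →ₗ[A] U)
    (e : U ≃ₗ[A] A) (J : Ideal A) (hr : LinearMap.range ι = J • (⊤ : Submodule A U)) :
    LinearMap.range (e.toLinearMap ∘ₗ ι) = J := by
  apply le_antisymm
  · rintro _ ⟨a, rfl⟩
    have h1 : ι a ∈ J • (⊤ : Submodule A U) := by
      rw [← hr]; exact ⟨_, rfl⟩
    show e (ι a) ∈ J
    refine Submodule.smul_induction_on h1 ?_ ?_
    · intro j hj v _
      rw [map_smul, smul_eq_mul]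
      exact Ideal.mul_mem_right _ _ hj
    · intro x y hx hy
      rw [map_add]
      exact Ideal.add_mem _ hx hy
  · intro j hj
    have h2 : j • e.symm 1 ∈ LinearMap.range ι := by
      rw [hr]; exact Submodule.smul_mem_smul hj Submodule.mem_top
    obtain ⟨a, ha⟩ := h2
    refine ⟨a, ?_⟩
    show e (ι a) = j
    rw [ha, map_smul, LinearEquiv.apply_symm_apply, smul_eq_mul, mul_one]

end Abstract

/-! ### Triples over `k` -/

section Triples

variable {k : Type u} [Field k] {𝒞 : CurveDatum k}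

theorem unit_r0 {U : Triple 𝒞 k} (e0 : U.P0 ≃ₗ[k ⊗[k] 𝒞.B0] (k ⊗[k] 𝒞.B0))
    (e01 : U.P01 ≃ₗ[k ⊗[k] 𝒞.B01] (k ⊗[k] 𝒞.B01))
    (h0 : ∀ p, e01 (U.r0 p) = 𝒞.ι0 k (e0 p)) : U.r0 (e0.symm 1) = e01.symm 1 := by
  rw [LinearEquiv.eq_symm_apply, h0, LinearEquiv.apply_symm_apply, map_one]

theorem unit_r1 {U : Triple 𝒞 k} (e1 : U.P1 ≃ₗ[k ⊗[k] 𝒞.B1] (k ⊗[k] 𝒞.B1))
    (e01 : U.P01 ≃ₗ[k ⊗[k] 𝒞.B01] (k ⊗[k] 𝒞.B01))
    (h1 : ∀ p, e01 (U.r1 p) = 𝒞.ι1 k (e1 p)) : U.r1 (e1.symm 1) = e01.symm 1 := by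
  rw [LinearEquiv.eq_symm_apply, h1, LinearEquiv.apply_symm_apply, map_one]

/-- The morphism `M → M ⊗ E`, `m ↦ m ⊗ ι(1)`. -/
def homA (h : 𝒞.IsGood) (M : Triple 𝒞 k) {U E : Triple 𝒞 k} (ι : Triple.Hom U E)
    (e0 : U.P0 ≃ₗ[k ⊗[k] 𝒞.B0] (k ⊗[k] 𝒞.B0)) (e1 : U.P1 ≃ₗ[k ⊗[k] 𝒞.B1] (k ⊗[k] 𝒞.B1))
    (e01 : U.P01 ≃ₗ[k ⊗[k] 𝒞.B01] (k ⊗[k] 𝒞.B01))
    (h0 : ∀ p, e01 (U.r0 p) = 𝒞.ι0 k (e0 p)) (h1 : ∀ p, e01 (U.r1 p) = 𝒞.ι1 k (e1 p)) :
    Triple.Hom M (H60.tensor M E h) where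
  f0 := twA (k ⊗[k] 𝒞.B0) M.P0 (ι.f0 (e0.symm 1))
  f1 := twA (k ⊗[k] 𝒞.B1) M.P1 (ι.f1 (e1.symm 1))
  f01 := twA (k ⊗[k] 𝒞.B01) M.P01 (ι.f01 (e01.symm 1))
  comm0 := fun p => by
    rw [twA_apply, twA_apply, H60.tensor_r0_tmul, ← ι.comm0, unit_r0 e0 e01 h0]
  comm1 := fun p => by
    rw [twA_apply, twA_apply, H60.tensor_r1_tmul, ← ι.comm1, unit_r1 e1 e01 h1]

/-- The morphism `M ⊗ E^∨ → M`, `m ⊗ λ ↦ λ(ι(1)) • m`. -/
def homB (h : 𝒞.IsGood) (M : Triple 𝒞 k) {U E : Triple 𝒞 k} (ι : Triple.Hom U E)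
    (e0 : U.P0 ≃ₗ[k ⊗[k] 𝒞.B0] (k ⊗[k] 𝒞.B0)) (e1 : U.P1 ≃ₗ[k ⊗[k] 𝒞.B1] (k ⊗[k] 𝒞.B1))
    (e01 : U.P01 ≃ₗ[k ⊗[k] 𝒞.B01] (k ⊗[k] 𝒞.B01))
    (h0 : ∀ p, e01 (U.r0 p) = 𝒞.ι0 k (e0 p)) (h1 : ∀ p, e01 (U.r1 p) = 𝒞.ι1 k (e1 p)) :
    Triple.Hom (H60.tensor M (H60.dual E h) h) M where
  f0 := twB (k ⊗[k] 𝒞.B0) M.P0 (ι.f0 (e0.symm 1))
  f1 := twB (k ⊗[k] 𝒞.B1) M.P1 (ι.f1 (e1.symm 1))
  f01 := twB (k ⊗[k] 𝒞.B01) M.P01 (ι.f01 (e01.symm 1))
  comm0 := fun t => by
    induction t using TensorProduct.induction_on with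
    | zero => rw [map_zero, map_zero, map_zero, map_zero]
    | tmul m l =>
      rw [H60.tensor_r0_tmul, twB_tmul, twB_tmul, M.r0.map_smulₛₗ, ← unit_r0 e0 e01 h0, ι.comm0,
        H60.dual_r0_apply]
    | add a b ha hb => rw [map_add, map_add, map_add, map_add, ha, hb]
  comm1 := fun t => by
    induction t using TensorProduct.induction_on with
    | zero => rw [map_zero, map_zero, map_zero, map_zero]
    | tmul m l =>
      rw [H60.tensor_r1_tmul, twB_tmul, twB_tmul, M.r1.map_smulₛₗ, ← unit_r1 e1 e01 h1, ι.comm1,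
        H60.dual_r1_apply]
    | add a b ha hb => rw [map_add, map_add, map_add, map_add, ha, hb]

/-- **SJ-TWTENS (a)**: `M ⊗ E = M(D)` for `E = U(D)`. -/
theorem isTwist_tensor (h : 𝒞.IsGood) (J0 : Ideal 𝒞.B0) (J1 : Ideal 𝒞.B1) (U E M : Triple 𝒞 k)
    (hU : IsUnitTriple U) (hE : IsTwist J0 J1 U E) : IsTwist J0 J1 M (H60.tensor M E h) := by
  obtain ⟨e0, e1, e01, h0, h1⟩ := hU
  obtain ⟨ι, hi0, hi1, hr0, hr1⟩ := hE
  haveI := M.inv0
  haveI := M.inv1
  exact ⟨homA h M ι e0 e1 e01 h0 h1, twA_injective ι.f0 hi0 e0, twA_injective ι.f1 hi1 e1,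
    twA_range ι.f0 e0 _ hr0, twA_range ι.f1 e1 _ hr1⟩

/-- **SJ-TWTENS (b)**: `M = (M ⊗ E^∨)(D)` for `E = U(D)`. -/
theorem isTwist_tensor_dual (h : 𝒞.IsGood) (J0 : Ideal 𝒞.B0) (J1 : Ideal 𝒞.B1)
    (U E M : Triple 𝒞 k) (hU : IsUnitTriple U) (hE : IsTwist J0 J1 U E) :
    IsTwist J0 J1 (H60.tensor M (H60.dual E h) h) M := by
  obtain ⟨e0, e1, e01, h0, h1⟩ := hU
  obtain ⟨ι, hi0, hi1, hr0, hr1⟩ := hE
  haveI := M.inv0
  haveI := M.inv1
  haveI := E.inv0
  haveI := E.inv1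
  exact ⟨homB h M ι e0 e1 e01 h0 h1, twB_injective ι.f0 hi0 e0 _ hr0,
    twB_injective ι.f1 hi1 e1 _ hr1, twB_range ι.f0 e0 _ hr0, twB_range ι.f1 e1 _ hr1⟩

/-- **SJ-TWTENS**. -/
theorem stmt_SJTWTENS : Stmt_SJTWTENS.{u} := by
  intro k _ _ 𝒞 h J0 J1 U E M hU hE
  exact ⟨isTwist_tensor h J0 J1 U E M hU hE, isTwist_tensor_dual h J0 J1 U E M hU hE⟩

/-- The morphism `X ⊗ A → X`, `x ⊗ a ↦ ι(a) • x` (for `ι : A → U`, `U` a unit triple). -/
def homC (h : 𝒞.IsGood) (X : Triple 𝒞 k) {A U : Triple 𝒞 k} (ι : Triple.Hom A U)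
    (e0 : U.P0 ≃ₗ[k ⊗[k] 𝒞.B0] (k ⊗[k] 𝒞.B0)) (e1 : U.P1 ≃ₗ[k ⊗[k] 𝒞.B1] (k ⊗[k] 𝒞.B1))
    (e01 : U.P01 ≃ₗ[k ⊗[k] 𝒞.B01] (k ⊗[k] 𝒞.B01))
    (h0 : ∀ p, e01 (U.r0 p) = 𝒞.ι0 k (e0 p)) (h1 : ∀ p, e01 (U.r1 p) = 𝒞.ι1 k (e1 p)) :
    Triple.Hom (H60.tensor X A h) X where
  f0 := twC (k ⊗[k] 𝒞.B0) X.P0 (e0.toLinearMap ∘ₗ ι.f0)
  f1 := twC (k ⊗[k] 𝒞.B1) X.P1 (e1.toLinearMap ∘ₗ ι.f1)
  f01 := twC (k ⊗[k] 𝒞.B01) X.P01 (e01.toLinearMap ∘ₗ ι.f01)
  comm0 := fun t => by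
    induction t using TensorProduct.induction_on with
    | zero => rw [map_zero, map_zero, map_zero, map_zero]
    | tmul x a =>
      rw [H60.tensor_r0_tmul, twC_tmul, twC_tmul, X.r0.map_smulₛₗ]
      show e01 (ι.f01 (A.r0 a)) • X.r0 x = 𝒞.ι0 k (e0 (ι.f0 a)) • X.r0 x
      rw [ι.comm0, h0]
    | add a b ha hb => rw [map_add, map_add, map_add, map_add, ha, hb]
  comm1 := fun t => by
    induction t using TensorProduct.induction_on with
    | zero => rw [map_zero, map_zero, map_zero, map_zero]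
    | tmul x a =>
      rw [H60.tensor_r1_tmul, twC_tmul, twC_tmul, X.r1.map_smulₛₗ]
      show e01 (ι.f01 (A.r1 a)) • X.r1 x = 𝒞.ι1 k (e1 (ι.f1 a)) • X.r1 x
      rw [ι.comm1, h1]
    | add a b ha hb => rw [map_add, map_add, map_add, map_add, ha, hb]

/-- **TWIST-TENSOR for ideal triples** (the form of S-EFFPT): `X = (X ⊗ A)(D)` for `A = U(-D)`. -/
theorem twist_tensor_ideal (h : 𝒞.IsGood) (J0 : Ideal 𝒞.B0) (J1 : Ideal 𝒞.B1)
    (A U X : Triple 𝒞 k) (hU : IsUnitTriple U) (hA : IsTwist J0 J1 A U) :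
    IsTwist J0 J1 (H60.tensor X A h) X := by
  obtain ⟨e0, e1, e01, h0, h1⟩ := hU
  obtain ⟨ι, hi0, hi1, hr0, hr1⟩ := hA
  haveI := X.inv0
  haveI := X.inv1
  exact ⟨homC h X ι e0 e1 e01 h0 h1,
    twC_injective _ (e0.injective.comp hi0), twC_injective _ (e1.injective.comp hi1),
    twC_range _ _ (range_comp_equiv ι.f0 e0 _ hr0), twC_range _ _ (range_comp_equiv ι.f1 e1 _ hr1)⟩

end Triples

end Fermat.Agent.S25.Trip.H73T
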