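/-
helper84, S25 (Jacobian exists), package TRIP part S, leaf SJ-CHART:
a point of the overlap has the same graph ideals in both charts (`Trip.Stmt_SJCHART`).

Proof: `S ⊗ B01` is the localisation of `S ⊗ B_i` at `1 ⊗ x0`, `1 ⊗ z1` (`H60.isLocRing0/1`), so every ideal of
`S ⊗ B01` is the extension of its contraction; applied to the kernel of the evaluation at `q01`.
-/
import Fermat.Agent.S25.Trip.DefsS
import Fermat.Agent.S25.LB.H60_Tens

set_option autoImplicit false
set_option linter.style.haveILetI false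
set_option linter.unusedSectionVars false

universe u

open Polynomial TensorProduct

namespace Fermat.Agent.S25.Trip.H84

open Fermat.Agent.S25.LB Fermat.Agent.S25.Chart Fermat.Agent.S25.Num

/-- For a localisation `φ : A → A'` at one element, the kernel of `E : A' → T` is the extension of the kernel
of `E ∘ φ`. -/
theorem map_ker_comp {A A' T : Type u} [CommRing A] [CommRing A'] [CommRing T] {φ : A →+* A'} {x : A}
    (h : H60.IsLocRing φ x) (E : A' →+* T) :
    Ideal.map φ (RingHom.ker (E.comp φ)) = RingHom.ker E := by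
  apply le_antisymm
  · rw [Ideal.map_le_iff_le_comap]
    intro a ha
    rw [Ideal.mem_comap, RingHom.mem_ker]
    rw [RingHom.mem_ker, RingHom.comp_apply] at ha
    exact ha
  · intro m hm
    rw [RingHom.mem_ker] at hm
    obtain ⟨n, a, hna⟩ := h.surj m
    have ha : a ∈ RingHom.ker (E.comp φ) := by
      rw [RingHom.mem_ker, RingHom.comp_apply, ← hna, map_mul, hm, mul_zero]
    have hφa : φ a ∈ Ideal.map φ (RingHom.ker (E.comp φ)) := Ideal.mem_map_of_mem φ ha
    obtain ⟨u, hu⟩ := h.unit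
    have hm' : m = ((u⁻¹ : A'ˣ) : A') ^ n * φ a := by
      rw [← hna, ← mul_assoc, ← mul_pow, ← hu, Units.inv_mul, one_pow, one_mul]
    rw [hm']
    exact Ideal.mul_mem_left _ _ hφa

variable {k : Type u} [Field k] {𝒞 : CurveDatum k} {S : Type u} [CommRing S] [Algebra k S]

/-- The evaluation at `q01 ∘ i0` is the evaluation at `q01` composed with `S ⊗ B0 → S ⊗ B01`. -/
theorem evalAt_comp_i0 (q01 : 𝒞.B01 →ₐ[k] S) :
    (evalAt (q01.comp 𝒞.i0)).toRingHom = (evalAt q01).toRingHom.comp (𝒞.ι0 S) := by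
  have h : (evalAt (q01.comp 𝒞.i0) : (S ⊗[k] 𝒞.B0) →ₐ[S] S) =
      (evalAt q01).comp (Algebra.TensorProduct.map (AlgHom.id S S) 𝒞.i0) := by
    apply Algebra.TensorProduct.ext'
    intro s b
    simp [evalAt]
  rw [h]
  rfl

/-- The evaluation at `q01 ∘ i1` is the evaluation at `q01` composed with `S ⊗ B1 → S ⊗ B01`. -/
theorem evalAt_comp_i1 (q01 : 𝒞.B01 →ₐ[k] S) :
    (evalAt (q01.comp 𝒞.i1)).toRingHom = (evalAt q01).toRingHom.comp (𝒞.ι1 S) := by
  have h : (evalAt (q01.comp 𝒞.i1) : (S ⊗[k] 𝒞.B1) →ₐ[S] S) =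
      (evalAt q01).comp (Algebra.TensorProduct.map (AlgHom.id S S) 𝒞.i1) := by
    apply Algebra.TensorProduct.ext'
    intro s b
    simp [evalAt]
  rw [h]
  rfl

/-- The extension to the overlap of the graph ideal of `q01 ∘ i0` is the graph ideal of `q01`. -/
theorem map_graphIdeal_i0 (h : 𝒞.IsGood) (q01 : 𝒞.B01 →ₐ[k] S) :
    Ideal.map (𝒞.ι0 S) (graphIdeal (q01.comp 𝒞.i0)) = graphIdeal q01 := by
  unfold graphIdeal
  rw [evalAt_comp_i0]
  exact map_ker_comp (H60.isLocRing0 S h) _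

/-- The extension to the overlap of the graph ideal of `q01 ∘ i1` is the graph ideal of `q01`. -/
theorem map_graphIdeal_i1 (h : 𝒞.IsGood) (q01 : 𝒞.B01 →ₐ[k] S) :
    Ideal.map (𝒞.ι1 S) (graphIdeal (q01.comp 𝒞.i1)) = graphIdeal q01 := by
  unfold graphIdeal
  rw [evalAt_comp_i1]
  exact map_ker_comp (H60.isLocRing1 S h) _

/-- The contraction to the chart `V0` of the graph ideal of `q01` is the graph ideal of `q01 ∘ i0`. -/
theorem comap_graphIdeal_i0 (q01 : 𝒞.B01 →ₐ[k] S) :
    Ideal.comap (𝒞.ι0 S) (graphIdeal q01) = graphIdeal (q01.comp 𝒞.i0) := by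
  unfold graphIdeal
  rw [evalAt_comp_i0, RingHom.comap_ker]

/-- The contraction to the chart `V1` of the graph ideal of `q01` is the graph ideal of `q01 ∘ i1`. -/
theorem comap_graphIdeal_i1 (q01 : 𝒞.B01 →ₐ[k] S) :
    Ideal.comap (𝒞.ι1 S) (graphIdeal q01) = graphIdeal (q01.comp 𝒞.i1) := by
  unfold graphIdeal
  rw [evalAt_comp_i1, RingHom.comap_ker]

/-- **SJ-CHART**: a point of the overlap has the same graph ideals in both charts. -/
theorem stmt_SJCHART : Stmt_SJCHART.{u} := by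
  intro k _ 𝒞 h S _ _ q01
  constructor
  · change graphIdeal (q01.comp 𝒞.i0)
      = Ideal.comap (𝒞.ι0 S) (Ideal.map (𝒞.ι1 S) (graphIdeal (q01.comp 𝒞.i1)))
    rw [map_graphIdeal_i1 h, comap_graphIdeal_i0]
  · change Ideal.comap (𝒞.ι1 S) (Ideal.map (𝒞.ι0 S) (graphIdeal (q01.comp 𝒞.i0)))
      = graphIdeal (q01.comp 𝒞.i1)
    rw [map_graphIdeal_i0 h, comap_graphIdeal_i1]

end Fermat.Agent.S25.Trip.H84
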