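/-
helper84, S25 (Jacobian exists), package TRIP part S, leaf SJ-RIGLOC:
every triple is rigid Zariski-locally on `Spec S` (`Trip.Stmt_SJRIGLOC`).

Proof: `P1` is an invertible `S ⊗ B1`-module; dual data `(λ_i, q_i)` with `∑ λ_i q_i = 1` (`H46i.exists_dual`);
evaluating at the base point gives `∑ e(λ_i q_i) = 1` in `S`, so for a prime `p` of `S` some
`r = e(λ_i q_i)` is not in `p`.  By the rank one identity `λ_i(q_i) q = λ_i(q) q_i`, and `λ_i(q_i) ≡ r ⊗ 1`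
modulo `I_e = ker e`; hence `q_i` generates `P1 / I_e P1` after inverting `r`.
-/
import Fermat.Agent.S25.Trip.DefsS
import Fermat.Agent.S25.LB.H36_BC
import Fermat.Agent.S25.Chart.H46_InvMod

set_option autoImplicit false
set_option linter.style.haveILetI false
set_option linter.unusedSectionVars false

universe u

open Polynomial TensorProduct

namespace Fermat.Agent.S25.Trip.H84

open Fermat.Agent.S25.LB Fermat.Agent.S25.Chart Fermat.Agent.S25.Num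

variable {k : Type u} [Field k] {𝒞 : CurveDatum k} {S : Type u} [CommRing S] [Algebra k S]

/-- The base point evaluates `r ⊗ 1` to `r`. -/
theorem eR_tmul_one (r : S) : (𝒞.eR S) ((r ⊗ₜ[k] (1 : 𝒞.B1) : S ⊗[k] 𝒞.B1)) = r := by
  simp [CurveDatum.eR]

/-- Local generator of `P1 / I_e P1`: for every prime `p` of `S` there are `r ∉ p` and `m : P1` with
`(r ⊗ 1) q ∈ (S ⊗ B1) m + I_e P1` for all `q`. -/
theorem exists_gen_mod (N : Triple 𝒞 S) (p : PrimeSpectrum S) :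
    ∃ (r : S) (m : N.P1), r ∉ p.asIdeal ∧ ∀ q : N.P1, ∃ a : S ⊗[k] 𝒞.B1,
      (r ⊗ₜ[k] (1 : 𝒞.B1) : S ⊗[k] 𝒞.B1) • q - a • m ∈
        (RingHom.ker (𝒞.eR S).toRingHom • (⊤ : Submodule (S ⊗[k] 𝒞.B1) N.P1)) := by
  haveI := N.inv1
  obtain ⟨F, hF⟩ := H46i.exists_dual (S ⊗[k] 𝒞.B1) N.P1
  have h1 : ∑ i ∈ F, (𝒞.eR S) (i.1 i.2) = 1 := by
    rw [← map_sum, hF, map_one]
  have h2 : ∃ i ∈ F, (𝒞.eR S) (i.1 i.2) ∉ p.asIdeal := by
    by_contra hcon
    have hcon' : ∀ i ∈ F, (𝒞.eR S) (i.1 i.2) ∈ p.asIdeal :=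
      fun i hi => by_contra fun hni => hcon ⟨i, hi, hni⟩
    have h3 : (1 : S) ∈ p.asIdeal := by
      rw [← h1]
      exact Ideal.sum_mem _ hcon'
    exact p.isPrime.ne_top ((Ideal.eq_top_iff_one _).2 h3)
  obtain ⟨i, -, hr⟩ := h2
  refine ⟨(𝒞.eR S) (i.1 i.2), i.2, hr, fun q => ⟨i.1 q, ?_⟩⟩
  have h4 : ((𝒞.eR S) (i.1 i.2) ⊗ₜ[k] (1 : 𝒞.B1) : S ⊗[k] 𝒞.B1) • q - i.1 q • i.2
      = (((𝒞.eR S) (i.1 i.2) ⊗ₜ[k] (1 : 𝒞.B1) : S ⊗[k] 𝒞.B1) - i.1 i.2) • q := by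
    rw [sub_smul, H46i.rank_one i.1 i.2 q]
  rw [h4]
  refine Submodule.smul_mem_smul ?_ trivial
  rw [RingHom.mem_ker]
  change (𝒞.eR S) (((𝒞.eR S) (i.1 i.2) ⊗ₜ[k] (1 : 𝒞.B1) : S ⊗[k] 𝒞.B1) - i.1 i.2) = 0
  rw [map_sub, eR_tmul_one, sub_self]

section BCpart

variable {S' : Type u} [CommRing S'] [Algebra k S']

/-- The base points are compatible with base change. -/
theorem eR_tmap (φ : S →ₐ[k] S') (c : S ⊗[k] 𝒞.B1) :
    (𝒞.eR S') (tmap φ 𝒞.B1 c) = φ ((𝒞.eR S) c) := by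
  induction c using TensorProduct.induction_on with
  | zero => simp
  | tmul s b =>
    simp only [tmap, CurveDatum.eR, Algebra.TensorProduct.map_tmul, Algebra.TensorProduct.lift_tmul,
      AlgHom.coe_id, id_eq, AlgHom.coe_comp, Function.comp_apply, map_mul]
    congr 1
    simp [Algebra.ofId_apply]
  | add x y hx hy => simp only [map_add, hx, hy]

/-- A base change maps `I_e P1` into `I_e' P1'`. -/
theorem b1_mem_smul (φ : S →ₐ[k] S') (N : Triple 𝒞 S) (N' : Triple 𝒞 S') (β : BC φ N N') (w : N.P1)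
    (hw : w ∈ (RingHom.ker (𝒞.eR S).toRingHom • (⊤ : Submodule (S ⊗[k] 𝒞.B1) N.P1))) :
    β.b1 w ∈ (RingHom.ker (𝒞.eR S').toRingHom • (⊤ : Submodule (S' ⊗[k] 𝒞.B1) N'.P1)) := by
  refine Submodule.smul_induction_on
    (p := fun w => β.b1 w ∈
      (RingHom.ker (𝒞.eR S').toRingHom • (⊤ : Submodule (S' ⊗[k] 𝒞.B1) N'.P1))) hw ?_ ?_
  · intro i hi x _
    change β.b1 (i • x) ∈ _
    rw [β.semi1]
    refine Submodule.smul_mem_smul ?_ trivial
    rw [RingHom.mem_ker] at hi ⊢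
    change (𝒞.eR S') (tmap φ 𝒞.B1 i) = 0
    rw [eR_tmap]
    change φ ((𝒞.eR S).toRingHom i) = 0
    rw [hi, map_zero]
  · intro x y hx hy
    rw [map_add]
    exact Submodule.add_mem _ hx hy

end BCpart

/-- A base change to `S[1/r]` of a triple with a generator of `P1 / I_e P1` up to `r` is rigid. -/
theorem isRigid_of_gen (N : Triple 𝒞 S) (r : S) (m : N.P1)
    (hm : ∀ q : N.P1, ∃ a : S ⊗[k] 𝒞.B1,
      (r ⊗ₜ[k] (1 : 𝒞.B1) : S ⊗[k] 𝒞.B1) • q - a • m ∈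
        (RingHom.ker (𝒞.eR S).toRingHom • (⊤ : Submodule (S ⊗[k] 𝒞.B1) N.P1)))
    (Nr : Triple 𝒞 (Localization.Away r)) (β : BC (awayMap r) N Nr) : Nr.IsRigid := by
  refine ⟨β.b1 m, ?_⟩
  set I' : Submodule (Localization.Away r ⊗[k] 𝒞.B1) Nr.P1 :=
    (RingHom.ker (𝒞.eR (Localization.Away r)).toRingHom •
      (⊤ : Submodule (Localization.Away r ⊗[k] 𝒞.B1) Nr.P1)) with hI'
  set G : Submodule (Localization.Away r ⊗[k] 𝒞.B1) Nr.P1 :=
    I' ⊔ Submodule.span (Localization.Away r ⊗[k] 𝒞.B1) {β.b1 m} with hG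
  have hGmem : ∀ q' : Nr.P1, q' ∈ G →
      ∃ a' : Localization.Away r ⊗[k] 𝒞.B1, q' - a' • β.b1 m ∈ I' := by
    intro q' hq'
    obtain ⟨y, hy, z, hz, rfl⟩ := Submodule.mem_sup.1 hq'
    obtain ⟨a', rfl⟩ := Submodule.mem_span_singleton.1 hz
    exact ⟨a', by rwa [add_sub_cancel_right]⟩
  -- the unit
  have hunit : ((IsLocalization.Away.invSelf (S := Localization.Away r) r) ⊗ₜ[k] (1 : 𝒞.B1) :
        Localization.Away r ⊗[k] 𝒞.B1) * tmap (awayMap r) 𝒞.B1 (r ⊗ₜ[k] (1 : 𝒞.B1)) = 1 := by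
    have h1 : tmap (awayMap r) 𝒞.B1 (r ⊗ₜ[k] (1 : 𝒞.B1))
        = (algebraMap S (Localization.Away r) r ⊗ₜ[k] (1 : 𝒞.B1) :
          Localization.Away r ⊗[k] 𝒞.B1) := by
      simp [tmap, awayMap]
    rw [h1, Algebra.TensorProduct.tmul_mul_tmul, mul_one, mul_comm,
      IsLocalization.Away.mul_invSelf]
    rfl
  have hrange : ∀ q : N.P1, β.b1 q ∈ G := by
    intro q
    obtain ⟨a, ha⟩ := hm q
    have hb := b1_mem_smul (awayMap r) N Nr β _ ha
    rw [map_sub, β.semi1, β.semi1] at hb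
    have h2 : β.b1 q
        = ((IsLocalization.Away.invSelf (S := Localization.Away r) r) ⊗ₜ[k] (1 : 𝒞.B1) :
            Localization.Away r ⊗[k] 𝒞.B1) •
            (tmap (awayMap r) 𝒞.B1 (r ⊗ₜ[k] (1 : 𝒞.B1)) • β.b1 q
              - tmap (awayMap r) 𝒞.B1 a • β.b1 m)
          + (((IsLocalization.Away.invSelf (S := Localization.Away r) r) ⊗ₜ[k] (1 : 𝒞.B1) :
            Localization.Away r ⊗[k] 𝒞.B1) * tmap (awayMap r) 𝒞.B1 a) • β.b1 m := by
      rw [smul_sub, smul_smul, smul_smul, hunit, one_smul, sub_add_cancel]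
    rw [h2]
    refine Submodule.add_mem _ (Submodule.mem_sup_left (Submodule.smul_mem _ _ hb))
      (Submodule.mem_sup_right (Submodule.smul_mem _ _ (Submodule.mem_span_singleton_self _)))
  have htop : G = ⊤ := by
    rw [eq_top_iff, ← β.gen1]
    exact Submodule.span_le.2 (by rintro _ ⟨q, rfl⟩; exact hrange q)
  intro q'
  exact hGmem q' (htop ▸ Submodule.mem_top)

/-- **Strong form**: for every prime `p` of `S` there is `r ∉ p` such that EVERY base change of `N` along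
`S → S[1/r]` is rigid (no hypothesis on the curve datum). -/
theorem exists_forall_bc_isRigid (N : Triple 𝒞 S) (p : PrimeSpectrum S) :
    ∃ r : S, r ∉ p.asIdeal ∧
      ∀ Nr : Triple 𝒞 (Localization.Away r), BC (awayMap r) N Nr → Nr.IsRigid := by
  obtain ⟨r, m, hr, hm⟩ := exists_gen_mod N p
  exact ⟨r, hr, fun Nr β => isRigid_of_gen N r m hm Nr β⟩

/-- **SJ-RIGLOC**: every triple is rigid Zariski-locally on `Spec S`. -/
theorem stmt_SJRIGLOC : Stmt_SJRIGLOC.{u} := by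
  intro k _ 𝒞 h S _ _ N p
  obtain ⟨r, m, hr, hm⟩ := exists_gen_mod N p
  obtain ⟨Nr, ⟨β⟩⟩ := H36.stmt_BCEX k 𝒞 h S (Localization.Away r) (awayMap r) N
  exact ⟨r, hr, Nr, ⟨β⟩, isRigid_of_gen N r m hm Nr β⟩

end Fermat.Agent.S25.Trip.H84
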