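import Fermat.Agent.S25.Trip.H85_SjGraph
import Fermat.Agent.S25.Chart.H59_Coord

/-!
# S25, package TRIP, leaf SJ-GRAPH, closed (helper85)

`stmt_SJGRAPH : Trip.Stmt_SJGRAPH`, unconditional: `H85.sjgraph_of` + helper59's `H59.stmt_COORD`.
-/

set_option autoImplicit false
universe u

namespace Fermat.Agent.S25.Trip.H85

/-- **SJ-GRAPH**, unconditional. -/
theorem stmt_SJGRAPH : Stmt_SJGRAPH.{u} := sjgraph_of Chart.H59.stmt_COORD

end Fermat.Agent.S25.Trip.H85
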