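import Fermat.Agent.S25.Trip.Defs
import Fermat.Agent.S25.LB.H74_Hom
import Fermat.Agent.S25.LB.H60_TensBC
import Fermat.Agent.S25.LB.H36_BCDataX
import Fermat.Agent.S25.LB.H36_BC
import Fermat.Agent.S25.LB.H7_VB
import Fermat.Agent.S25.Chart.H46_InvMod

/-!
# S25, package TRIP, leaf TRIP-TRIV (helper85)

`triv_of : Stmt_GRAUERT → Stmt_TRIV`: over a reduced ring `R`, a triple `N` such that `N` and its dual
have constant `h1` on the fibres and whose fibre at the `k`-point `t` is trivial, is trivial on a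
neighbourhood `D(a)` of `t`.

* `h0_unitR` : `H0(C_R, O) = R` (flat base change of `IsGood.h0`, through a `k`-basis of `R`);
* `exists_lift_section` : sections of the fibre at `t` lift, if `H0` commutes with base change
  (`Stmt_BCDATAX`);
* `dual_r0_eq`, `dual_r1_eq` : the restriction maps of the dual triple;
* `trivOn_of_pairing` : a section `s` of `N` and a section `s'` of the dual with `s'(s) = a ∈ R`
  trivialise `N` over `R[1/a]` (rank one identity + `H74.isoOfSurjective`).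
-/

set_option autoImplicit false
universe u
open TensorProduct

namespace Fermat.Agent.S25.Trip.H85

open Fermat.Agent.S25.LB Fermat.Agent.S25.Chart Fermat.Agent.S25.Num

section Flat

variable {k : Type u} [Field k] (R : Type u) [CommRing R] [Algebra k R]
  {M M' : Type u} [AddCommGroup M] [Module k M] [AddCommGroup M'] [Module k M']

/-- naturality of the coordinates of `R ⊗ M` in a basis of `R` -/
theorem equivFinsupp_lTensor {ι : Type*} [DecidableEq ι] (ℬ : Module.Basis ι k R) (f : M →ₗ[k] M')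
    (c : R ⊗[k] M) (i : ι) :
    TensorProduct.equivFinsuppOfBasisLeft ℬ (LinearMap.lTensor R f c) i =
      f (TensorProduct.equivFinsuppOfBasisLeft ℬ c i) := by
  induction c using TensorProduct.induction_on with
  | zero => simp
  | tmul r m =>
    rw [LinearMap.lTensor_tmul, TensorProduct.equivFinsuppOfBasisLeft_apply_tmul_apply,
      TensorProduct.equivFinsuppOfBasisLeft_apply_tmul_apply, map_smul]
  | add x y hx hy =>
    rw [map_add, map_add, Finsupp.add_apply, hx, hy, map_add, Finsupp.add_apply, map_add]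

/-- flat base change of an "equaliser is `k`" statement -/
theorem eq_tmul_of_eqLocus {M0 M1 M01 : Type u} [AddCommGroup M0] [Module k M0]
    [AddCommGroup M1] [Module k M1] [AddCommGroup M01] [Module k M01]
    (i0 : M0 →ₗ[k] M01) (i1 : M1 →ₗ[k] M01) (e : M0)
    (h0 : ∀ (b0 : M0) (b1 : M1), i0 b0 = i1 b1 → ∃ c : k, b0 = c • e)
    (c0 : R ⊗[k] M0) (c1 : R ⊗[k] M1)
    (hc : LinearMap.lTensor R i0 c0 = LinearMap.lTensor R i1 c1) :
    ∃ a : R, c0 = a ⊗ₜ[k] e := by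
  classical
  let ℬ := Module.Free.chooseBasis k R
  have key : ∀ i, ∃ c : k, TensorProduct.equivFinsuppOfBasisLeft ℬ c0 i = c • e := by
    intro i
    apply h0 _ (TensorProduct.equivFinsuppOfBasisLeft ℬ c1 i)
    rw [← equivFinsupp_lTensor R ℬ i0 c0 i, ← equivFinsupp_lTensor R ℬ i1 c1 i, hc]
  choose lam hlam using key
  refine ⟨∑ i ∈ (TensorProduct.equivFinsuppOfBasisLeft ℬ c0).support, lam i • ℬ i, ?_⟩
  apply (TensorProduct.equivFinsuppOfBasisLeft ℬ).injective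
  ext i
  rw [TensorProduct.equivFinsuppOfBasisLeft_apply_tmul_apply, map_sum, Finset.sum_apply',
    Finset.sum_smul]
  simp only [map_smul, Module.Basis.repr_self, Finsupp.smul_apply, Finsupp.single_apply,
    smul_eq_mul, mul_ite, mul_one, mul_zero, ite_smul, zero_smul]
  rw [Finset.sum_ite_eq']
  split_ifs with hi
  · exact hlam i
  · exact Finsupp.notMem_support_iff.mp hi

end Flat

variable {k : Type u} [Field k] {𝒞 : CurveDatum k} {R : Type u} [CommRing R] [Algebra k R]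

/-- **`H0(C_R, O) = R`**. -/
theorem h0_unitR (h : 𝒞.IsGood) (c0 : R ⊗[k] 𝒞.B0) (c1 : R ⊗[k] 𝒞.B1)
    (hc : 𝒞.ι0 R c0 = 𝒞.ι1 R c1) :
    ∃ a : R, c0 = a ⊗ₜ[k] (1 : 𝒞.B0) ∧ c1 = a ⊗ₜ[k] (1 : 𝒞.B1) := by
  rw [H60.ι0_eq_lTensor, H60.ι1_eq_lTensor] at hc
  obtain ⟨a, ha⟩ := eq_tmul_of_eqLocus R 𝒞.i0.toLinearMap 𝒞.i1.toLinearMap (1 : 𝒞.B0)
    (fun b0 b1 hb => by
      obtain ⟨c, hc⟩ := h.h0 b0 b1 hb
      exact ⟨c, by rw [hc, Algebra.algebraMap_eq_smul_one]⟩) c0 c1 hc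
  refine ⟨a, ha, ?_⟩
  apply H60.ι1_injective R h
  rw [H60.ι1_eq_lTensor, ← hc, ha, H60.ι1_eq_lTensor, LinearMap.lTensor_tmul,
    LinearMap.lTensor_tmul]
  congr 1
  change 𝒞.i0 1 = 𝒞.i1 1
  rw [map_one, map_one]

/-- lifting a section of the fibre at a `k`-point, if `H0` commutes with base change -/
theorem exists_lift_section (h : 𝒞.IsGood) (N : Triple 𝒞 R) (t : R →ₐ[k] k) (Nt : Triple 𝒞 k)
    (β : BC t N Nt)
    (hbc : letI : Algebra R k := t.toRingHom.toAlgebra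
      ∃ e : k ⊗[R] N.toData.H0 ≃ₗ[k] (N.toData.baseChange k).H0,
        ∀ (a : k) (x : N.toData.H0), (e (a ⊗ₜ[R] x)).1 = (a ⊗ₜ[R] x.1.1, a ⊗ₜ[R] x.1.2))
    (u0 : Nt.P0) (u1 : Nt.P1) (hu : Nt.r0 u0 = Nt.r1 u1) :
    ∃ (s0 : N.P0) (s1 : N.P1), N.r0 s0 = N.r1 s1 ∧ β.b0 s0 = u0 ∧ β.b1 s1 = u1 := by
  let _ : Algebra R k := t.toRingHom.toAlgebra
  obtain ⟨E, hE0, hE1, -⟩ := H36.stmt_BCDATAX k 𝒞 h R k t N Nt β
  obtain ⟨e, he⟩ := hbc
  have hw : (E.e0.symm u0, E.e1.symm u1) ∈ (N.toData.baseChange k).H0 := by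
    rw [P1.Data.mem_H0]
    apply E.e01.injective
    rw [E.e_j0, E.e_j1, LinearEquiv.apply_symm_apply, LinearEquiv.apply_symm_apply]
    exact hu
  obtain ⟨y, hy⟩ := e.surjective ⟨_, hw⟩
  have hsurj : Function.Surjective (algebraMap R k) := fun c => ⟨algebraMap k R c, t.commutes c⟩
  obtain ⟨x, rfl⟩ := TensorProduct.mk_surjective R N.toData.H0 k hsurj y
  have h1 := he 1 x
  rw [TensorProduct.mk_apply] at hy
  rw [hy] at h1
  refine ⟨x.1.1, x.1.2, x.2, ?_, ?_⟩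
  · have h2 : E.e0.symm u0 = (1 : k) ⊗ₜ[R] x.1.1 := congrArg Prod.fst h1
    have h3 := hE0 1 x.1.1
    rw [← h2, LinearEquiv.apply_symm_apply] at h3
    rw [h3]
    exact (one_smul _ _).symm
  · have h2 : E.e1.symm u1 = (1 : k) ⊗ₜ[R] x.1.2 := congrArg Prod.snd h1
    have h3 := hE1 1 x.1.2
    rw [← h2, LinearEquiv.apply_symm_apply] at h3
    rw [h3]
    exact (one_smul _ _).symm

/-- a linear form on the overlap which restricts to `l` on the first chart is `r0 l` -/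
theorem dual_r0_eq (h : 𝒞.IsGood) (L : Triple 𝒞 R) (l : Module.Dual (R ⊗[k] 𝒞.B0) L.P0)
    (l01 : Module.Dual (R ⊗[k] 𝒞.B01) L.P01) (hl : ∀ p, l01 (L.r0 p) = 𝒞.ι0 R (l p)) :
    (H60.dual L h).r0 l = l01 := by
  apply LinearMap.ext
  intro m
  obtain ⟨n, p, hp⟩ := L.surj0 m
  obtain ⟨u, hu⟩ := (H74.isUnit_XX 𝒞 R).pow n
  have h1 : (H60.dual L h).r0 l (L.r0 p) = l01 (L.r0 p) := by
    rw [H60.dual_r0_apply, hl]
  rw [← hp, ← hu] at h1
  have h2 : (u : R ⊗[k] 𝒞.B01) * (H60.dual L h).r0 l m = (u : R ⊗[k] 𝒞.B01) * l01 m := by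
    rw [← smul_eq_mul, ← smul_eq_mul, ← map_smul, ← map_smul]
    exact h1
  exact u.isUnit.mul_left_cancel h2

/-- a linear form on the overlap which restricts to `l` on the second chart is `r1 l` -/
theorem dual_r1_eq (h : 𝒞.IsGood) (L : Triple 𝒞 R) (l : Module.Dual (R ⊗[k] 𝒞.B1) L.P1)
    (l01 : Module.Dual (R ⊗[k] 𝒞.B01) L.P01) (hl : ∀ p, l01 (L.r1 p) = 𝒞.ι1 R (l p)) :
    (H60.dual L h).r1 l = l01 := by
  apply LinearMap.ext
  intro m
  obtain ⟨n, p, hp⟩ := L.surj1 m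
  have hZ : IsUnit ((1 : R) ⊗ₜ[k] 𝒞.i1 𝒞.z1 : R ⊗[k] 𝒞.B01) :=
    IsUnit.of_mul_eq_one _ ((mul_comm _ _).trans (Triple.unit_mul_unit 𝒞 R))
  obtain ⟨u, hu⟩ := hZ.pow n
  have h1 : (H60.dual L h).r1 l (L.r1 p) = l01 (L.r1 p) := by
    rw [H60.dual_r1_apply, hl]
  rw [← hp, ← hu] at h1
  have h2 : (u : R ⊗[k] 𝒞.B01) * (H60.dual L h).r1 l m = (u : R ⊗[k] 𝒞.B01) * l01 m := by
    rw [← smul_eq_mul, ← smul_eq_mul, ← map_smul, ← map_smul]
    exact h1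
  exact u.isUnit.mul_left_cancel h2

/-- **the splitting step**: a section `s` of `N` and a section `(φ0, φ1)` of the dual which pair to
`a ∈ R` trivialise `N` on `D(a)`. -/
theorem trivOn_of_pairing (h : 𝒞.IsGood) (N : Triple 𝒞 R) (s0 : N.P0) (s1 : N.P1)
    (hs : N.r0 s0 = N.r1 s1) (φ0 : Module.Dual (R ⊗[k] 𝒞.B0) N.P0)
    (φ1 : Module.Dual (R ⊗[k] 𝒞.B1) N.P1) (a : R)
    (h0 : φ0 s0 = a ⊗ₜ[k] (1 : 𝒞.B0)) (h1 : φ1 s1 = a ⊗ₜ[k] (1 : 𝒞.B1)) : TrivOn h N a := by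
  obtain ⟨Nr, ⟨γ⟩⟩ := H36.stmt_BCEX k 𝒞 h R (Localization.Away a) (awayMap a) N
  have hσ : Nr.r0 (γ.b0 s0) = Nr.r1 (γ.b1 s1) := by
    rw [← γ.comm0, ← γ.comm1, hs]
  have hunit : IsUnit (algebraMap R (Localization.Away a) a) :=
    IsLocalization.Away.algebraMap_isUnit a
  let f : Triple.Hom (H60.unitTriple 𝒞 (Localization.Away a) h) Nr :=
    { f0 := LinearMap.toSpanSingleton _ _ (γ.b0 s0)
      f1 := LinearMap.toSpanSingleton _ _ (γ.b1 s1)
      f01 := LinearMap.toSpanSingleton _ _ (Nr.r0 (γ.b0 s0))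
      comm0 := fun c => by
        change (𝒞.ι0 (Localization.Away a) c) • Nr.r0 (γ.b0 s0) = Nr.r0 (c • γ.b0 s0)
        rw [Nr.r0.map_smulₛₗ]
      comm1 := fun c => by
        change (𝒞.ι1 (Localization.Away a) c) • Nr.r0 (γ.b0 s0) = Nr.r1 (c • γ.b1 s1)
        rw [Nr.r1.map_smulₛₗ, hσ] }
  have surj0 : Function.Surjective f.f0 := by
    have := N.inv0
    rw [← LinearMap.range_eq_top, eq_top_iff, ← γ.gen0, Submodule.span_le]
    rintro _ ⟨p, rfl⟩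
    have hr := H46i.rank_one φ0 s0 p
    rw [h0] at hr
    have hb := congrArg γ.b0 hr
    rw [γ.semi0, γ.semi0] at hb
    have hu : IsUnit (tmap (awayMap a) 𝒞.B0 (a ⊗ₜ[k] (1 : 𝒞.B0))) :=
      hunit.map (Algebra.TensorProduct.includeLeft :
        Localization.Away a →ₐ[k] (Localization.Away a) ⊗[k] 𝒞.B0)
    obtain ⟨u, hu⟩ := hu
    refine ⟨(↑u⁻¹ : (Localization.Away a) ⊗[k] 𝒞.B0) * tmap (awayMap a) 𝒞.B0 (φ0 p), ?_⟩
    change ((↑u⁻¹ : (Localization.Away a) ⊗[k] 𝒞.B0) * tmap (awayMap a) 𝒞.B0 (φ0 p)) • γ.b0 s0 =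
      γ.b0 p
    rw [mul_smul, ← hb, ← hu, smul_smul, Units.inv_mul, one_smul]
  have surj1 : Function.Surjective f.f1 := by
    have := N.inv1
    rw [← LinearMap.range_eq_top, eq_top_iff, ← γ.gen1, Submodule.span_le]
    rintro _ ⟨p, rfl⟩
    have hr := H46i.rank_one φ1 s1 p
    rw [h1] at hr
    have hb := congrArg γ.b1 hr
    rw [γ.semi1, γ.semi1] at hb
    have hu : IsUnit (tmap (awayMap a) 𝒞.B1 (a ⊗ₜ[k] (1 : 𝒞.B1))) :=
      hunit.map (Algebra.TensorProduct.includeLeft :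
        Localization.Away a →ₐ[k] (Localization.Away a) ⊗[k] 𝒞.B1)
    obtain ⟨u, hu⟩ := hu
    refine ⟨(↑u⁻¹ : (Localization.Away a) ⊗[k] 𝒞.B1) * tmap (awayMap a) 𝒞.B1 (φ1 p), ?_⟩
    change ((↑u⁻¹ : (Localization.Away a) ⊗[k] 𝒞.B1) * tmap (awayMap a) 𝒞.B1 (φ1 p)) • γ.b1 s1 =
      γ.b1 p
    rw [mul_smul, ← hb, ← hu, smul_smul, Units.inv_mul, one_smul]
  exact ⟨Nr, ⟨γ⟩, ⟨H60.isoSymm (H74.isoOfSurjective h f surj0 surj1)⟩⟩

/-- **TRIP-TRIV**, from `Stmt_GRAUERT`. -/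
theorem triv_of (hGr : Stmt_GRAUERT.{u}) : Stmt_TRIV.{u} := by
  intro k _ _ 𝒞 h R _ _ _ N _ hh1 _ hd1 t Nt β hU
  obtain ⟨e0, e1, e01, he0, he1⟩ := hU
  -- the generating section of the fibre
  have hu : Nt.r0 (e0.symm 1) = Nt.r1 (e1.symm 1) := by
    apply e01.injective
    rw [he0, he1, LinearEquiv.apply_symm_apply, LinearEquiv.apply_symm_apply, map_one, map_one]
  -- the generating section of the dual of the fibre
  have hu' : (H60.dual Nt h).r0 e0.toLinearMap = (H60.dual Nt h).r1 e1.toLinearMap := by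
    rw [dual_r0_eq h Nt e0.toLinearMap e01.toLinearMap he0,
      dual_r1_eq h Nt e1.toLinearMap e01.toLinearMap he1]
  -- lift both (Grauert)
  obtain ⟨-, -, hbc⟩ := hGr R N.toData (H7.stmt_VB k 𝒞 h R N) (genus 𝒞) hh1
  obtain ⟨s0, s1, hs, hs0, hs1⟩ := exists_lift_section h N t Nt β
    (@hbc k _ t.toRingHom.toAlgebra) _ _ hu
  obtain ⟨-, -, hbc'⟩ := hGr R (H60.dual N h).toData (H7.stmt_VB k 𝒞 h R (H60.dual N h))
    (genus 𝒞) hd1
  obtain ⟨φ0, φ1, hφ, hφ0, hφ1⟩ := exists_lift_section h (H60.dual N h) t (H60.dual Nt h)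
    (H60.dualBC h β) (@hbc' k _ t.toRingHom.toAlgebra) e0.toLinearMap e1.toLinearMap hu'
  -- the pairing is a function
  have hc : 𝒞.ι0 R (φ0 s0) = 𝒞.ι1 R (φ1 s1) := by
    rw [← H60.dual_r0_apply N h φ0 s0, ← H60.dual_r1_apply N h φ1 s1, hφ, hs]
  obtain ⟨a, ha0, ha1⟩ := h0_unitR h (φ0 s0) (φ1 s1) hc
  refine ⟨a, ?_, trivOn_of_pairing h N s0 s1 hs φ0 φ1 a ha0 ha1⟩
  -- its value at `t` is `1`
  intro hta
  have h1 : tmap t 𝒞.B0 (φ0 s0) = 1 := by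
    rw [← H60.dualBC_b0_apply h β φ0 s0, hφ0, hs0]
    exact e0.apply_symm_apply 1
  rw [ha0] at h1
  have h2 : tmap t 𝒞.B0 (a ⊗ₜ[k] (1 : 𝒞.B0)) = (t a) ⊗ₜ[k] (1 : 𝒞.B0) := rfl
  rw [h2, hta, TensorProduct.zero_tmul] at h1
  have := h.dom0
  have h3 := congrArg (Algebra.TensorProduct.lid k 𝒞.B0) h1
  rw [map_zero, map_one] at h3
  exact zero_ne_one h3

end Fermat.Agent.S25.Trip.H85
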