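/-
helper92, S25 package TRIP, leaf T-OPENGEN: the UNCONDITIONAL statement
(LIMISO = helper87, LIMOBJ = helper82, BCEX = helper36, BCUNIQ = helper73, BCCOMP = `H92.stmt_BCCOMP`).
-/
import Fermat.Agent.S25.Trip.H92_OpenGenClose
import Fermat.Agent.S25.Chart.H87_LimIsoU

set_option autoImplicit false

universe u

namespace Fermat.Agent.S25.Trip.H92

open Fermat.Agent.S25.Trip

/-- **T-OPENGEN**, unconditional. -/
theorem stmt_OPENGEN : Stmt_OPENGEN.{u} :=
  stmt_OPENGEN_of Fermat.Agent.S25.Chart.H87.stmt_LIMISO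

end Fermat.Agent.S25.Trip.H92
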