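/-
helper97, S25 (Jacobian exists), package TRIP part S, leaf SJ-K (link with NUM).

* `sjk_of : Num.Stmt_ISO → Num.Stmt_CHI → Num.Stmt_PTS → Stmt_SJK`.
* `isO_iff_isTwist` (unconditional): over `k`, `IsO L (ext0 J0) (ext1 J1)` iff `L` is the twist of a unit triple
  by `(J0, J1)`.
* dictionary: `ptI0 q = ext0 (pt0 q)`, `ptI1 q = ext1 (pt1 q)`, `divI0 q = ext0 (∏ pt0 (q i))`, …
-/
import Fermat.Agent.S25.Trip.DefsS
import Fermat.Agent.S25.Num.H97_MonoSec

set_option autoImplicit false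
set_option linter.style.haveILetI false

universe u v

open TensorProduct

namespace Fermat.Agent.S25.Trip.H97

open Fermat.Agent.S25.LB Fermat.Agent.S25.Num

/-! ## Invertible modules: the colon ideal -/

section Inv

variable {A : Type u} [CommRing A] {P : Type v} [AddCommGroup P] [Module A P]
  [Module.Invertible A P]

/-- `(J P : P) = J` for an invertible module `P`. -/
theorem mem_iff_forall_smul_mem (J : Ideal A) (c : A) :
    c ∈ J ↔ ∀ p : P, c • p ∈ J • (⊤ : Submodule A P) := by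
  constructor
  · intro hc p
    exact Submodule.smul_mem_smul hc Submodule.mem_top
  · intro h
    have key : ∀ t : Module.Dual A P ⊗[A] P, c * contractLeft A P t ∈ J := by
      intro t
      induction t using TensorProduct.induction_on with
      | zero => simp
      | tmul ℓ p =>
        rw [contractLeft_apply]
        have e : c * ℓ p = ℓ (c • p) := by rw [map_smul, smul_eq_mul]
        have hmem := Num.H97.dual_mem_idealOf ℓ (h p)
        rw [Num.H97.idealOf_smul_top] at hmem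
        rw [e]
        exact hmem
      | add x y hx hy =>
        rw [map_add, mul_add]
        exact J.add_mem hx hy
    obtain ⟨t, ht⟩ := Num.H97.exists_contract_one (A := A) (P := P)
    have := key t
    rwa [ht, mul_one] at this

end Inv

/-! ## The dictionary `k ⊗ B = B` for ideals -/

section Dict

variable {k : Type u} [Field k]

theorem mem_map_includeRight_iff (B : Type u) [CommRing B] [Algebra k B] (J : Ideal B) (b : B) :
    (Algebra.TensorProduct.includeRight (R := k) (A := k) b : k ⊗[k] B) ∈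
      J.map (Algebra.TensorProduct.includeRight : B →ₐ[k] k ⊗[k] B) ↔ b ∈ J := by
  constructor
  · intro h
    have e := Ideal.comap_map_of_bijective
      (Algebra.TensorProduct.includeRight : B →ₐ[k] k ⊗[k] B)
      (Num.H97.includeRight_bijective k B) (I := J)
    rw [← e]
    exact h
  · exact Ideal.mem_map_of_mem _

theorem graphIdeal_eq (B : Type u) [CommRing B] [Algebra k B] (q : B →ₐ[k] k) :
    graphIdeal q =
      (RingHom.ker q).map (Algebra.TensorProduct.includeRight : B →ₐ[k] k ⊗[k] B) := by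
  ext x
  obtain ⟨b, rfl⟩ := (Num.H97.includeRight_bijective k B).2 x
  rw [mem_map_includeRight_iff]
  simp [graphIdeal, evalAt, RingHom.mem_ker]

variable {𝒞 : CurveDatum k}

theorem comap_ι1_ext01 (I : Ideal 𝒞.B01) :
    Ideal.comap (𝒞.ι1 k) (Num.H97.ext01 I) = ext1 (Ideal.comap 𝒞.i1 I) := by
  ext x
  obtain ⟨b, rfl⟩ := (Num.H97.includeRight_bijective k 𝒞.B1).2 x
  rw [ext1, mem_map_includeRight_iff, Ideal.mem_comap, Ideal.mem_comap]
  have e : (𝒞.ι1 k) (Algebra.TensorProduct.includeRight (R := k) (A := k) b) =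
      Algebra.TensorProduct.includeRight (R := k) (A := k) (𝒞.i1 b) := rfl
  rw [e, Num.H97.ext01, mem_map_includeRight_iff]

theorem comap_ι0_ext01 (I : Ideal 𝒞.B01) :
    Ideal.comap (𝒞.ι0 k) (Num.H97.ext01 I) = ext0 (Ideal.comap 𝒞.i0 I) := by
  ext x
  obtain ⟨b, rfl⟩ := (Num.H97.includeRight_bijective k 𝒞.B0).2 x
  rw [ext0, mem_map_includeRight_iff, Ideal.mem_comap, Ideal.mem_comap]
  have e : (𝒞.ι0 k) (Algebra.TensorProduct.includeRight (R := k) (A := k) b) =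
      Algebra.TensorProduct.includeRight (R := k) (A := k) (𝒞.i0 b) := rfl
  rw [e, Num.H97.ext01, mem_map_includeRight_iff]

/-- the ideal in `B0` of a point given in a chart. -/
def pt0 : SPt 𝒞 k → Ideal 𝒞.B0
  | Sum.inl q0 => RingHom.ker q0
  | Sum.inr q1 => tr10 (RingHom.ker q1)

/-- the ideal in `B1` of a point given in a chart. -/
def pt1 : SPt 𝒞 k → Ideal 𝒞.B1
  | Sum.inl q0 => tr01 (RingHom.ker q0)
  | Sum.inr q1 => RingHom.ker q1

theorem ptI0_eq (q : SPt 𝒞 k) : ptI0 q = ext0 (pt0 q) := by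
  rcases q with q0 | q1
  · exact graphIdeal_eq 𝒞.B0 q0
  · change Ideal.comap (𝒞.ι0 k) (Ideal.map (𝒞.ι1 k) (graphIdeal q1)) = ext0 (tr10 (RingHom.ker q1))
    rw [graphIdeal_eq]
    change Ideal.comap (𝒞.ι0 k) (Ideal.map (𝒞.ι1 k) (ext1 (RingHom.ker q1))) = _
    rw [Num.H97.ext1_map, comap_ι0_ext01]
    rfl

theorem ptI1_eq (q : SPt 𝒞 k) : ptI1 q = ext1 (pt1 q) := by
  rcases q with q0 | q1
  · change Ideal.comap (𝒞.ι1 k) (Ideal.map (𝒞.ι0 k) (graphIdeal q0)) = ext1 (tr01 (RingHom.ker q0))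
    rw [graphIdeal_eq]
    change Ideal.comap (𝒞.ι1 k) (Ideal.map (𝒞.ι0 k) (ext0 (RingHom.ker q0))) = _
    rw [Num.H97.ext0_map, comap_ι1_ext01]
    rfl
  · exact graphIdeal_eq 𝒞.B1 q1

theorem ext0_prod {ι : Type*} (s : Finset ι) (J : ι → Ideal 𝒞.B0) :
    ext0 (k := k) (∏ i ∈ s, J i) = ∏ i ∈ s, ext0 (J i) := by
  classical
  induction s using Finset.induction_on with
  | empty =>
    simp only [Finset.prod_empty, Ideal.one_eq_top]
    exact Ideal.map_top _
  | insert a s ha ih =>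
    rw [Finset.prod_insert ha, Finset.prod_insert ha, ← ih]
    exact Ideal.map_mul _ _ _

theorem ext1_prod {ι : Type*} (s : Finset ι) (J : ι → Ideal 𝒞.B1) :
    ext1 (k := k) (∏ i ∈ s, J i) = ∏ i ∈ s, ext1 (J i) := by
  classical
  induction s using Finset.induction_on with
  | empty =>
    simp only [Finset.prod_empty, Ideal.one_eq_top]
    exact Ideal.map_top _
  | insert a s ha ih =>
    rw [Finset.prod_insert ha, Finset.prod_insert ha, ← ih]
    exact Ideal.map_mul _ _ _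

theorem divI0_eq {n : ℕ} (q : Fin n → SPt 𝒞 k) : divI0 q = ext0 (∏ i, pt0 (q i)) := by
  rw [ext0_prod]
  exact Finset.prod_congr rfl fun i _ => ptI0_eq (q i)

theorem divI1_eq {n : ℕ} (q : Fin n → SPt 𝒞 k) : divI1 q = ext1 (∏ i, pt1 (q i)) := by
  rw [ext1_prod]
  exact Finset.prod_congr rfl fun i _ => ptI1_eq (q i)

theorem ext0_injective {J J' : Ideal 𝒞.B0} (h : ext0 (k := k) J = ext0 J') : J = J' :=
  Num.H97.map_includeRight_injective k 𝒞.B0 h

theorem ext1_injective {J J' : Ideal 𝒞.B1} (h : ext1 (k := k) J = ext1 J') : J = J' :=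
  Num.H97.map_includeRight_injective k 𝒞.B1 h

end Dict

variable {k : Type u} [Field k] {𝒞 : CurveDatum k}

/-! ## `IsO` over `k` is a twist of the unit triple -/

/-- a twist of a unit triple has a section with the given divisor. -/
theorem isO_of_isTwist (_h : 𝒞.IsGood) (J0 : Ideal 𝒞.B0) (J1 : Ideal 𝒞.B1) (U L : Triple 𝒞 k)
    (hU : IsUnitTriple U) (hT : IsTwist J0 J1 U L) : IsO L (ext0 J0) (ext1 J1) := by
  obtain ⟨e0, e1, e01, hc0, hc1⟩ := hU
  obtain ⟨φ, i0, i1, hr0, hr1⟩ := hT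
  haveI := L.inv0
  haveI := L.inv1
  have hu0 : U.r0 (e0.symm 1) = e01.symm 1 := by
    apply e01.injective
    rw [hc0, LinearEquiv.apply_symm_apply, LinearEquiv.apply_symm_apply, map_one]
  have hu1 : U.r1 (e1.symm 1) = e01.symm 1 := by
    apply e01.injective
    rw [hc1, LinearEquiv.apply_symm_apply, LinearEquiv.apply_symm_apply, map_one]
  have hrange0 : ∀ p : L.P0, p ∈ LinearMap.range φ.f0 ↔
      ∃ d : k ⊗[k] 𝒞.B0, p = d • φ.f0 (e0.symm 1) := by
    intro p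
    constructor
    · rintro ⟨u, rfl⟩
      refine ⟨e0 u, ?_⟩
      rw [← map_smul]
      congr 1
      apply e0.injective
      rw [map_smul, LinearEquiv.apply_symm_apply, smul_eq_mul, mul_one]
    · rintro ⟨d, rfl⟩
      exact ⟨d • e0.symm 1, map_smul _ _ _⟩
  have hrange1 : ∀ p : L.P1, p ∈ LinearMap.range φ.f1 ↔
      ∃ d : k ⊗[k] 𝒞.B1, p = d • φ.f1 (e1.symm 1) := by
    intro p
    constructor
    · rintro ⟨u, rfl⟩
      refine ⟨e1 u, ?_⟩
      rw [← map_smul]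
      congr 1
      apply e1.injective
      rw [map_smul, LinearEquiv.apply_symm_apply, smul_eq_mul, mul_one]
    · rintro ⟨d, rfl⟩
      exact ⟨d • e1.symm 1, map_smul _ _ _⟩
  refine ⟨φ.f0 (e0.symm 1), φ.f1 (e1.symm 1), ?_, ?_, ?_, ?_, ?_⟩
  · rw [← φ.comm0, ← φ.comm1, hu0, hu1]
  · intro c hc
    rw [← map_smul] at hc
    have h1 : c • e0.symm 1 = 0 := i0 (hc.trans (map_zero _).symm)
    have h2 := congrArg e0 h1
    rwa [map_smul, LinearEquiv.apply_symm_apply, smul_eq_mul, mul_one, map_zero] at h2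
  · intro c hc
    rw [← map_smul] at hc
    have h1 : c • e1.symm 1 = 0 := i1 (hc.trans (map_zero _).symm)
    have h2 := congrArg e1 h1
    rwa [map_smul, LinearEquiv.apply_symm_apply, smul_eq_mul, mul_one, map_zero] at h2
  · intro c
    rw [mem_iff_forall_smul_mem (P := L.P0) (ext0 J0) c, ← hr0]
    exact forall_congr' fun p => hrange0 (c • p)
  · intro c
    rw [mem_iff_forall_smul_mem (P := L.P1) (ext1 J1) c, ← hr1]
    exact forall_congr' fun p => hrange1 (c • p)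

/-- a section with divisor `(J0, J1)` is a twist of any unit triple. -/
theorem isTwist_of_isO (_h : 𝒞.IsGood) (J0 : Ideal 𝒞.B0) (J1 : Ideal 𝒞.B1) (U L : Triple 𝒞 k)
    (hU : IsUnitTriple U) (hO : IsO L (ext0 J0) (ext1 J1)) : IsTwist J0 J1 U L := by
  obtain ⟨e0, e1, e01, hc0, hc1⟩ := hU
  obtain ⟨s0, s1, hs⟩ := hO
  have hg := hs.glue
  have hd0 := hs.div0
  have hd1 := hs.div1
  have hreg0 := hs.reg0
  have hreg1 := hs.reg1
  clear hs
  haveI := L.inv0
  haveI := L.inv1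
  have hf0 : ∀ u, (Num.H97.secHom U e0 e1 e01 hc0 hc1 s0 s1 hg).f0 u = e0 u • s0 :=
    fun u => rfl
  have hf1 : ∀ u, (Num.H97.secHom U e0 e1 e01 hc0 hc1 s0 s1 hg).f1 u = e1 u • s1 :=
    fun u => rfl
  refine ⟨Num.H97.secHom U e0 e1 e01 hc0 hc1 s0 s1 hg, ?_, ?_, ?_, ?_⟩
  · rw [← LinearMap.ker_eq_bot, LinearMap.ker_eq_bot']
    intro u hu
    rw [hf0] at hu
    have := hreg0 _ hu
    exact e0.injective (this.trans (map_zero _).symm)
  · rw [← LinearMap.ker_eq_bot, LinearMap.ker_eq_bot']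
    intro u hu
    rw [hf1] at hu
    have := hreg1 _ hu
    exact e1.injective (this.trans (map_zero _).symm)
  · have hN := Num.H97.eq_idealOf_smul_top
      (LinearMap.range (Num.H97.secHom U e0 e1 e01 hc0 hc1 s0 s1 hg).f0)
    have hI : Num.H97.idealOf
        (LinearMap.range (Num.H97.secHom U e0 e1 e01 hc0 hc1 s0 s1 hg).f0) = ext0 J0 := by
      ext c
      rw [mem_iff_forall_smul_mem (P := L.P0), ← hN, hd0]
      refine forall_congr' fun p => ?_
      constructor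
      · rintro ⟨u, hu⟩
        exact ⟨e0 u, by rw [← hu, hf0]⟩
      · rintro ⟨d, hd⟩
        exact ⟨e0.symm d, by rw [hf0, LinearEquiv.apply_symm_apply, hd]⟩
    rw [← hI]
    exact hN
  · have hN := Num.H97.eq_idealOf_smul_top
      (LinearMap.range (Num.H97.secHom U e0 e1 e01 hc0 hc1 s0 s1 hg).f1)
    have hI : Num.H97.idealOf
        (LinearMap.range (Num.H97.secHom U e0 e1 e01 hc0 hc1 s0 s1 hg).f1) = ext1 J1 := by
      ext c
      rw [mem_iff_forall_smul_mem (P := L.P1), ← hN, hd1]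
      refine forall_congr' fun p => ?_
      constructor
      · rintro ⟨u, hu⟩
        exact ⟨e1 u, by rw [← hu, hf1]⟩
      · rintro ⟨d, hd⟩
        exact ⟨e1.symm d, by rw [hf1, LinearEquiv.apply_symm_apply, hd]⟩
    rw [← hI]
    exact hN

/-- **SJ-K, second half** (unconditional, given one unit triple). -/
theorem isO_iff_isTwist (h : 𝒞.IsGood) (hex : ∃ U : Triple 𝒞 k, IsUnitTriple U)
    (J0 : Ideal 𝒞.B0) (J1 : Ideal 𝒞.B1) (L : Triple 𝒞 k) :
    IsO L (ext0 J0) (ext1 J1) ↔ ∃ U : Triple 𝒞 k, IsUnitTriple U ∧ IsTwist J0 J1 U L := by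
  constructor
  · intro hO
    obtain ⟨U, hU⟩ := hex
    exact ⟨U, hU, isTwist_of_isO h J0 J1 U L hU hO⟩
  · rintro ⟨U, hU, hT⟩
    exact isO_of_isTwist h J0 J1 U L hU hT

/-! ## The degree of a sum of points -/

theorem isEffDiv_pt [IsAlgClosed k] (hP : Stmt_PTS.{u}) (h : 𝒞.IsGood) (q : SPt 𝒞 k) :
    IsEffDiv (pt0 q) (pt1 q) ∧ ddeg (pt0 q) (pt1 q) = 1 := by
  rcases q with q0 | q1
  · obtain ⟨h1, h2, -⟩ := (hP k 𝒞 h).1 q0
    exact ⟨h1, h2⟩
  · obtain ⟨h1, h2, -⟩ := (hP k 𝒞 h).2.1 q1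
    exact ⟨h1, h2⟩

theorem isEffDiv_top (h : 𝒞.IsGood) : IsEffDiv (⊤ : Ideal 𝒞.B0) (⊤ : Ideal 𝒞.B1) := by
  haveI := h.dom0
  haveI := h.dom1
  refine ⟨top_ne_bot, top_ne_bot, ?_⟩
  rw [Ideal.map_top, Ideal.map_top]

theorem ddeg_top : ddeg (⊤ : Ideal 𝒞.B0) (⊤ : Ideal 𝒞.B1) = 0 := by
  have h0 : Module.finrank k (𝒞.B0 ⧸ (⊤ : Ideal 𝒞.B0)) = 0 :=
    haveI : Subsingleton (𝒞.B0 ⧸ (⊤ : Ideal 𝒞.B0)) := Ideal.Quotient.subsingleton_iff.mpr rfl
    Module.finrank_zero_of_subsingleton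
  have h1 : Module.finrank k (𝒞.B1 ⧸ (⊤ : Ideal 𝒞.B1)) = 0 :=
    haveI : Subsingleton (𝒞.B1 ⧸ (⊤ : Ideal 𝒞.B1)) := Ideal.Quotient.subsingleton_iff.mpr rfl
    Module.finrank_zero_of_subsingleton
  have h01 : Module.finrank k (𝒞.B01 ⧸ (⊤ : Ideal 𝒞.B0).map 𝒞.i0) = 0 :=
    haveI : Subsingleton (𝒞.B01 ⧸ (⊤ : Ideal 𝒞.B0).map 𝒞.i0) :=
      Ideal.Quotient.subsingleton_iff.mpr (Ideal.map_top _)
    Module.finrank_zero_of_subsingleton
  rw [ddeg, h0, h1, h01]
  simp

theorem isEffDiv_prod [IsAlgClosed k] (hP : Stmt_PTS.{u}) (h : 𝒞.IsGood) {ι : Type*}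
    (s : Finset ι) (q : ι → SPt 𝒞 k) :
    IsEffDiv (∏ i ∈ s, pt0 (q i)) (∏ i ∈ s, pt1 (q i)) ∧
      ddeg (∏ i ∈ s, pt0 (q i)) (∏ i ∈ s, pt1 (q i)) = s.card := by
  classical
  induction s using Finset.induction_on with
  | empty =>
    simp only [Finset.prod_empty, Ideal.one_eq_top, Finset.card_empty, Nat.cast_zero]
    exact ⟨isEffDiv_top h, ddeg_top⟩
  | insert a s ha ih =>
    rw [Finset.prod_insert ha, Finset.prod_insert ha, Finset.card_insert_of_notMem ha]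
    obtain ⟨e1, d1⟩ := isEffDiv_pt hP h (q a)
    obtain ⟨e2, d2⟩ := ih
    obtain ⟨e3, d3, -⟩ := (hP k 𝒞 h).2.2 _ _ _ _ e1 e2
    refine ⟨e3, ?_⟩
    rw [d3, d1, d2]
    push_cast
    ring

/-- **SJ-K**, against NUM-ISO, NUM-CHI, NUM-PTS. -/
theorem sjk_of (hI : Stmt_ISO.{u}) (hC : Stmt_CHI.{u}) (hP : Stmt_PTS.{u}) : Stmt_SJK.{u} := by
  intro k _ _ 𝒞 h n q L
  obtain ⟨-, -, -, hex, hunit⟩ := hI k 𝒞 h
  refine ⟨fun hO => ?_, fun J0 J1 h0 h1 => ?_⟩
  · rw [divI0_eq, divI1_eq] at hO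
    obtain ⟨U, hU, hT⟩ := (isO_iff_isTwist h hex _ _ L).mp hO
    obtain ⟨-, hc, -⟩ := hC k 𝒞 h _ _ U L hT
    obtain ⟨-, hd⟩ := isEffDiv_prod hP h Finset.univ q
    obtain ⟨u0, u1⟩ := hunit U hU
    rw [hc, hd, chi, u0, u1, Finset.card_univ, Fintype.card_fin]
    push_cast
    ring
  · rw [h0, h1]
    exact isO_iff_isTwist h hex J0 J1 L

end Fermat.Agent.S25.Trip.H97
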