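/-
helper97, S25 package TRIP part S: SJ-K unconditional (`sjk_of` with NUM-ISO of helper45, NUM-CHI of helper50 and
NUM-PTS of helper38).
-/
import Fermat.Agent.S25.Trip.H97_SjK
import Fermat.Agent.S25.Num.H45_Iso
import Fermat.Agent.S25.Num.H50_ChiStmt
import Fermat.Agent.S25.Num.H38_Pts

set_option autoImplicit false

universe u

namespace Fermat.Agent.S25.Trip.H97

/-- **SJ-K**, unconditional. -/
theorem stmt_SJK : Stmt_SJK.{u} :=
  sjk_of Fermat.Agent.S25.Num.H45.stmt_ISO Fermat.Agent.S25.Num.H50.stmt_CHI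
    Fermat.Agent.S25.Num.H38.stmt_PTS

end Fermat.Agent.S25.Trip.H97
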