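/-
helper98: TRIP-DEGUNIT, unconditional.  `degunit_of` (H98_DegUnit) applied to
helper36's `stmt_DEGBC`, `stmt_DEGK` (H36_DegBC).
-/
import Fermat.Agent.S25.Trip.H98_DegUnit
import Fermat.Agent.S25.Trip.H36_DegBC

universe u

namespace Fermat.Agent.S25.Trip.H98

/-- TRIP-DEGUNIT, unconditional. -/
theorem stmt_DEGUNIT : Stmt_DEGUNIT.{u} :=
  degunit_of H36.stmt_DEGBC H36.stmt_DEGK

end Fermat.Agent.S25.Trip.H98
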